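import Fermat.Agent.CFT.Coh.Transfer
import Fermat.Agent.CFT.PT.Link

/-!
# The real place sees nothing at odd `p`
-/

set_option autoImplicit false
set_option linter.unusedSectionVars false
set_option linter.style.haveILetI false

noncomputable section

namespace Fermat.Agent.CFT.PT

open ExtCitation Fermat.Agent.Arith groupCohomology

/-- A cocycle killed by a number prime to the group order is a coboundary. -/
theorem isCoboundary₂_of_coprime {D Z : Type*} [Group D] [Fintype D] [AddCommGroup Z]
    [DistribMulAction D Z] {p : ℕ} (hp : (Nat.card D).Coprime p) (c : D × D → Z)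
    (hc : IsCocycle₂ c) (hpc : ∀ x, p • c x = 0) : IsCoboundary₂ c := by
  obtain ⟨b, hb⟩ := index_nsmul_isCoboundary₂ (⊥ : Subgroup D) c hc
    ⟨fun _ => c (1, 1), fun a a' => by
      simp only [Subsingleton.elim a 1, Subsingleton.elim a' 1, OneMemClass.coe_one, one_smul,
        sub_self, zero_add]⟩
  rw [Subgroup.index_bot] at hb
  obtain ⟨s, t, hst⟩ : IsCoprime (Nat.card D : ℤ) (p : ℤ) :=
    Int.isCoprime_iff_nat_coprime.mpr (by simpa using hp)
  refine ⟨fun d => s • b d, fun a a' => ?_⟩
  have e : a • b a' - b (a * a') + b a = (Nat.card D : ℤ) • c (a, a') := by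
    rw [natCast_zsmul]; exact hb a a'
  show a • (s • b a') - s • b (a * a') + s • b a = _
  rw [smul_comm a s, ← smul_sub, ← smul_add, e, smul_smul]
  conv_rhs => rw [← one_smul ℤ (c (a, a')), ← hst, add_smul, mul_smul t, natCast_zsmul, hpc,
    smul_zero, add_zero]

theorem card_archimedean_dvd : Nat.card archimedeanDecomposition ∣ 2 := by
  rw [archimedeanDecomposition, Nat.card_zpowers]
  exact orderOf_dvd_of_pow_eq_one complexConjugation_sq

/-- Complex conjugation moves the primitive roots of unity of odd order. -/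
theorem eq_one_of_fix_root {p : ℕ} [hp : Fact p.Prime] (hp2 : p ≠ 2) {ζ : QBar}
    (hζ : IsPrimitiveRoot ζ p) (s : archimedeanDecomposition) (hs : (s : GQ) ζ = ζ) : s = 1 := by
  obtain ⟨k, hk⟩ := Subgroup.mem_zpowers_iff.1 s.2
  refine Subtype.ext ?_
  rcases Int.even_or_odd k with ⟨j, hj⟩ | ⟨j, hj⟩
  · rw [← hk, hj, ← two_mul, zpow_mul, zpow_ofNat, complexConjugation_sq, one_zpow]
    rfl
  exfalso
  have hc : complexConjugation ζ = ζ := by
    rw [← hk, hj, zpow_add, zpow_mul, zpow_ofNat, complexConjugation_sq, one_zpow, one_mul,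
      zpow_one] at hs
    exact hs
  set z := complexEmbedding ζ
  have hz : IsPrimitiveRoot z p := hζ.map_of_injective complexEmbedding.toRingHom.injective
  have him : z.im = 0 := Complex.conj_eq_iff_im.1 (by
    rw [← complexEmbedding_complexConjugation, hc])
  have hre : (z.re : ℂ) = z := Complex.conj_eq_iff_re.1 (Complex.conj_eq_iff_im.2 him)
  have hodd : Odd p := hp.out.odd_of_ne_two hp2
  have h1 : z.re ^ p = 1 := by
    have := hz.pow_eq_one
    rw [← hre] at this
    exact_mod_cast this
  have h2 : z.re = 1 := hodd.strictMono_pow.injective (a₁ := z.re) (a₂ := 1) (by rw [h1, one_pow])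
  exact hz.ne_one hp.out.one_lt (by rw [← hre, h2, Complex.ofReal_one])

variable {K : IntermediateField ℚ QBar} [FiniteDimensional ℚ K] [Normal ℚ K]
  {A : Type*} [AddCommGroup A] [DistribMulAction (K ≃ₐ[ℚ] K) A]

/-- Classes killed by an odd prime die at the real place. -/
theorem exists_arch_cochain {p : ℕ} [hp : Fact p.Prime] (hp2 : p ≠ 2) (hA : ∀ a : A, p • a = 0)
    {c : GQ × GQ → DualMod K A} (hc : IsCocycle₂ c) :
    ∃ F : IntermediateField ℚ QBar, FiniteDimensional ℚ F ∧
      ∃ t : archimedeanDecomposition → DualMod K A,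
        (∀ d s : archimedeanDecomposition, (s : GQ) ∈ F.fixingSubgroup → t (d * s) = t d) ∧
        ∀ d d' : archimedeanDecomposition,
          c ((d : GQ), (d' : GQ)) = (d : GQ) • t d' - t (d * d') + t d := by
  haveI : Finite archimedeanDecomposition := Nat.finite_of_card_ne_zero fun h => by
    have := card_archimedean_dvd; rw [h] at this; norm_num at this
  letI : Fintype archimedeanDecomposition := Fintype.ofFinite _
  haveI : NeZero p := ⟨hp.out.ne_zero⟩
  haveI : NeZero (p : QBar) := ⟨Nat.cast_ne_zero.mpr hp.out.ne_zero⟩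
  obtain ⟨ζ, hζ⟩ := HasEnoughRootsOfUnity.exists_primitiveRoot QBar p
  obtain ⟨t, ht⟩ := isCoboundary₂_of_coprime
    (D := archimedeanDecomposition)
    (Nat.Coprime.coprime_dvd_left card_archimedean_dvd
      (Nat.coprime_two_left.2 (hp.out.odd_of_ne_two hp2)))
    (fun x => c ((x.1 : GQ), (x.2 : GQ))) (fun a b d => hc (a : GQ) (b : GQ) (d : GQ))
    fun x => TwHom.ext fun a => by rw [TwHom.nsmul_apply, ← map_nsmul, hA, map_zero]; rfl
  refine ⟨IntermediateField.adjoin ℚ {ζ},
    IntermediateField.adjoin.finiteDimensional (Algebra.IsIntegral.isIntegral ζ), t,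
    fun d s hs => ?_, fun d d' => (ht d d').symm⟩
  rw [eq_one_of_fix_root hp2 hζ s ((IntermediateField.mem_fixingSubgroup_iff _ _).1 hs ζ
    (IntermediateField.subset_adjoin ℚ _ rfl)), mul_one]

end Fermat.Agent.CFT.PT
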