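import Fermat.Agent.CFT.Idele.IndexLemma
import Fermat.Agent.CFT.PT.Arith.Basic
import Fermat.Agent.CFT.PT.Glue

/-!
# Maps linked to the zero cocycle: extensions, local parts at `S` and unit families
-/

set_option autoImplicit false
set_option synthInstance.maxHeartbeats 200000
set_option maxHeartbeats 800000
set_option linter.unusedSectionVars false
set_option linter.style.haveILetI false

noncomputable section

namespace Fermat.Agent.CFT.PT

open ExtCitation Fermat.Agent.Arith IntermediateField Fermat.Agent.CFT.Local Fermat.Agent.CFT.Idele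
open Fermat.Agent.CFT.Duality groupCohomology

local instance factPrimeLinkedZero (q : Nat.Primes) : Fact (q : ℕ).Prime := ⟨q.2⟩

variable {S : Finset Nat.Primes} {L : IntermediateField ℚ QBar} [FiniteDimensional ℚ L]
  [Normal ℚ L]

theorem normAt_eq_zpow (hL : L.IsUnramifiedOutside S) {q : Nat.Primes} (hq : q ∉ S) (g : GQ)
    (x : J L) : ∃ n : ℤ, normAt L q g x = (q : ℝ) ^ n := by
  obtain ⟨n, hn⟩ := exists_norm_eq_zpow_of_ur L hL hq (val x.toMul q (res L g))
  exact ⟨n, (norm_val_eq L x q g).symm.trans hn⟩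

theorem nsmul_mem_divOrd (hL : L.IsUnramifiedOutside S) (m : ℕ) (x : J L) :
    m • x ∈ divOrd L m (S : Set Nat.Primes) := fun q hq g => by
  obtain ⟨n, hn⟩ := normAt_eq_zpow hL (by simpa using hq) g x
  exact ⟨n, by rw [normAt_nsmul, hn, ← zpow_natCast, ← zpow_mul, mul_comm]⟩

/-- An idele of powers of the primes with the halved orders of a given one. -/
theorem exists_root_orders {p : ℕ} [hp : Fact p.Prime] {x : J L}
    (hx : x ∈ divOrd L p (S : Set Nat.Primes)) :
    ∃ z : J L, ∀ q : Nat.Primes, q ∉ S → ∀ g, normAt L q g z ^ p = normAt L q g x := by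
  classical
  let n : Nat.Primes → GQ → ℤ := fun q g => if q ∈ S then 0 else expAt q (normAt L q g x) / p
  have hn : ∀ q, q ∉ S → ∀ g, normAt L q g x = (q : ℝ) ^ ((p : ℤ) * n q g) := fun q hq g => by
    obtain ⟨m, hm⟩ := hx q (by simpa using hq) g
    simp only [n, if_neg hq]
    rw [hm, expAt_zpow, Int.mul_ediv_cancel_left _ (Int.natCast_ne_zero.2 hp.out.ne_zero)]
  have hne : ∀ q : Nat.Primes, ((q : ℕ) : Ω q) ≠ 0 := fun q => Nat.cast_ne_zero.2 q.2.ne_zero
  let f : PreIdele := fun q g => Units.mk0 _ (zpow_ne_zero (-n q g) (hne q))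
  obtain ⟨heq, ⟨T, hT⟩, hinv⟩ := mem_idl.1 x.toMul.2
  have hnorm : ∀ (q : Nat.Primes) g, ‖((f q g : (Ω q)ˣ) : Ω q)‖ = (q : ℝ) ^ n q g := fun q g => by
    show ‖((q : ℕ) : Ω q) ^ (-n q g)‖ = _
    rw [norm_zpow, ← map_natCast (algebraMap ℚ_[(q : ℕ)] (Ω q)), norm_algebraMap', Padic.norm_p,
      inv_zpow', neg_neg]
  have hequi : ∀ (q : Nat.Primes) (τ : Ω q ≃ₐ[ℚ_[(q : ℕ)]] Ω q) g,
      n q (localGaloisToGlobal (q : ℕ) τ * g) = n q g := fun q τ g => by
    simp only [n]
    congr 3
    show ‖((x.toMul : PreIdele) q _ : Ω q)‖ = ‖((x.toMul : PreIdele) q g : Ω q)‖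
    rw [heq q τ g, norm_algEquiv_Ω]
  have hf : f ∈ idl L := mem_idl.2 ⟨fun q τ g => by
      show ((q : ℕ) : Ω q) ^ (-n q (localGaloisToGlobal (q : ℕ) τ * g)) =
        τ (((q : ℕ) : Ω q) ^ (-n q g))
      rw [hequi, map_zpow₀, map_natCast],
    ⟨S ∪ T, fun q hq g => by
      rw [Finset.mem_union, not_or] at hq
      have h0 : n q g = 0 := by
        have h1 := hn q hq.1 g
        rw [show normAt L q g x = 1 from hT q hq.2 g] at h1
        have h2 := congrArg (expAt q) h1
        rw [expAt_zpow, show (1 : ℝ) = ((q : ℕ) : ℝ) ^ (0 : ℤ) from (zpow_zero _).symm,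
          expAt_zpow] at h2
        exact ((mul_eq_zero.1 h2.symm).resolve_left (Int.natCast_ne_zero.2 hp.out.ne_zero))
      rw [hnorm, h0, zpow_zero]⟩,
    fun s hs => by
      funext q g
      refine Units.ext ?_
      show ((q : ℕ) : Ω q) ^ (-n q (g * s)) = _
      simp only [n]
      congr 4
      refine congrArg (expAt q) ?_
      show ‖((x.toMul : PreIdele) q (g * s) : Ω q)‖ = ‖((x.toMul : PreIdele) q g : Ω q)‖
      conv_rhs => rw [← hinv s hs]
      rfl⟩
  refine ⟨Additive.ofMul ⟨f, hf⟩, fun q hq g => ?_⟩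
  show ‖((f q g : (Ω q)ˣ) : Ω q)‖ ^ p = _
  rw [hnorm, hn q hq g, ← zpow_natCast, ← zpow_mul, mul_comm]

variable {K : IntermediateField ℚ QBar} [FiniteDimensional ℚ K] [Normal ℚ K]
  {A ι : Type*} [AddCommGroup A] [DistribMulAction (K ≃ₐ[ℚ] K) A] [Fintype ι] {p : ℕ}
  [hp : Fact p.Prime] {ε : Lat (K ≃ₐ[ℚ] K) ι →+ A} (hε : Presentation p ε)

theorem proj_diag_zero (a : Additive Lˣ) : proj L (diag L a) = 0 :=
  (proj_eq_zero_iff L).2 ⟨a.toMul, rfl⟩

omit hp in
/-- Induction on lattices. -/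
@[elab_as_elim]
theorem latInduction {motive : Lat (K ≃ₐ[ℚ] K) ι → Prop} (h0 : motive 0)
    (hadd : ∀ x y, motive x → motive y → motive (x + y)) (hneg : ∀ x, motive x → motive (-x))
    (he : ∀ i σ, motive (Lat.e i σ)) (x : Lat (K ≃ₐ[ℚ] K) ι) : motive x := by
  let N : AddSubgroup (Lat (K ≃ₐ[ℚ] K) ι) :=
    { carrier := {x | motive x}
      zero_mem' := h0
      add_mem' := fun hx hy => hadd _ _ hx hy
      neg_mem' := fun hx => hneg _ hx }
  show x ∈ N
  rw [Lat.eq_sum x]
  exact sum_mem fun r _ => zsmul_mem (show Lat.e r.1 r.2 ∈ N from he r.1 r.2) _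

/-- An equivariant map on the lattice with given values at the first basis vectors. -/
def latEquiv {X : Type*} [AddCommGroup X] [DistribMulAction (K ≃ₐ[ℚ] K) X] (z : ι → X) :
    Lat (K ≃ₐ[ℚ] K) ι →+ X :=
  Lat.ofBasis fun i g => g • z i

theorem latEquiv_smul {X : Type*} [AddCommGroup X] [DistribMulAction (K ≃ₐ[ℚ] K) X] (z : ι → X)
    (g : K ≃ₐ[ℚ] K) (x : Lat (K ≃ₐ[ℚ] K) ι) : latEquiv z (g • x) = g • latEquiv z x :=
  Lat.map_smul_of_basis _ g (fun i h => by simp only [latEquiv, Lat.ofBasis_e, mul_smul]) x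

theorem latEquiv_e {X : Type*} [AddCommGroup X] [DistribMulAction (K ≃ₐ[ℚ] K) X] (z : ι → X)
    (i : ι) (g : K ≃ₐ[ℚ] K) : latEquiv z (Lat.e i g) = g • z i := by
  simp only [latEquiv, Lat.ofBasis_e]

/-- A map linked to zero is an extension plus a part at `S` plus unit families off `S`. -/
theorem exists_split_of_linked_zero {f : equivHom (C := C K) hε.isStable_ker} (hl : Linked hε S 0 f.1) :
    ∃ (Y : Lat (K ≃ₐ[ℚ] K) ι →+ C K) (w u : equivHom (C := J K) hε.isStable_ker),
      (∀ (g : K ≃ₐ[ℚ] K) x, Y (g • x) = g • Y x) ∧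
      (∀ s, w.1 s ∈ supportedIn K (S : Set Nat.Primes)) ∧
      (∀ s, u.1 s ∈ unitsOff K (S : Set Nat.Primes)) ∧
      f.1 = Y.comp ε.ker.subtype + (proj K).comp w.1 + (proj K).comp u.1 := by
  classical
  obtain ⟨L, hfd, hn, le, hur, b, e, hl⟩ := hl
  letI := hfd; letI := hn
  have he : IsCocycle₁ e := fun σ τ => by
    obtain ⟨g, rfl⟩ := AlgEquiv.restrictNormalHom_surjective (K₁ := L) QBar σ
    obtain ⟨g', rfl⟩ := AlgEquiv.restrictNormalHom_surjective (K₁ := L) QBar τ
    have h1 := hl.spec g g'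
    rw [Pi.zero_apply, map_zero, ← map_zero (toQHom (K := K) (L := L) (h := le)
      (P := Lat (K ≃ₐ[ℚ] K) ι))] at h1
    have h2 := (toQHom_injective h1).symm
    rw [dd, sub_add_eq_add_sub, sub_eq_zero] at h2
    exact h2.symm
  obtain ⟨y, hy⟩ := isCoboundary₁_twHom_of_h1Zero e he (h1Zero_units (levelRes le).ker)
  let b' : ε.ker →+ J L := b - ((diag L).comp y.toHom).comp ε.ker.subtype
  have hb' : ∀ (σ : L ≃ₐ[ℚ] L) (s : ε.ker),
      σ • b' (smulS hε.isStable_ker (levelRes le σ⁻¹) s) = b' s := fun σ s => by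
    rw [← sub_eq_zero]
    have h1 := hl.coboundary σ s
    rw [← hy σ, TwHom.sub_apply, TwHom.smul_apply, map_sub, diag_smul] at h1
    simp only [b', AddMonoidHom.sub_apply, AddMonoidHom.comp_apply, AddSubgroup.coe_subtype,
      coe_smulS, TwHom.toHom_apply, smul_sub]
    rw [← sub_eq_zero] at h1
    rw [← h1]
    abel
  have hfix : ∀ s : ε.ker, ∀ n ∈ (levelRes le).ker, n • b' s = b' s := fun s n hn => by
    have e1 := hb' n s
    rwa [map_inv, MonoidHom.mem_ker.1 hn, inv_one,
      show smulS hε.isStable_ker (1 : K ≃ₐ[ℚ] K) s = s from Subtype.ext (one_smul _ _)] at e1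
  choose v hv using fun s => exists_inclJ_eq le (hfix s)
  let v' : ε.ker →+ J K := AddMonoidHom.mk' v fun s t => inclJ_injective le (by
    rw [map_add (inclJ le), hv, hv, hv, map_add b'])
  have hve : IsEquivariantOn hε.isStable_ker v' := fun g s => by
    obtain ⟨σ, rfl⟩ := levelRes_surjective le g
    refine inclJ_injective le ?_
    show inclJ le (v _) = inclJ le (levelRes le σ • v s)
    rw [hv, ← smul_inclJ, hv, ← hb' σ (smulS hε.isStable_ker (levelRes le σ) s), smulS_smulS,
      map_inv, inv_mul_cancel,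
      show smulS hε.isStable_ker (1 : K ≃ₐ[ℚ] K) s = s from Subtype.ext (one_smul _ _)]
  have hvf : ∀ s, proj K (v' s) = f.1 s := fun s => inclC_injective le (by
    show inclC le (proj K (v s)) = _
    rw [inclC_proj, hv, ← hl.proj_b]
    simp only [b', AddMonoidHom.sub_apply, AddMonoidHom.comp_apply, map_sub, proj_diag_zero,
      sub_zero])
  have hgood : ∀ x, v' (mulP hε.smul_mem x) ∈ divOrd K p (S : Set Nat.Primes) := fun x => by
    rw [← inclJ_mem_divOrd_iff le]
    show inclJ le (v _) ∈ _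
    rw [hv]
    simp only [b', AddMonoidHom.sub_apply, AddMonoidHom.comp_apply, AddSubgroup.coe_subtype,
      TwHom.toHom_apply, coe_mulP, map_nsmul]
    exact sub_mem (hl.good x) (nsmul_mem_divOrd hur p _)
  choose z hz using fun i : ι => exists_root_orders (hgood (Lat.e i 1))
  let Z : Lat (K ≃ₐ[ℚ] K) ι →+ J K := latEquiv z
  have hZr : IsEquivariantOn hε.isStable_ker (Z.comp ε.ker.subtype) := fun g s => by
    exact latEquiv_smul z g (s : Lat (K ≃ₐ[ℚ] K) ι)
  have hord : ∀ (x : Lat (K ≃ₐ[ℚ] K) ι) (q : Nat.Primes), q ∉ S → ∀ g,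
      normAt K q g (v' (mulP hε.smul_mem x) - p • Z x) = 1 := by
    intro x
    induction x using latInduction with
    | h0 => intro q _ g; rw [map_zero, map_zero, map_zero, nsmul_zero, sub_zero, normAt_zero]
    | hadd x y hx hy =>
      intro q hq g
      rw [map_add, map_add, map_add Z, nsmul_add, add_sub_add_comm, normAt_add, hx q hq g,
        hy q hq g, one_mul]
    | hneg x hx =>
      intro q hq g
      rw [map_neg, map_neg, map_neg Z, neg_nsmul, ← neg_sub', normAt_neg, hx q hq g, inv_one]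
    | he i σ =>
      intro q hq g
      have e1 : mulP hε.smul_mem (Lat.e i σ) =
          smulS hε.isStable_ker σ (mulP hε.smul_mem (Lat.e i 1)) := by
        rw [smulS_mulP hε.isStable_ker, Lat.smul_e, mul_one]
      rw [e1, hve, show Z (Lat.e i σ) = σ • z i from latEquiv_e z i σ, smul_comm p σ,
        ← smul_sub, ← res_lift K σ, normAt_smul_lift, sub_eq_add_neg, normAt_add, normAt_neg,
        normAt_nsmul, hz i q hq, mul_inv_cancel₀]
      show ‖(((v' _).toMul : PreIdele) q _ : Ω q)‖ ≠ 0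
      exact norm_ne_zero_iff.2 (Units.ne_zero _)
  set d : equivHom (C := J K) hε.isStable_ker :=
    ⟨v', hve⟩ - ⟨Z.comp ε.ker.subtype, hZr⟩ with hd
  have hdu : ∀ s, d.1 s ∈ unitsOutside K (S : Set Nat.Primes) := fun s q hq g => by
    have h1 := hord s q (by simpa using hq) g
    rw [mulP_coe, map_nsmul, ← smul_sub, normAt_nsmul] at h1
    exact (pow_eq_one_iff_of_nonneg (norm_nonneg _) hp.out.ne_zero).1 h1
  refine ⟨(proj K).comp Z, partHom hε (S : Set Nat.Primes) d,
    partHom hε ((S : Set Nat.Primes)ᶜ) d, fun g x => ?_, fun s => partAt_mem_supportedIn _ _,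
    fun s => mem_unitsOff_of_mem (partAt_mem_supportedIn _ _) fun q hq g => ?_,
    AddMonoidHom.ext fun s => ?_⟩
  · show proj K (Z _) = g • proj K (Z x)
    rw [latEquiv_smul, proj_smul]
  · show normAt K q g (partAt (S : Set Nat.Primes)ᶜ (d.1 s)) = 1
    rw [← norm_val_eq, val_partAt, if_pos (by exact hq), norm_val_eq]
    exact hdu s q hq g
  · have e1 : partAt (S : Set Nat.Primes) (d.1 s) + partAt (S : Set Nat.Primes)ᶜ (d.1 s) =
        d.1 s := J_ext fun q σ => by
      rw [val_add_J, val_partAt, val_partAt]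
      by_cases hq : q ∈ (S : Set Nat.Primes) <;> simp [hq]
    simp only [AddMonoidHom.add_apply, AddMonoidHom.comp_apply, AddSubgroup.coe_subtype]
    show _ = proj K (Z s) + proj K (partAt _ (d.1 s)) + proj K (partAt _ (d.1 s))
    rw [add_assoc, ← map_add (proj K), ← map_add (proj K), e1]
    show _ = proj K (Z s + (v' s - Z s))
    rw [add_sub_cancel, hvf]

end Fermat.Agent.CFT.PT
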