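import Fermat.Agent.CFT.Idele.KummerDual
import Fermat.Agent.CFT.PT.Arith.Roots
import Fermat.Agent.CFT.PT.LinkedZero

/-!
# The level cut out by all `p`-th roots unramified outside `S`
-/

set_option autoImplicit false
set_option synthInstance.maxHeartbeats 200000
set_option maxHeartbeats 400000
set_option linter.unusedSectionVars false
set_option linter.style.haveILetI false

noncomputable section

namespace Fermat.Agent.CFT.PT

open ExtCitation Fermat.Agent.Arith IntermediateField Fermat.Agent.CFT.Local Fermat.Agent.CFT.Idele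
open Fermat.Agent.CFT.Duality
open scoped Pointwise

local instance factPrimeBigLevel (q : Nat.Primes) : Fact (q : ℕ).Prime := ⟨q.2⟩

/-- Roots of elements of `K` with divisible orders off `S`. -/
def rootSet (p : ℕ) (S : Finset Nat.Primes) (K : IntermediateField ℚ QBar) : Set QBar :=
  {y | y ≠ 0 ∧ y ^ p ∈ K ∧ ∀ q : Nat.Primes, q ∉ S → ∀ g : GQ,
    ∃ n : ℤ, ‖emb q (g y)‖ = (q : ℝ) ^ n}

/-- The level generated by these roots. -/
def bigLevel (p : ℕ) (S : Finset Nat.Primes) (K : IntermediateField ℚ QBar) :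
    IntermediateField ℚ QBar :=
  K ⊔ IntermediateField.adjoin ℚ (rootSet p S K)

variable {p : ℕ} [hp : Fact p.Prime] {S : Finset Nat.Primes} {K : IntermediateField ℚ QBar}

omit hp in
theorem le_bigLevel : K ≤ bigLevel p S K := le_sup_left

omit hp in
theorem mem_bigLevel {y : QBar} (hy : y ∈ rootSet p S K) : y ∈ bigLevel p S K :=
  (le_sup_right : IntermediateField.adjoin ℚ (rootSet p S K) ≤ bigLevel p S K)
    (IntermediateField.subset_adjoin _ _ hy)

omit hp in
theorem map_mem_rootSet [Normal ℚ K] {y : QBar} (hy : y ∈ rootSet p S K) (σ : GQ) :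
    σ y ∈ rootSet p S K := by
  refine ⟨fun h => hy.1 (σ.injective (h.trans (map_zero σ).symm)), ?_, fun q hq g => ?_⟩
  · rw [← map_pow]
    exact (res_apply K σ ⟨_, hy.2.1⟩) ▸ SetLike.coe_mem _
  · exact hy.2.2 q hq (g * σ)

omit hp in
/-- The set is stable, so the level is normal. -/
theorem normal_bigLevel [Normal ℚ K] : Normal ℚ (bigLevel p S K) := by
  refine IntermediateField.normal_iff_forall_map_le'.mpr fun σ => ?_
  rw [bigLevel, IntermediateField.map_sup, IntermediateField.adjoin_map]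
  refine sup_le_sup (IntermediateField.normal_iff_forall_map_le'.mp ‹_› σ)
    (IntermediateField.adjoin.mono _ _ _ ?_)
  rintro _ ⟨y, hy, rfl⟩
  exact map_mem_rootSet hy σ

/-- Elements fixing `K` move the roots by roots of unity, so their `p`-th powers fix the level. -/
theorem pow_mem_fixingSubgroup {ζ : QBar} (hζ : IsPrimitiveRoot ζ p) (hζK : ζ ∈ K) {σ : GQ}
    (hσ : σ ∈ K.fixingSubgroup) : σ ^ p ∈ (bigLevel p S K).fixingSubgroup := by
  rw [bigLevel, IntermediateField.fixingSubgroup_sup]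
  refine ⟨pow_mem hσ p, ?_⟩
  show σ ^ p ∈ (IntermediateField.adjoin ℚ (rootSet p S K)).fixingSubgroup
  rw [IntermediateField.mem_fixingSubgroup_iff]
  have hle : IntermediateField.adjoin ℚ (rootSet p S K) ≤
      IntermediateField.fixedField (Subgroup.zpowers (σ ^ p)) := by
    refine IntermediateField.adjoin_le_iff.mpr fun y hy => ?_
    obtain ⟨i, -, hi⟩ := exists_eq_zeta_pow_mul hζ hy.1 (map_pow_root_eq hσ hy.2.1 rfl)
    have hζσ : ∀ j : ℕ, (σ ^ j) ζ = ζ := fun j =>
      (IntermediateField.mem_fixingSubgroup_iff _ _).mp (pow_mem hσ j) ζ hζK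
    have hpow : ∀ j : ℕ, (σ ^ j) y = ζ ^ (i * j) * y := fun j => by
      induction j with
      | zero => simp
      | succ j ih =>
        rw [pow_succ, AlgEquiv.mul_apply, hi, map_mul, map_pow, hζσ, ih, ← mul_assoc, ← pow_add]
        ring_nf
    rw [SetLike.mem_coe, IntermediateField.mem_fixedField_iff]
    refine fun s hs => (Subgroup.zpowers_le.mpr
      (show σ ^ p ∈ MulAction.stabilizer GQ y from ?_) : _ ≤ _) hs
    show (σ ^ p) y = y
    rw [hpow, mul_comm i p, pow_mul, hζ.pow_eq_one, one_pow, one_mul]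
  exact fun x hx => (IntermediateField.mem_fixedField_iff _ x).mp (hle hx) _
    (Subgroup.mem_zpowers _)

variable [FiniteDimensional ℚ K] [Normal ℚ K]

theorem finiteDimensional_bigLevel (hp2 : p ≠ 2) {ζ : QBar} (hζ : IsPrimitiveRoot ζ p)
    (hζK : ζ ∈ K) : FiniteDimensional ℚ (bigLevel p S K) := by
  classical
  obtain ⟨S', hSS', hS'⟩ := exists_goodSet hp2 hζ hζK S
  set V := ModP p (sUnits S' K)
  haveI : Finite V := Nat.finite_of_card_ne_zero hS'.card
  choose rep hrep using modClass_surjective (p := p) (U := sUnits S' K)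
  set F : Set QBar := insert ζ (Set.range fun v : V => rootP p (((rep v : sUnits S' K) : QBarˣ) : QBar))
  have hFfin : F.Finite := Set.Finite.insert _ (Set.finite_range _)
  haveI : Finite F := hFfin.to_subtype
  haveI : FiniteDimensional ℚ (IntermediateField.adjoin ℚ F) :=
    IntermediateField.finiteDimensional_adjoin fun e _ => Algebra.IsIntegral.isIntegral e
  suffices h : bigLevel p S K ≤ K ⊔ IntermediateField.adjoin ℚ F by
    haveI : FiniteDimensional ℚ (K ⊔ IntermediateField.adjoin ℚ F : IntermediateField ℚ QBar) :=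
      IntermediateField.finiteDimensional_sup _ _
    exact FiniteDimensional.of_injective (IntermediateField.inclusion h).toLinearMap
      (IntermediateField.inclusion_injective h)
  refine sup_le le_sup_left (IntermediateField.adjoin_le_iff.mpr fun y hy => ?_)
  obtain ⟨hy0, hyK, hyn⟩ := hy
  let b : Kˣ := Units.mk0 ⟨y ^ p, hyK⟩ fun h => pow_ne_zero p hy0 (congrArg Subtype.val h)
  have hnb : ∀ q g, normAt K q g (diag K (Additive.ofMul b)) = ‖emb q (g y)‖ ^ p := fun q g => by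
    show ‖emb q (g (y ^ p))‖ = _
    rw [map_pow, map_pow, norm_pow]
  obtain ⟨z, hz⟩ := exists_root_orders (S := S) (p := p) (x := diag K (Additive.ofMul b))
    fun q hq g => by
      obtain ⟨n, hn⟩ := hyn q (by simpa using hq) g
      exact ⟨n, by rw [hnb, hn, ← zpow_natCast, ← zpow_mul, mul_comm]⟩
  obtain ⟨c, hc, hzc⟩ := hS'.gen z.toMul z.toMul.2
  set yu : QBarˣ := Units.mk0 y hy0
  have hu : (yu * c) ^ p ∈ sUnits S' K := mem_sUnits.mpr ⟨by
      show (((yu * c) ^ p : QBarˣ) : QBar) ∈ K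
      rw [Units.val_pow_eq_pow_val, Units.val_mul, mul_pow]
      exact mul_mem hyK (pow_mem hc p), fun q hq g => by
      have h1 : normAt K q g z ^ p = ‖emb q (g y)‖ ^ p :=
        (hz q (fun h => hq (hSS' h)) g).trans (hnb q g)
      have h2 : ‖((z.toMul : PreIdele) q g : Ω q)‖ * ‖emb q (g (c : QBar))‖ = 1 := by
        rw [← norm_mul]; exact hzc.2 q hq g
      rw [Units.val_pow_eq_pow_val, Units.val_mul, map_pow, map_pow, map_mul, map_mul, norm_pow,
        norm_mul, mul_pow, show ((yu : QBarˣ) : QBar) = y from rfl, ← h1, ← mul_pow]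
      show (‖((z.toMul : PreIdele) q g : Ω q)‖ * _) ^ p = 1
      rw [h2, one_pow]⟩
  set u : sUnits S' K := ⟨_, hu⟩
  obtain ⟨w, hw⟩ := (modClass_eq_zero_iff ((rep (modClass p u))⁻¹ * u)).mp (by
    rw [modClass_mul, show modClass p (rep (modClass p u))⁻¹ = -modClass p (rep (modClass p u))
      from rfl, hrep, neg_add_cancel])
  set r := (((rep (modClass p u) : sUnits S' K) : QBarˣ) : QBar)
  have hr0 : r ≠ 0 := Units.ne_zero _
  have he : (y * (c : QBar) / (((w : sUnits S' K) : QBarˣ) : QBar)) ^ p = r := by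
    have h3 := congrArg (fun t : sUnits S' K => (((t : QBarˣ)) : QBar)) hw
    simp only [SubmonoidClass.coe_pow, Units.val_pow_eq_pow_val, Subgroup.coe_mul,
      InvMemClass.coe_inv, Units.val_mul, Units.val_inv_eq_inv_val, u, yu, Units.val_mk0] at h3
    rw [div_pow, h3]
    field_simp
    rfl
  obtain ⟨i, -, hi⟩ := exists_eq_zeta_pow_mul hζ (rootP_ne_zero hr0)
    (he.trans (rootP_pow r).symm)
  have hc0 : (c : QBar) ≠ 0 := c.ne_zero
  have hw0 : (((w : sUnits S' K) : QBarˣ) : QBar) ≠ 0 := Units.ne_zero _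
  have hy' : y = ζ ^ i * rootP p r * (((w : sUnits S' K) : QBarˣ) : QBar) / (c : QBar) := by
    rw [← hi]
    field_simp
  rw [SetLike.mem_coe, hy']
  have hF : ∀ e ∈ F, e ∈ K ⊔ IntermediateField.adjoin ℚ F := fun e he' =>
    (le_sup_right : IntermediateField.adjoin ℚ F ≤ _) (IntermediateField.subset_adjoin _ _ he')
  exact div_mem (mul_mem (mul_mem (pow_mem (hF _ (Set.mem_insert _ _)) i)
    (hF _ (Set.mem_insert_of_mem _ ⟨_, rfl⟩))) ((le_sup_left : K ≤ _) (sUnits_le S' K w.2)))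
    ((le_sup_left : K ≤ _) hc)

theorem isUnramifiedOutside_bigLevel (hp2 : p ≠ 2) {ζ : QBar} (hζ : IsPrimitiveRoot ζ p)
    (hζK : ζ ∈ K) (hpS : pPrime p ∈ S) (hK : K.IsUnramifiedOutside S) :
    (bigLevel p S K).IsUnramifiedOutside S := by
  refine ⟨finiteDimensional_bigLevel hp2 hζ hζK, fun q hq =>
    InertiaFixes.sup (inertiaFixes_of_ur hK hq) (inertiaFixes_adjoin ?_)⟩
  rintro y hy A hA g hg
  obtain ⟨h, rfl⟩ := Fermat.Agent.Arith.exists_smul_eq (padicPlace_liesOverPrime (q : ℕ)) hA q.2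
  have h1 : h⁻¹ * g * h ∈ (padicPlace (q : ℕ)).inertiaSubgroupIn ℚ := by
    have := (mem_inertia_smul_iff (g := h⁻¹) (σ := g) (A := h • padicPlace (q : ℕ))).mpr hg
    rwa [inv_inv, inv_smul_smul] at this
  have hqp : ¬ (q : ℕ) ∣ p := fun hdvd =>
    hq (by rwa [show q = pPrime p from Subtype.ext ((Nat.prime_dvd_prime_iff_eq q.2 hp.out).mp hdvd)])
  obtain ⟨hy0, hyK, hyn⟩ := map_mem_rootSet hy h⁻¹
  obtain ⟨n, hn⟩ := hyn q hq 1
  have hfix : (h⁻¹ * g * h) ((h⁻¹ y) ^ p) = (h⁻¹ y) ^ p :=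
    (IntermediateField.mem_fixingSubgroup_iff _ _).mp
      (inertiaFixes_of_ur hK hq _ (padicPlace_liesOverPrime (q : ℕ)) h1) _ hyK
  have h2 := congrArg h (inertia_fix_root h1 hqp hfix (by rw [AlgEquiv.one_apply] at hn; exact hn))
  calc g y = (h * (h⁻¹ * g * h) * h⁻¹) y := by congr 1; group
    _ = h (h⁻¹ y) := h2
    _ = y := h.apply_symm_apply y

/-- The relative Galois group of the level is a `p`-group. -/
theorem isPGroup_bigLevel [FiniteDimensional ℚ (bigLevel p S K)] [Normal ℚ (bigLevel p S K)]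
    {ζ : QBar} (hζ : IsPrimitiveRoot ζ p) (hζK : ζ ∈ K) :
    IsPGroup p (levelRes (le_bigLevel : K ≤ bigLevel p S K)).ker := by
  rintro ⟨σ, hσ⟩
  refine ⟨1, Subtype.ext ?_⟩
  obtain ⟨g, rfl⟩ := AlgEquiv.restrictNormalHom_surjective (K₁ := bigLevel p S K) QBar σ
  rw [MonoidHom.mem_ker, levelRes_res, res_eq_one_iff] at hσ
  show (res (bigLevel p S K) g) ^ p ^ 1 = 1
  rw [pow_one, ← map_pow, res_eq_one_iff]
  exact pow_mem_fixingSubgroup hζ hζK hσ

omit [FiniteDimensional ℚ K] in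
/-- A character of a level unramified outside `S` is trivial on the big level. -/
theorem char_eq_zero_of_mem_bigLevel {ζ : QBar} (hζ : IsPrimitiveRoot ζ p) (hζK : ζ ∈ K)
    [FiniteDimensional ℚ K] {F : IntermediateField ℚ QBar} [FiniteDimensional ℚ F] [Normal ℚ F]
    (le : K ≤ F) (hF : F.IsUnramifiedOutside S) (φ : GQ → ZMod p)
    (hφ : ∀ g ∈ K.fixingSubgroup, ∀ h ∈ K.fixingSubgroup, φ (g * h) = φ g + φ h)
    (hlev : ∀ g h : GQ, res F g = res F h → φ g = φ h)
    {g : GQ} (hg : g ∈ (bigLevel p S K).fixingSubgroup) : φ g = 0 := by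
  haveI : NeZero p := ⟨hp.out.ne_zero⟩
  let ζF : Fˣ := Units.mk0 ⟨ζ, le hζK⟩ fun h => hζ.ne_zero hp.out.ne_zero (congrArg Subtype.val h)
  have hmemK : ∀ n : (levelRes le).ker, lift F (n : F ≃ₐ[ℚ] F) ∈ K.fixingSubgroup := fun n => by
    rw [← res_eq_one_iff, ← levelRes_res le, res_lift]
    exact MonoidHom.mem_ker.1 n.2
  have hfix : ∀ n : (levelRes le).ker, (n : F ≃ₐ[ℚ] F) • ζF = ζF := fun n => Units.ext (Subtype.ext (by
    show (((n : F ≃ₐ[ℚ] F) ⟨ζ, le hζK⟩ : F) : QBar) = ζ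
    rw [← res_lift F (n : F ≃ₐ[ℚ] F), res_apply]
    exact (IntermediateField.mem_fixingSubgroup_iff _ _).mp (hmemK n) ζ hζK))
  let c : (levelRes le).ker → Additive Fˣ := fun n =>
    Additive.ofMul (ζF ^ (φ (lift F (n : F ≃ₐ[ℚ] F))).val)
  have hc : groupCohomology.IsCocycle₁ c := fun m n => by
    have h1 : φ (lift F ((m * n : (levelRes le).ker) : F ≃ₐ[ℚ] F)) =
        φ (lift F (m : F ≃ₐ[ℚ] F)) + φ (lift F (n : F ≃ₐ[ℚ] F)) := by
      rw [← hφ _ (hmemK m) _ (hmemK n)]
      refine hlev _ _ ?_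
      rw [map_mul (res F), res_lift, res_lift, res_lift]
      rfl
    refine congrArg Additive.ofMul ?_
    show ζF ^ _ = (m : F ≃ₐ[ℚ] F) • (ζF ^ _) * ζF ^ _
    rw [smul_pow', hfix, h1, ← pow_add, ZMod.val_add, add_comm (φ (lift F (n : F ≃ₐ[ℚ] F))).val,
      ← pow_eq_pow_mod]
    exact Units.ext (Subtype.ext (by simpa [ζF] using hζ.pow_eq_one))
  obtain ⟨x, hx⟩ := h1Zero_units (levelRes le).ker c hc
  set β : QBar := (((x.toMul : Fˣ) : F) : QBar)
  have hβ0 : β ≠ 0 := fun h => x.toMul.ne_zero (Subtype.ext h)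
  have hβ : ∀ s ∈ K.fixingSubgroup, s β = ζ ^ (φ s).val * β := fun s hs => by
    have hn : res F s ∈ (levelRes le).ker := by
      rw [MonoidHom.mem_ker, levelRes_res, res_eq_one_iff]; exact hs
    have h1 := congrArg (fun t : Additive Fˣ => (((t.toMul : Fˣ) : F) : QBar))
      (eq_add_of_sub_eq (hx ⟨_, hn⟩))
    have h2 : φ (lift F (res F s)) = φ s := hlev _ _ (res_lift F _)
    simp only [c, h2] at h1
    rw [← res_apply F s]
    simp [ζF] at h1
    exact h1
  have hβK : β ∈ rootSet p S K := by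
    refine ⟨hβ0, ?_, fun q hq h => ?_⟩
    · rw [← InfiniteGalois.fixedField_fixingSubgroup K, IntermediateField.mem_fixedField_iff]
      intro s hs
      rw [map_pow, hβ s hs, mul_pow, ← pow_mul, mul_comm (φ s).val, pow_mul, hζ.pow_eq_one,
        one_pow, one_mul]
    · obtain ⟨n, hn⟩ := exists_norm_eq_zpow_of_ur F hF hq
        (Units.map (localEmb (q : ℕ) F).toMonoidHom (res F h • (x.toMul : Fˣ)))
      refine ⟨n, ?_⟩
      rw [← hn]
      exact (norm_localEmb_res (q : ℕ) h ((x.toMul : Fˣ) : F)).symm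
  have hgK : g ∈ K.fixingSubgroup := IntermediateField.fixingSubgroup_antitone le_bigLevel hg
  have h1 := hβ g hgK
  rw [(IntermediateField.mem_fixingSubgroup_iff _ _).mp hg β (mem_bigLevel hβK), eq_comm] at h1
  refine ZMod.val_injective p (hζ.pow_inj (ZMod.val_lt _) (ZMod.val_lt _) ?_)
  rw [ZMod.val_zero, pow_zero]
  exact mul_right_cancel₀ hβ0 (h1.trans (one_mul β).symm)

end Fermat.Agent.CFT.PT
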