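import Fermat.Agent.CFT.PT.Link
import Fermat.Agent.CFT.PT.Arith.Level

/-!
# The twisted dual of a module as a module of a finite level, and `M = Hom(A, μ_p)`
-/

set_option autoImplicit false
set_option synthInstance.maxHeartbeats 200000
set_option maxHeartbeats 400000
set_option linter.unusedSectionVars false
set_option linter.style.haveILetI false

noncomputable section

namespace Fermat.Agent.CFT.PT

open CategoryTheory ExtCitation Fermat.Agent.Arith IntermediateField Fermat.Agent.CFT.Idele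
open Fermat.Agent.CFT.Duality Module

variable {p : ℕ} [hp : Fact p.Prime]

/-- The cyclotomic character on roots of unity. -/
theorem map_root_eq (σ : GQ) {μ : QBar} (hμ : μ ^ p = 1) :
    σ μ = μ ^ ((cycloChar p σ : (ZMod p)ˣ) : ZMod p).val := by
  haveI : NeZero p := ⟨hp.out.ne_zero⟩
  set u : QBarˣ := Units.ofPowEqOne μ p hμ (NeZero.ne p)
  have hu : u ∈ rootsOfUnity p QBar := by
    rw [mem_rootsOfUnity]; exact Units.ext (by simpa [u] using hμ)
  exact modularCyclotomicCharacter.spec QBar (card_rootsOfUnity_eq_self p) (σ : QBar ≃+* QBar) hu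

theorem cycloChar_eq_one {σ : GQ} {ζ : QBar} (hζ : IsPrimitiveRoot ζ p) (h : σ ζ = ζ) :
    cycloChar p σ = 1 := by
  haveI : NeZero p := ⟨hp.out.ne_zero⟩
  refine Units.ext (ZMod.val_injective p ?_)
  rw [Units.val_one, ZMod.val_one]
  refine hζ.pow_inj (ZMod.val_lt _) hp.out.one_lt ?_
  rw [← map_root_eq σ hζ.pow_eq_one, h, pow_one]

/-- A level trivialising `M`, with a primitive root, unramified outside `S`. -/
structure GoodLevel (S : Finset Nat.Primes) (M : Rep (ZMod p) GQ)
    (K : IntermediateField ℚ QBar) : Prop where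
  ur : K.IsUnramifiedOutside S
  zeta : ∃ ζ ∈ K, IsPrimitiveRoot ζ p
  triv : ∀ g ∈ K.fixingSubgroup, M.ρ g = 1

variable {S : Finset Nat.Primes} {M : Rep (ZMod p) GQ} {K : IntermediateField ℚ QBar}
  [FiniteDimensional ℚ K] [Normal ℚ K] (hK : GoodLevel S M K)

include hK in
theorem GoodLevel.cycloChar_eq_one {g : GQ} (hg : g ∈ K.fixingSubgroup) : cycloChar p g = 1 := by
  obtain ⟨ζ, hζK, hζ⟩ := hK.zeta
  exact PT.cycloChar_eq_one hζ ((IntermediateField.mem_fixingSubgroup_iff _ _).mp hg ζ hζK)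

include hK in
theorem GoodLevel.dual_eq_of_res {g g' : GQ} (h : res K g = res K g') :
    (M.dualTwist (cycloChar p)).ρ g = (M.dualTwist (cycloChar p)).ρ g' := by
  have hm : g⁻¹ * g' ∈ K.fixingSubgroup := (res_eq_iff K).1 h
  have h1 : (M.dualTwist (cycloChar p)).ρ (g⁻¹ * g') = 1 := by
    refine LinearMap.ext fun f => ?_
    rw [Rep.dualTwist_ρ_apply, hK.cycloChar_eq_one hm, Units.val_one, one_smul,
      hK.triv _ (inv_mem hm)]
    rfl
  calc _ = (M.dualTwist (cycloChar p)).ρ g * (M.dualTwist (cycloChar p)).ρ (g⁻¹ * g') := by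
        rw [h1, mul_one]
    _ = _ := by rw [← map_mul, mul_inv_cancel_left]

/-- `Hom(M, 𝔽_p)(1)` as a module of `Gal(K/ℚ)`. -/
@[nolint unusedArguments]
def CarMod (_hK : GoodLevel S M K) : Type := Module.Dual (ZMod p) M

namespace CarMod

instance : AddCommGroup (CarMod hK) := inferInstanceAs (AddCommGroup (Module.Dual (ZMod p) M))

/-- A functional as an element. -/
def of : Module.Dual (ZMod p) M ≃+ CarMod hK := AddEquiv.refl _

theorem dual_smul_eq (g : GQ) (f : Module.Dual (ZMod p) M) (m : M) :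
    (M.dualTwist (cycloChar p)).ρ g f m =
      (cycloChar p g : ZMod p) * f (M.ρ g⁻¹ m) := by
  rw [Rep.dualTwist_ρ_apply]
  rfl

instance : DistribMulAction (K ≃ₐ[ℚ] K) (CarMod hK) where
  smul σ a := of hK ((M.dualTwist (cycloChar p)).ρ (lift K σ) ((of hK).symm a))
  one_smul a := by
    show of hK ((M.dualTwist (cycloChar p)).ρ (lift K 1) _) = a
    rw [hK.dual_eq_of_res (g' := 1) (by rw [res_lift, map_one]), map_one]
    rfl
  mul_smul σ τ a := by
    show of hK ((M.dualTwist (cycloChar p)).ρ (lift K (σ * τ)) _) = _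
    rw [hK.dual_eq_of_res (g' := lift K σ * lift K τ)
      (by rw [map_mul, res_lift, res_lift, res_lift]), map_mul]
    rfl
  smul_zero σ := by
    show of hK ((M.dualTwist (cycloChar p)).ρ _ 0) = 0
    rw [map_zero]; rfl
  smul_add σ a b := by
    show of hK ((M.dualTwist (cycloChar p)).ρ _ ((of hK).symm a + (of hK).symm b)) = _
    rw [map_add]; rfl

theorem res_smul (g : GQ) (f : Module.Dual (ZMod p) M) :
    res K g • of hK f = of hK ((M.dualTwist (cycloChar p)).ρ g f) := by
  show of hK ((M.dualTwist (cycloChar p)).ρ (lift K (res K g)) f) = _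
  rw [hK.dual_eq_of_res (res_lift K (res K g))]

theorem killed (a : CarMod hK) : p • a = 0 := by
  show p • ((of hK).symm a : Module.Dual (ZMod p) M) = 0
  refine LinearMap.ext fun m => ?_
  rw [LinearMap.smul_apply, nsmul_eq_mul, ZMod.natCast_self, zero_mul]
  rfl

instance [FiniteDimensional (ZMod p) M] : Finite (CarMod hK) :=
  (Module.finite_of_finite (ZMod p) : Finite (Module.Dual (ZMod p) M))

end CarMod

/-- Powers of a root of unity. -/
def rootHom {X : Type*} [AddCommGroup X] (z : X) (hz : p • z = 0) : ZMod p →+ X :=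
  ZMod.lift p ⟨zmultiplesHom X z, by rw [zmultiplesHom_apply, natCast_zsmul, hz]⟩

theorem rootHom_apply {X : Type*} [AddCommGroup X] (z : X) (hz : p • z = 0) (a : ZMod p) :
    rootHom z hz a = a.val • z := by
  haveI : NeZero p := ⟨hp.out.ne_zero⟩
  conv_lhs => rw [← ZMod.natCast_zmod_val a, ← Int.cast_natCast]
  rw [rootHom, ZMod.lift_coe, zmultiplesHom_apply, natCast_zsmul]

/-- The primitive root of a good level. -/
def zetaU : Additive Kˣ :=
  Additive.ofMul (Units.mk0 ⟨hK.zeta.choose, hK.zeta.choose_spec.1⟩ fun h =>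
    hK.zeta.choose_spec.2.ne_zero hp.out.ne_zero (congrArg Subtype.val h))

theorem zetaU_spec : IsPrimitiveRoot (((zetaU hK).toMul : Kˣ) : QBar) p :=
  hK.zeta.choose_spec.2

theorem nsmul_zetaU : p • unitsToQ K (zetaU hK) = 0 :=
  Additive.toMul.injective (Units.ext (zetaU_spec hK).pow_eq_one)

/-- `𝔽_p → μ_p`. -/
def muHom : ZMod p →+ Additive QBarˣ := rootHom _ (nsmul_zetaU hK)

theorem muHom_injective : Function.Injective (muHom hK) := by
  haveI : NeZero p := ⟨hp.out.ne_zero⟩
  intro a b h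
  rw [muHom, rootHom_apply, rootHom_apply] at h
  exact ZMod.val_injective p ((zetaU_spec hK).pow_inj (ZMod.val_lt _) (ZMod.val_lt _)
    (congrArg (fun x : Additive QBarˣ => ((x.toMul : QBarˣ) : QBar)) h))

theorem exists_muHom_eq (x : Additive QBarˣ) (hx : p • x = 0) : ∃ a, muHom hK a = x := by
  haveI : NeZero p := ⟨hp.out.ne_zero⟩
  obtain ⟨i, hi, e⟩ := (zetaU_spec hK).eq_pow_of_pow_eq_one
    (congrArg (fun x : Additive QBarˣ => ((x.toMul : QBarˣ) : QBar)) hx)
  refine ⟨i, Additive.toMul.injective (Units.ext ?_)⟩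
  rw [muHom, rootHom_apply, ZMod.val_cast_of_lt hi]
  exact e

theorem smul_muHom (g : GQ) (a : ZMod p) :
    g • muHom hK a = muHom hK ((cycloChar p g : ZMod p) * a) := by
  haveI : NeZero p := ⟨hp.out.ne_zero⟩
  refine Additive.toMul.injective (Units.ext ?_)
  rw [muHom, rootHom_apply, rootHom_apply]
  show g (((((zetaU hK).toMul : Kˣ) : K) : QBar) ^ a.val) = _
  rw [map_pow, map_root_eq g (zetaU_spec hK).pow_eq_one, ← pow_mul]
  show _ = ((((zetaU hK).toMul : Kˣ) : K) : QBar) ^ ((cycloChar p g : ZMod p) * a).val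
  rw [ZMod.val_mul, ← pow_eq_pow_mod _ (zetaU_spec hK).pow_eq_one]

/-- `M → Hom(A, μ_p)`. -/
def dualMap : M →+ DualMod K (CarMod hK) :=
  AddMonoidHom.mk' (fun m => TwHom.of ((muHom hK).comp
    (AddMonoidHom.mk' (fun a : CarMod hK => (CarMod.of hK).symm a m) fun _ _ => rfl)))
    fun m m' => TwHom.ext fun a => by
      show muHom hK ((CarMod.of hK).symm a (m + m')) = _
      rw [map_add, map_add]
      rfl

theorem dualMap_apply (m : M) (f : Module.Dual (ZMod p) M) :
    dualMap hK m (CarMod.of hK f) = muHom hK (f m) := rfl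

theorem smul_dualMap (g : GQ) (m : M) : g • dualMap hK m = dualMap hK (M.ρ g m) :=
  TwHom.ext fun a => by
    obtain ⟨f, rfl⟩ := (CarMod.of hK).surjective a
    rw [TwHom.smul_apply, CarMod.res_smul, dualMap_apply, dualMap_apply, smul_muHom,
      CarMod.dual_smul_eq, inv_inv, ← mul_assoc, ← Units.val_mul, ← map_mul, mul_inv_cancel,
      map_one, Units.val_one, one_mul]

theorem dualMap_injective [FiniteDimensional (ZMod p) M] : Function.Injective (dualMap hK) := by
  intro m m' h
  refine Module.forall_dual_apply_eq_zero_iff (ZMod p) (m - m') |>.1 (fun f => ?_) |> sub_eq_zero.1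
  rw [map_sub, sub_eq_zero]
  exact muHom_injective hK (congr_arg (fun φ : DualMod K (CarMod hK) => φ (CarMod.of hK f)) h)

theorem dualMap_surjective [FiniteDimensional (ZMod p) M] : Function.Surjective (dualMap hK) := by
  intro φ
  have hφ : ∀ f : Module.Dual (ZMod p) M, ∃ c, muHom hK c = φ (CarMod.of hK f) := fun f =>
    exists_muHom_eq hK _ (by rw [← map_nsmul, CarMod.killed, map_zero])
  choose c hc using hφ
  let cl : Module.Dual (ZMod p) M →+ ZMod p := AddMonoidHom.mk' c fun f f' => muHom_injective hK (by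
    rw [map_add (muHom hK), hc, hc, hc, map_add (CarMod.of hK), map_add φ])
  obtain ⟨m, hm⟩ := (Module.evalEquiv (ZMod p) M).surjective (AddMonoidHom.toZModLinearMap p cl)
  refine ⟨m, TwHom.ext fun a => ?_⟩
  obtain ⟨f, rfl⟩ := (CarMod.of hK).surjective a
  rw [dualMap_apply, ← hc]
  exact congrArg (muHom hK) (LinearMap.congr_fun hm f)

/-- `M ≃ Hom(A, μ_p)`. -/
def dualEquiv [FiniteDimensional (ZMod p) M] : M ≃+ DualMod K (CarMod hK) :=
  AddEquiv.ofBijective (dualMap hK) ⟨dualMap_injective hK, dualMap_surjective hK⟩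

theorem dualEquiv_apply [FiniteDimensional (ZMod p) M] (m : M) :
    dualEquiv hK m = dualMap hK m := rfl

include hK in
/-- Homomorphisms into `μ_p` take values in every field above `K`. -/
theorem exists_unitsToQ_eq {L : IntermediateField ℚ QBar} (le : K ≤ L) (x : Additive QBarˣ)
    (hx : p • x = 0) : ∃ y : Additive Lˣ, unitsToQ L y = x := by
  obtain ⟨a, rfl⟩ := exists_muHom_eq hK x hx
  refine ⟨a.val • unitsIncl le (zetaU hK), ?_⟩
  rw [map_nsmul, unitsToQ_unitsIncl, muHom, rootHom_apply]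

end Fermat.Agent.CFT.PT
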