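import Fermat.Prelude.Def_GroupCohomology_ContinuousUnramified
import Fermat.Agent.CFT.PT.Dict
import Fermat.Agent.CFT.PT.BigLevel
import Fermat.Agent.CFT.PT.Archimedean
import Fermat.Agent.CFT.Duality.Semilocal

/-!
# Classes in `Sha^1` of the twisted dual as cocycles of one level
-/

set_option autoImplicit false
set_option synthInstance.maxHeartbeats 200000
set_option maxHeartbeats 800000
set_option linter.unusedSectionVars false
set_option linter.style.haveILetI false

noncomputable section

namespace Fermat.Agent.CFT.PT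

open CategoryTheory ExtCitation Fermat.Agent.Arith IntermediateField Fermat.Agent.CFT.Local
open Fermat.Agent.CFT.Idele Fermat.Agent.CFT.Duality groupCohomology Module

local instance factPrimeClasses (q : Nat.Primes) : Fact (q : ℕ).Prime := ⟨q.2⟩

variable {p : ℕ} [hp : Fact p.Prime] {S : Finset Nat.Primes} {M : Rep (ZMod p) GQ}
  [FiniteDimensional (ZMod p) M] {K : IntermediateField ℚ QBar} [FiniteDimensional ℚ K]
  [Normal ℚ K] (hK : GoodLevel S M K)

instance carModFintype : Fintype (CarMod hK) := Fintype.ofFinite _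

/-- The tautological presentation. -/
def epsC : Lat (K ≃ₐ[ℚ] K) (CarMod hK) →+ CarMod hK := Lat.ofBasis fun a g => g • a

theorem presentation_epsC : Presentation p (epsC hK) where
  surjective a := ⟨Lat.e a 1, by rw [epsC, Lat.ofBasis_e, one_smul]⟩
  map_smul g x := Lat.map_smul_of_basis _ g (fun a h => by
    simp only [epsC, Lat.ofBasis_e, mul_smul]) x
  killed := CarMod.killed hK

include hK in
theorem dualTwist_eq_one {g : GQ} (hg : g ∈ K.fixingSubgroup) :
    (M.dualTwist (cycloChar p)).ρ g = 1 := by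
  rw [hK.dual_eq_of_res (g' := 1) (by rw [map_one, res_eq_one_iff]; exact hg), map_one]

variable {L : IntermediateField ℚ QBar} [FiniteDimensional ℚ L] [Normal ℚ L] (le : K ≤ L)

/-- A cocycle of a level, read on the absolute Galois group. -/
def fromLevel :
    levelCocycles (levelRes le) (CarMod hK) →+ cocycles₁ (M.dualTwist (cycloChar p)) :=
  AddMonoidHom.mk'
    (fun a => ⟨fun g => (CarMod.of hK).symm ((a : (L ≃ₐ[ℚ] L) → CarMod hK) (res L g)),
      (mem_cocycles₁_iff _).2 fun g h => by
        show (CarMod.of hK).symm _ = _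
        rw [map_mul, a.2, levelRes_res, map_add]
        congr 1
        refine (CarMod.of hK).injective ?_
        rw [AddEquiv.apply_symm_apply, ← CarMod.res_smul, AddEquiv.apply_symm_apply]⟩)
    fun a b => Subtype.ext (funext fun _ => map_add (CarMod.of hK).symm _ _)

theorem fromLevel_apply (a : levelCocycles (levelRes le) (CarMod hK)) (g : GQ) :
    fromLevel hK le a g = (CarMod.of hK).symm ((a : (L ≃ₐ[ℚ] L) → CarMod hK) (res L g)) := rfl

theorem isLevelConstantS₁_fromLevel (hur : L.IsUnramifiedOutside S)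
    (a : levelCocycles (levelRes le) (CarMod hK)) :
    IsLevelConstantS₁ S (fromLevel hK le a : GQ → (M.dualTwist (cycloChar p))) :=
  ⟨L, hur, fun g s hs => by
    simp only [fromLevel_apply, map_mul, (res_eq_one_iff L).2 hs, mul_one]⟩

/-- Every continuous cocycle unramified outside `S` lives at the big level. -/
theorem exists_fromLevel_eq (hbig : bigLevel p S K ≤ L)
    (c : cocycles₁ (M.dualTwist (cycloChar p))) (hc : IsLevelConstantS₁ S c) :
    ∃ a : levelCocycles (levelRes le) (CarMod hK), fromLevel hK le a = c := by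
  obtain ⟨F₀, hF₀, hconst⟩ := hc
  haveI := hF₀.1
  obtain ⟨F, hFfd, hFn, hFur, hF⟩ := exists_normal_ur_ge (hF₀.sup hK.ur)
  letI := hFfd; letI := hFn
  obtain ⟨ζ, hζK, hζ⟩ := hK.zeta
  have hc' := (mem_cocycles₁_iff (c : GQ → _)).1 c.2
  have hlev : ∀ g h : GQ, res F g = res F h → c g = c h := fun g h hgh => by
    have hs := IntermediateField.fixingSubgroup_antitone (le_sup_left.trans hF) ((res_eq_iff F).1 hgh)
    rw [show h = g * (g⁻¹ * h) by group, hconst g _ hs]
  have hzero : ∀ s ∈ L.fixingSubgroup, c s = 0 := fun s hs => by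
    refine LinearMap.ext fun m => ?_
    refine char_eq_zero_of_mem_bigLevel hζ hζK (le_sup_right.trans hF) hFur
      (fun g => (c g : Module.Dual (ZMod p) M) m) (fun g hg h _ => ?_)
      (fun g h hgh => by rw [hlev g h hgh]) (IntermediateField.fixingSubgroup_antitone hbig hs)
    rw [hc' g h, dualTwist_eq_one hK hg]
    exact add_comm _ _
  have hres : ∀ g h : GQ, res L g = res L h → c g = c h := fun g h hgh => by
    rw [show h = g * (g⁻¹ * h) by group, hc', hzero _ ((res_eq_iff L).1 hgh), map_zero, zero_add]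
  refine ⟨⟨fun σ => CarMod.of hK (c (lift L σ)), fun σ τ => ?_⟩, Subtype.ext (funext fun g => ?_)⟩
  · show CarMod.of hK (c (lift L (σ * τ))) = _
    rw [hres _ (lift L σ * lift L τ) (by rw [map_mul, res_lift, res_lift, res_lift]), hc', map_add,
      ← CarMod.res_smul]
    rfl
  · show fromLevel hK le _ g = _
    rw [fromLevel_apply]
    show (CarMod.of hK).symm (CarMod.of hK (c (lift L (res L g)))) = c g
    rw [AddEquiv.symm_apply_apply, hres _ g (res_lift L _)]

variable (S) in
/-- Cocycles of a level which are trivial at the primes in `S`. -/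
def locTrivSub : AddSubgroup (levelCocycles (levelRes le) (CarMod hK)) where
  carrier := {a | ∀ q ∈ S, ∃ x : CarMod hK, ∀ g ∈ decomp L q,
    (a : (L ≃ₐ[ℚ] L) → CarMod hK) g = levelRes le g • x - x}
  zero_mem' q _ := ⟨0, fun g _ => by simp⟩
  add_mem' {a b} ha hb q hq := by
    obtain ⟨x, hx⟩ := ha q hq
    obtain ⟨y, hy⟩ := hb q hq
    exact ⟨x + y, fun g hg => by
      simp only [AddSubgroup.coe_add, Pi.add_apply, hx g hg, hy g hg, smul_add]; abel⟩
  neg_mem' {a} ha q hq := by
    obtain ⟨x, hx⟩ := ha q hq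
    exact ⟨-x, fun g hg => by
      simp only [AddSubgroup.coe_neg, Pi.neg_apply, hx g hg, smul_neg]; abel⟩

theorem mem_locTrivSub {a : levelCocycles (levelRes le) (CarMod hK)} :
    a ∈ locTrivSub S hK le ↔ ∀ q ∈ S, ∃ x : CarMod hK, ∀ g ∈ decomp L q,
      (a : (L ≃ₐ[ℚ] L) → CarMod hK) g = levelRes le g • x - x := Iff.rfl

/-- Classes killed by an odd `p` die at the real place. -/
theorem exists_arch_coboundary (hp2 : p ≠ 2) (c : cocycles₁ (M.dualTwist (cycloChar p))) :
    ∃ f : M.dualTwist (cycloChar p), ∀ d : archimedeanDecomposition,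
      c (d : GQ) = (M.dualTwist (cycloChar p)).ρ (d : GQ) f - f := by
  set y := c complexConjugation with hy
  have hc' := (mem_cocycles₁_iff (c : GQ → _)).1 c.2
  have hρy : (M.dualTwist (cycloChar p)).ρ complexConjugation y = -y := by
    have e := hc' complexConjugation complexConjugation
    rw [complexConjugation_mul_self, cocycles₁_map_one] at e
    exact eq_neg_of_add_eq_zero_left e.symm
  have h2 : (2 : ZMod p) ≠ 0 := fun h => hp2 ((Nat.prime_dvd_prime_iff_eq hp.out Nat.prime_two).1
    ((ZMod.natCast_eq_zero_iff 2 p).1 (by exact_mod_cast h)))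
  refine ⟨-(2 : ZMod p)⁻¹ • y, fun d => ?_⟩
  have hd : (d : GQ) = 1 ∨ (d : GQ) = complexConjugation := by
    obtain ⟨k, hk⟩ := Subgroup.mem_zpowers_iff.1 d.2
    rcases Int.even_or_odd k with ⟨j, hj⟩ | ⟨j, hj⟩
    · left; rw [← hk, hj, ← two_mul, zpow_mul, zpow_ofNat, complexConjugation_sq, one_zpow]
    · right
      rw [← hk, hj, zpow_add, zpow_mul, zpow_ofNat, complexConjugation_sq, one_zpow, one_mul,
        zpow_one]
  rcases hd with hd | hd
  · simp [hd]
  · rw [hd, map_smul, hρy, smul_neg, ← neg_add', ← add_smul, ← neg_smul,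
      show -(-(2 : ZMod p)⁻¹ + -(2 : ZMod p)⁻¹) = 1 by field_simp; ring, one_smul]

theorem locTotal_eq_zero_iff (c : cocycles₁ (M.dualTwist (cycloChar p))) (v : extArithIndex S) :
    locTotal (extArithLoc S) (M.dualTwist (cycloChar p))
      ((H1π (M.dualTwist (cycloChar p))).hom c) v = 0 ↔
      ∃ f : M.dualTwist (cycloChar p), ∀ h,
        c (extArithLoc S v h) = (M.dualTwist (cycloChar p)).ρ (extArithLoc S v h) f - f := by
  rw [locTotal_apply]
  show (groupCohomology.map (extArithLoc S v) (𝟙 _) 1) ((H1π (M.dualTwist (cycloChar p))) c) = 0 ↔ _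
  rw [H1π_comp_map_apply, H1π_eq_zero_iff]
  show (∃ f, _ = _) ↔ _
  refine exists_congr fun f => ?_
  rw [funext_iff]
  exact forall_congr' fun h => ⟨fun e => e.symm, fun e => e.symm⟩

theorem mem_sha₁_of_locTriv (hp2 : p ≠ 2) (hur : L.IsUnramifiedOutside S)
    {a : levelCocycles (levelRes le) (CarMod hK)} (ha : a ∈ locTrivSub S hK le) :
    (H1π (M.dualTwist (cycloChar p))).hom (fromLevel hK le a) ∈
      sha₁ S (M.dualTwist (cycloChar p)) := by
  refine ⟨(mem_continuousH1S_iff S _ _).2
    ⟨_, isLevelConstantS₁_fromLevel hK le hur a, rfl⟩, ?_⟩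
  refine LinearMap.mem_ker.2 (funext fun v => (locTotal_eq_zero_iff _ v).2 ?_)
  rcases v with u | ⟨q, hq⟩
  · exact exists_arch_coboundary hp2 _
  · obtain ⟨x, hx⟩ := ha q hq
    refine ⟨(CarMod.of hK).symm x, fun h => ?_⟩
    have hm : res L (loc q h) ∈ decomp L q :=
      ⟨AlgEquiv.restrictNormalHom (E L q) h, toGlobal_restrict (q : ℕ) L h⟩
    refine (CarMod.of hK).injective ?_
    rw [map_sub, ← CarMod.res_smul, fromLevel_apply, AddEquiv.apply_symm_apply,
      AddEquiv.apply_symm_apply]
    exact (hx _ hm).trans (by rw [levelRes_res]; rfl)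

theorem exists_locTriv_of_mem_sha₁ (hbig : bigLevel p S K ≤ L)
    {y : H1 (M.dualTwist (cycloChar p))} (hy : y ∈ sha₁ S (M.dualTwist (cycloChar p))) :
    ∃ a ∈ locTrivSub S hK le, (H1π (M.dualTwist (cycloChar p))).hom (fromLevel hK le a) = y := by
  obtain ⟨c, hc, rfl⟩ := (mem_continuousH1S_iff S _ _).1 hy.1
  obtain ⟨a, rfl⟩ := exists_fromLevel_eq hK le hbig c hc
  refine ⟨a, fun q hq => ?_, rfl⟩
  obtain ⟨f, hf⟩ := (locTotal_eq_zero_iff _ (Sum.inr ⟨q, hq⟩)).1
    (congrFun (LinearMap.mem_ker.1 hy.2) (Sum.inr ⟨q, hq⟩))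
  refine ⟨CarMod.of hK f, fun g hg => ?_⟩
  obtain ⟨s, rfl⟩ := MonoidHom.mem_range.1 hg
  obtain ⟨τ, rfl⟩ := AlgEquiv.restrictNormalHom_surjective (K₁ := E L q) (Ω q) s
  have e := congrArg (CarMod.of hK) (hf τ)
  rw [map_sub, ← CarMod.res_smul, fromLevel_apply, AddEquiv.apply_symm_apply] at e
  rw [toGlobal_restrict, levelRes_res]
  exact e

end Fermat.Agent.CFT.PT
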