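import Fermat.Agent.CFT.PT.Extend

/-!
# Cocycles linked to zero are coboundaries, and coboundaries are linked to zero
-/

set_option autoImplicit false
set_option synthInstance.maxHeartbeats 200000
set_option maxHeartbeats 800000
set_option linter.unusedSectionVars false
set_option linter.style.haveILetI false

noncomputable section

namespace Fermat.Agent.CFT.PT

open ExtCitation Fermat.Agent.Arith IntermediateField Fermat.Agent.CFT.Local Fermat.Agent.CFT.Idele
open Fermat.Agent.CFT.Duality groupCohomology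

variable {K : IntermediateField ℚ QBar} [FiniteDimensional ℚ K] [Normal ℚ K]
  {A ι : Type*} [AddCommGroup A] [DistribMulAction (K ≃ₐ[ℚ] K) A] [Fintype ι] {p : ℕ}
  [hp : Fact p.Prime]
  {ε : Lat (K ≃ₐ[ℚ] K) ι →+ A} (hε : Presentation p ε) {S : Finset Nat.Primes}

/-- A coboundary of a cochain of a level is linked to zero. -/
theorem linked_coboundary {L : IntermediateField ℚ QBar} [FiniteDimensional ℚ L] [Normal ℚ L]
    (le : K ≤ L) (hur : L.IsUnramifiedOutside S) (x : GQ → DualMod K A)
    (hx : ∀ g g' : GQ, res L g = res L g' → x g = x g')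
    (hμ : ∀ y : Additive QBarˣ, p • y = 0 → ∃ z : Additive Lˣ, unitsToQ L z = y)
    (c : GQ × GQ → DualMod K A) (hc : ∀ g h, c (g, h) = dd x g h) :
    Linked hε S c 0 := by
  classical
  choose z hz using fun (σ : L ≃ₐ[ℚ] L) (a : A) => hμ (x (lift L σ) a)
    (by rw [← map_nsmul, hε.killed, map_zero])
  let x₀ : (L ≃ₐ[ℚ] L) → TwHom (levelRes le) A (Additive Lˣ) := fun σ =>
    TwHom.of (AddMonoidHom.mk' (z σ) fun a b => unitsToQ_injective L (by
      rw [map_add (unitsToQ L), hz, hz, hz, map_add]))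
  have hx₀ : ∀ g, toQHom (x₀ (res L g)) = x g := fun g => TwHom.ext fun a => by
    rw [toQHom_apply]
    show unitsToQ L (z _ a) = _
    rw [hz, hx _ g (res_lift L _)]
  refine ⟨L, inferInstance, inferInstance, le, hur, 0, fun σ => TwHom.pre ε (x₀ σ),
    fun s => by simp, fun g s => ?_, fun y => zero_mem _, fun g h => ?_⟩
  · simp only [AddMonoidHom.zero_apply, smul_zero, sub_zero, TwHom.pre_apply,
      AddMonoidHom.mem_ker.1 s.2, map_zero]
  · refine TwHom.ext fun y => ?_
    rw [hc, TwHom.pre_apply, toQHom_apply]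
    have e : dd x g h = toQHom (dd x₀ (res L g) (res L h)) := by
      simp only [dd, map_add, map_sub, ← smul_toQHom, ← map_mul, hx₀]
    rw [e, toQHom_apply]
    simp only [dd, TwHom.add_apply, TwHom.sub_apply, TwHom.smul_apply, TwHom.pre_apply,
      hε.map_smul]

/-- A cocycle linked to zero is the coboundary of a cochain of a level unramified outside `S`. -/
theorem exists_coboundary_of_linked_zero (hpS : pPrime p ∈ S)
    {c : GQ × GQ → DualMod K A} (hl : Linked hε S c 0) :
    ∃ (L : IntermediateField ℚ QBar) (_ : FiniteDimensional ℚ L) (_ : Normal ℚ L),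
      L.IsUnramifiedOutside S ∧ ∃ x : GQ → DualMod K A,
        (∀ g g' : GQ, res L g = res L g' → x g = x g') ∧ ∀ g h, c (g, h) = dd x g h := by
  classical
  obtain ⟨L, hfd, hn, le, hur, b, e, hl⟩ := hl
  letI := hfd; letI := hn
  have hb : ∀ s : ε.ker, ∃ a : Additive Lˣ, diag L a = b s := fun s => by
    obtain ⟨a, ha⟩ := (proj_eq_zero_iff L).1
      ((hl.proj_b s).trans (by rw [AddMonoidHom.zero_apply, map_zero]))
    exact ⟨Additive.ofMul a, congrArg Additive.ofMul ha⟩
  choose β hβ using hb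
  let β' : ε.ker →+ Additive Lˣ := AddMonoidHom.mk' β fun s t => diag_injective L (by
    rw [map_add (diag L), hβ, hβ, hβ, map_add])
  obtain ⟨L', hfd', hn', h', hur', y, hy⟩ := exists_units_extend hpS hur hε.smul_mem
    (fun _ : Unit => β') fun _ x => by
      show diag L (β _) ∈ _
      rw [hβ]
      exact hl.good x
  letI := hfd'; letI := hn'
  have hl' := hl.push h'
  set e' : (L' ≃ₐ[ℚ] L') → TwHom (levelRes (le.trans h')) (Lat (K ≃ₐ[ℚ] K) ι) (Additive L'ˣ) :=
    fun σ => TwHom.of ((unitsIncl h').comp (e (levelRes h' σ)).toHom)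
  let Y : TwHom (levelRes (le.trans h')) (Lat (K ≃ₐ[ℚ] K) ι) (Additive L'ˣ) := TwHom.of (y ())
  let t := fun σ => e' σ - (σ • Y - Y)
  have ht : ∀ σ (s : ε.ker), t σ s = 0 := fun σ s => diag_injective L' (by
    have hY : ∀ r : ε.ker, diag L' (Y (r : Lat (K ≃ₐ[ℚ] K) ι)) = inclJ h' (b r) := fun r => by
      show diag L' (y () r) = _
      rw [hy, diag_unitsIncl]
      exact congrArg (inclJ h') (hβ r)
    have h1 := hl'.coboundary σ s
    simp only [AddMonoidHom.comp_apply, ← hY, coe_smulS] at h1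
    simp only [t, TwHom.sub_apply, TwHom.smul_apply, map_sub, map_zero, diag_smul]
    rw [h1, sub_self])
  let t₀ : (L' ≃ₐ[ℚ] L') → TwHom (levelRes (le.trans h')) A (Additive L'ˣ) := fun σ =>
    TwHom.of (AddMonoidHom.liftOfSurjective ε hε.surjective
      ⟨(t σ).toHom, fun s hs => AddMonoidHom.mem_ker.2 (ht σ ⟨s, hs⟩)⟩)
  have ht₀ : ∀ σ z, t₀ σ (ε z) = t σ z := fun σ z =>
    AddMonoidHom.liftOfRightInverse_comp_apply ε _ _ ⟨(t σ).toHom, _⟩ z
  refine ⟨L', hfd', hn', hur', fun g => toQHom (t₀ (res L' g)), fun g g' hgg => by simp only [hgg],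
    fun g h => TwHom.ext fun a => ?_⟩
  obtain ⟨z, rfl⟩ := hε.surjective a
  have h1 := congrArg (fun φ : TwHom (res K) (Lat (K ≃ₐ[ℚ] K) ι) (Additive QBarˣ) => φ z)
    (hl'.spec g h)
  simp only [TwHom.pre_apply, toQHom_apply] at h1
  simp only [dd, smul_toQHom, ← map_mul (res L'), ← map_sub, ← map_add, toQHom_apply, h1]
  congr 1
  simp only [TwHom.add_apply, TwHom.sub_apply, TwHom.smul_apply, ← hε.map_smul, ht₀, t, mul_smul,
    map_mul, smul_sub, mul_inv_rev]
  abel

end Fermat.Agent.CFT.PT
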