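import Fermat.Agent.CFT.Coh.Transfer

/-!
# Class formations along injective maps, and functionals separating cocycle classes
-/

set_option autoImplicit false
set_option linter.unusedSectionVars false
set_option linter.style.haveILetI false

noncomputable section

namespace Fermat.Agent.CFT.PT

open groupCohomology

section Comap

variable {G H C : Type*} [Group G] [Fintype G] [Group H] [Fintype H] [AddCommGroup C]
  [DistribMulAction G C] [DistribMulAction H C]

/-- The pull back of a normalised cocycle along a compatible map. -/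
def comapCocycle (φ : H →* G) (hsmul : ∀ (h : H) (c : C), h • c = φ h • c) (u : NormCocycle G C) :
    NormCocycle H C where
  toFun gh := u.toFun (φ gh.1, φ gh.2)
  isCocycle a b d := by
    have e := u.isCocycle (φ a) (φ b) (φ d)
    show u.toFun (φ (a * b), φ d) + u.toFun (φ a, φ b) =
      a • u.toFun (φ b, φ d) + u.toFun (φ a, φ (b * d))
    rw [hsmul, map_mul, map_mul]
    exact e
  one_left g := by simp only [map_one]; exact u.one_left _

theorem comapCocycle_apply (φ : H →* G) (hsmul : ∀ (h : H) (c : C), h • c = φ h • c)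
    (u : NormCocycle G C) (g h : H) :
    (comapCocycle φ hsmul u).toFun (g, h) = u.toFun (φ g, φ h) := rfl

/-- A class formation pulls back along an injective compatible map. -/
theorem isClassFormation_comap {p : ℕ} {φ : H →* G} (hφ : Function.Injective φ)
    (hsmul : ∀ (h : H) (c : C), h • c = φ h • c) {u : NormCocycle G C}
    (hu : IsClassFormation p u) : IsClassFormation p (comapCocycle φ hsmul u) := by
  refine ⟨fun K hK => ?_, fun K hK c hc => ?_, fun K hK k hk => ?_⟩
  · exact (hu.h1 _ (hK.map φ)).of_equiv (K.equivMapOfInjective φ hφ) fun k c => (hsmul k c).symm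
  · set ε := K.equivMapOfInjective φ hφ with hε
    have hε' : ∀ a : K, ((ε a : K.map φ) : G) = φ (a : H) := fun a =>
      Subgroup.coe_equivMapOfInjective_apply K φ hφ a
    obtain ⟨k, x, hx⟩ := hu.generates _ (hK.map φ) (fun gh => c (ε.symm gh.1, ε.symm gh.2))
      fun a b d => by
        have e := hc (ε.symm a) (ε.symm b) (ε.symm d)
        show c (ε.symm (a * b), ε.symm d) + c (ε.symm a, ε.symm b) =
          (a : G) • c (ε.symm b, ε.symm d) + c (ε.symm a, ε.symm (b * d))
        have ha : φ ((ε.symm a : K) : H) = (a : G) :=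
          (hε' (ε.symm a)).symm.trans (congrArg Subtype.val (ε.apply_symm_apply a))
        rw [map_mul, map_mul, e, ← ha, ← hsmul]
        rfl
    refine ⟨k, fun h => x (ε h), fun a b => ?_⟩
    have := hx (ε a) (ε b)
    simp only [ε.symm_apply_apply, ← map_mul] at this
    show (a : H) • x (ε b) - x (ε (a * b)) + x (ε a) = c (a, b) - k • u.toFun (φ a, φ b)
    rw [hsmul, ← hε' a, ← hε' b]
    exact this
  · set ε := K.equivMapOfInjective φ hφ with hε
    have hε' : ∀ a : K, ((ε a : K.map φ) : G) = φ (a : H) := fun a =>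
      Subgroup.coe_equivMapOfInjective_apply K φ hφ a
    obtain ⟨x, hx⟩ := hk
    have := hu.order _ (hK.map φ) k ⟨fun h => x (ε.symm h), fun a b => by
      obtain ⟨a, rfl⟩ := ε.surjective a
      obtain ⟨b, rfl⟩ := ε.surjective b
      simp only [← map_mul, ε.symm_apply_apply]
      show ((ε a : K.map φ) : G) • x b - x (a * b) + x a =
        k • u.toFun (((ε a : K.map φ) : G), ((ε b : K.map φ) : G))
      rw [hε', hε', ← hsmul]
      exact hx a b⟩
    rwa [Nat.card_congr ε.toEquiv]

end Comap

section Separate

variable {G P : Type*} [Group G] [AddCommGroup P] [DistribMulAction G P] {S : AddSubgroup P}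
  {p : ℕ} [hp : Fact p.Prime]

/-- A class modulo `S` which is not a coboundary is seen by a functional. -/
theorem exists_functional_ne_zero (hpS : ∀ x : P, p • x ∈ S) (b : cocycleMod (G := G) (S := S))
    (hb : (b : G → P) ∉ coboundaryMod (S := S)) :
    ∃ μ : cocycleMod (G := G) (S := S) →+ ZMod p,
      (∀ a : cocycleMod (G := G) (S := S), (a : G → P) ∈ coboundaryMod (S := S) → μ a = 0) ∧
        μ b ≠ 0 := by
  classical
  set B := (coboundaryMod (G := G) (S := S)).addSubgroupOf (cocycleMod (G := G) (S := S)) with hB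
  let Q := cocycleMod (G := G) (S := S) ⧸ B
  letI : Module (ZMod p) Q := AddCommGroup.zmodModule (n := p) fun x => by
    obtain ⟨x, rfl⟩ := QuotientAddGroup.mk_surjective x
    rw [← QuotientAddGroup.mk_nsmul, QuotientAddGroup.eq_zero_iff, hB,
      AddSubgroup.mem_addSubgroupOf]
    exact ⟨0, fun g => by simpa using hpS _⟩
  have hne : QuotientAddGroup.mk' B b ≠ 0 := fun h => hb (by
    rwa [QuotientAddGroup.mk'_apply, QuotientAddGroup.eq_zero_iff, hB, AddSubgroup.mem_addSubgroupOf] at h)
  obtain ⟨L, hL⟩ : ∃ L : Q →+ ZMod p, L (QuotientAddGroup.mk' B b) ≠ 0 := by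
    by_contra hcon
    push Not at hcon
    exact hne ((Module.forall_dual_apply_eq_zero_iff (ZMod p) _).1 fun φ => hcon φ.toAddMonoidHom)
  refine ⟨L.comp (QuotientAddGroup.mk' B), fun a ha => ?_, hL⟩
  show L (QuotientAddGroup.mk' B a) = 0
  rw [QuotientAddGroup.mk'_apply, (QuotientAddGroup.eq_zero_iff a).2 (by rwa [hB, AddSubgroup.mem_addSubgroupOf]), map_zero]

end Separate

end Fermat.Agent.CFT.PT
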