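import Fermat.Agent.CFT.Coh.Basic

/-!
# Trivialising a periodic `2`-cocycle on a cyclic group of large enough order
-/

set_option autoImplicit false
set_option linter.unusedSectionVars false

noncomputable section

namespace Fermat.Agent.CFT.PT

variable {G Z : Type*} [Group G] [AddCommGroup Z] [DistribMulAction G Z]

/-- A cocycle on a finite cyclic group, killed by `p` and periodic with period `n`, is a
coboundary, if `p n` divides the order of the generator. -/
theorem exists_cochain_cyclic {δ : G} (hδ : IsOfFinOrder δ) {n p : ℕ}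
    (hd : p * n ∣ orderOf δ) (P : Z →+ Z) (w : G → G → Z) (hP : ∀ a b, P (w a b) = w a b)
    (hcoc : ∀ a ∈ Subgroup.zpowers δ, ∀ b ∈ Subgroup.zpowers δ, ∀ c ∈ Subgroup.zpowers δ,
      w (a * b) c + w a b = a • w b c + w a (b * c))
    (hp : ∀ a b, p • w a b = 0) (hper : ∀ a b, w (a * δ ^ n) b = w a b) :
    ∃ m : Subgroup.zpowers δ → Z, (∀ d, P (m d) = m d) ∧
      ∀ a b : Subgroup.zpowers δ, (a : G) • m b - m (a * b) + m a = w (a : G) (b : G) := by
  have hmem : ∀ j : ℕ, δ ^ j ∈ Subgroup.zpowers δ := fun j => pow_mem (Subgroup.mem_zpowers δ) j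
  let z := w 1 1
  let Q : ℕ → Z := fun i => ∑ j ∈ Finset.range i, w (δ ^ j) δ
  have h10 : ∀ j : ℕ, w (δ ^ j) 1 = δ ^ j • z := fun j => by
    have e := hcoc _ (hmem j) 1 (one_mem _) 1 (one_mem _)
    rw [mul_one, mul_one] at e
    exact add_right_cancel e
  have hgen : ∀ j k : ℕ, w (δ ^ j) (δ ^ k) = Q (j + k) - Q j - δ ^ j • Q k + δ ^ j • z := by
    intro j k
    induction k with
    | zero => simp [Q, h10]
    | succ k ih =>
      have e := hcoc _ (hmem j) _ (hmem k) δ (Subgroup.mem_zpowers δ)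
      rw [ih, ← pow_add, ← pow_succ] at e
      have e' : w (δ ^ j) (δ ^ (k + 1)) = w (δ ^ (j + k)) δ +
          (Q (j + k) - Q j - δ ^ j • Q k + δ ^ j • z) - δ ^ j • w (δ ^ k) δ := by
        rw [e]; abel
      rw [e']
      simp only [Q, Finset.sum_range_succ, ← add_assoc j, smul_add]
      abel
  have hQn : ∀ i, Q (i + n) = Q i + Q n := fun i => by
    induction i with
    | zero => simp [Q]
    | succ i ih =>
      rw [show i + 1 + n = (i + n) + 1 by omega]
      simp only [Q, Finset.sum_range_succ] at ih ⊢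
      rw [ih, pow_add, hper]
      abel
  have hQk : ∀ k i, Q (i + k * n) = Q i + k • Q n := fun k i => by
    induction k with
    | zero => simp
    | succ k ih => rw [Nat.succ_mul, ← add_assoc, hQn, ih, succ_nsmul, add_assoc]
  have hQN : ∀ i, Q (i % orderOf δ) = Q i := fun i => by
    obtain ⟨t, ht⟩ := hd
    conv_rhs => rw [← Nat.mod_add_div i (orderOf δ),
      show orderOf δ * (i / orderOf δ) = i / orderOf δ * t * p * n by rw [ht]; ring, hQk]
    rw [show Q n = ∑ j ∈ Finset.range n, w (δ ^ j) δ from rfl, Finset.smul_sum,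
      Finset.sum_eq_zero, add_zero]
    intro j _
    rw [mul_comm, mul_nsmul, hp, smul_zero]
  have hidx : ∀ d : Subgroup.zpowers δ, ∃ i : ℕ, δ ^ i = d := fun d =>
    Submonoid.mem_powers_iff _ _ |>.1 (hδ.mem_powers_iff_mem_zpowers.2 d.2)
  choose i hi using hidx
  refine ⟨fun d => z - Q (i d), fun d => ?_, fun a b => ?_⟩
  · simp only [z, Q, map_sub, map_sum, hP]
  · have hab : Q (i (a * b)) = Q (i a + i b) := by
      rw [← hQN (i (a * b)), ← hQN (i a + i b)]
      congr 1
      refine pow_eq_pow_iff_modEq.1 ?_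
      rw [pow_add, hi, hi, hi, Subgroup.coe_mul]
    show (a : G) • (z - Q (i b)) - (z - Q (i (a * b))) + (z - Q (i a)) = w (a : G) (b : G)
    rw [← hi a, ← hi b, hgen, hab, smul_sub]
    abel

end Fermat.Agent.CFT.PT
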