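import Fermat.Agent.CFT.PT.Link
import Fermat.Agent.CFT.PT.Arith.Roots

/-!
# Extending maps on the relations to the lattice by taking `p`-th roots
-/

set_option autoImplicit false
set_option synthInstance.maxHeartbeats 200000
set_option maxHeartbeats 400000
set_option linter.unusedSectionVars false
set_option linter.style.haveILetI false

noncomputable section

namespace Fermat.Agent.CFT.PT

open ExtCitation Fermat.Agent.Arith IntermediateField Fermat.Agent.CFT.Local Fermat.Agent.CFT.Idele
open Fermat.Agent.CFT.Duality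

/-- Homomorphisms between groups killed by `p` extend from subgroups. -/
theorem exists_extend_killed {p : ℕ} [Fact p.Prime] {V X : Type*} [AddCommGroup V]
    [Module (ZMod p) V] [AddCommGroup X] [Module (ZMod p) X] (A : AddSubgroup V) (f : A →+ X) :
    ∃ F : V →+ X, ∀ a : A, F a = f a := by
  obtain ⟨E, hE⟩ := LinearMap.exists_extend (p := AddSubgroup.toZModSubmodule p A)
    (AddMonoidHom.toZModLinearMap p (AddMonoidHom.mk'
      (fun w : AddSubgroup.toZModSubmodule p A => f ⟨(w : V), w.2⟩)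
      fun w w' => map_add f ⟨(w : V), w.2⟩ ⟨(w' : V), w'.2⟩))
  exact ⟨E.toAddMonoidHom, fun a => LinearMap.congr_fun hE ⟨(a : V), a.2⟩⟩

/-- A homomorphism on a subgroup containing `pP` extends, if its values at `pP` are divisible. -/
theorem exists_extend_div {p : ℕ} [hp : Fact p.Prime] {P X : Type*} [AddCommGroup P]
    [AddCommGroup X] {S : AddSubgroup P} (hS : ∀ x, p • x ∈ S)
    (β : S →+ X) (Y : P →+ X)
    (hY : ∀ x, p • Y x = β (mulP hS x)) : ∃ y : P →+ X, ∀ s : S, y s = β s := by
  classical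
  let T : AddSubgroup X := (nsmulAddMonoidHom p).ker
  letI : Module (ZMod p) T := AddCommGroup.zmodModule (n := p) fun t =>
    Subtype.ext (show p • (t : X) = 0 from AddMonoidHom.mem_ker.1 t.2)
  let Q := P ⧸ (nsmulAddMonoidHom p : P →+ P).range
  letI : Module (ZMod p) Q := AddCommGroup.zmodModule (n := p) fun x => by
    obtain ⟨x, rfl⟩ := QuotientAddGroup.mk_surjective x
    rw [← QuotientAddGroup.mk_nsmul, QuotientAddGroup.eq_zero_iff]
    exact ⟨x, rfl⟩
  have hd : ∀ s : S, p • (β s - Y s) = 0 := fun s => by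
    rw [smul_sub, hY, mulP_coe, map_nsmul, sub_self]
  let d : S →+ T := AddMonoidHom.mk' (fun s => ⟨β s - Y s, hd s⟩) fun s t => Subtype.ext (by
    simp only [map_add, AddSubgroup.coe_add]
    abel)
  let i : S →+ Q := (QuotientAddGroup.mk' _).comp S.subtype
  have hker : ∀ s : S, i s = 0 → d s = 0 := fun s hs => by
    obtain ⟨x, hx⟩ := (QuotientAddGroup.eq_zero_iff _).1 hs
    have e : s = mulP hS x := Subtype.ext (by rw [coe_mulP]; exact hx.symm)
    refine Subtype.ext ?_
    show β s - Y s = 0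
    rw [sub_eq_zero, e, coe_mulP, map_nsmul, hY]
  let d' : i.range →+ T := AddMonoidHom.liftOfSurjective i.rangeRestrict
    i.rangeRestrict_surjective ⟨d, fun s hs => AddMonoidHom.mem_ker.2 (hker s (by
      have := congrArg Subtype.val (AddMonoidHom.mem_ker.1 hs); simpa using this))⟩
  obtain ⟨E, hE⟩ := exists_extend_killed (p := p) i.range d'
  refine ⟨Y + (T.subtype.comp E).comp (QuotientAddGroup.mk' _), fun s => ?_⟩
  have h1 : E (i s) = d s := by
    refine (hE ⟨i s, s, rfl⟩).trans ?_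
    exact AddMonoidHom.liftOfRightInverse_comp_apply i.rangeRestrict _ _ ⟨d, _⟩ s
  show Y s + ((E (i s) : T) : X) = β s
  rw [h1]
  exact add_sub_cancel (Y (s : P)) (β s)

variable {p : ℕ} [hp : Fact p.Prime] {S : Finset Nat.Primes}

/-- Finitely many units with divisible orders off `S` have `p`-th roots in one field unramified
outside `S`. -/
theorem exists_roots (hpS : pPrime p ∈ S) {L : IntermediateField ℚ QBar} [FiniteDimensional ℚ L]
    [Normal ℚ L] (hL : L.IsUnramifiedOutside S) {κ : Type*} [Finite κ] (x : κ → Additive Lˣ)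
    (hx : ∀ i, diag L (x i) ∈ divOrd L p (S : Set Nat.Primes)) :
    ∃ (L' : IntermediateField ℚ QBar) (_ : FiniteDimensional ℚ L') (_ : Normal ℚ L') (h : L ≤ L'),
      L'.IsUnramifiedOutside S ∧ ∀ i, ∃ y : Additive L'ˣ, p • y = unitsIncl h (x i) := by
  classical
  cases nonempty_fintype κ
  suffices ∀ t : Finset κ,
      ∃ (L' : IntermediateField ℚ QBar) (_ : FiniteDimensional ℚ L') (_ : Normal ℚ L') (h : L ≤ L'),
        L'.IsUnramifiedOutside S ∧ ∀ i ∈ t, ∃ y : Additive L'ˣ, p • y = unitsIncl h (x i) by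
    obtain ⟨L', a, b, h, hur, hy⟩ := this Finset.univ
    exact ⟨L', a, b, h, hur, fun i => hy i (Finset.mem_univ i)⟩
  intro t
  induction t using Finset.induction_on with
  | empty => exact ⟨L, inferInstance, inferInstance, le_rfl, hL, fun i hi => by simp at hi⟩
  | insert i t _ ih =>
    obtain ⟨L₁, hf₁, hn₁, h₁, hur₁, hy₁⟩ := ih
    obtain ⟨y, hy⟩ := IsAlgClosed.exists_pow_nat_eq (((x i).toMul : Lˣ) : QBar) hp.out.pos
    obtain ⟨L₂, hf₂, hn₂, hur₂, h₂, hyL⟩ := exists_ur_root hpS hL (x i).toMul 1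
      (fun q hq σ => by
        obtain ⟨n, hn⟩ := hx i q (by simpa using hq) (lift L σ)
        refine ⟨n, ?_⟩
        rw [pow_one, ← hn, ← norm_val_eq, res_lift]
        exact (norm_val_prinL _ q σ).symm) y (by rw [pow_one]; exact hy)
    letI := hf₁; letI := hn₁; letI := hf₂; letI := hn₂
    haveI : Normal ℚ (L₁ ⊔ L₂ : IntermediateField ℚ QBar) :=
      @IntermediateField.normal_sup ℚ QBar _ _ _ L₁ L₂ hn₁ hn₂
    haveI := (hur₁.sup hur₂).1
    refine ⟨L₁ ⊔ L₂, inferInstance, inferInstance, h₁.trans le_sup_left, hur₁.sup hur₂,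
      fun j hj => ?_⟩
    have hy0 : y ≠ 0 := fun h0 => by
      rw [h0, zero_pow hp.out.ne_zero] at hy
      exact (x i).toMul.ne_zero (Subtype.ext hy.symm)
    rcases Finset.mem_insert.1 hj with rfl | hj
    · refine ⟨Additive.ofMul (Units.mk0 ⟨y, (le_sup_right : L₂ ≤ L₁ ⊔ L₂) hyL⟩
        fun h0 => hy0 (congrArg Subtype.val h0)), ?_⟩
      exact Additive.toMul.injective (Units.ext (Subtype.ext hy))
    · obtain ⟨z, hz⟩ := hy₁ j hj
      refine ⟨unitsIncl (le_sup_left : L₁ ≤ L₁ ⊔ L₂) z, ?_⟩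
      rw [← map_nsmul, hz]
      exact unitsToQ_injective _ rfl

variable {G₀ ι : Type*} [Group G₀] [Fintype G₀] [Fintype ι]

/-- Maps on relations into units with divisible orders at `pP` extend to the lattice in a field
unramified outside `S`. -/
theorem exists_units_extend (hpS : pPrime p ∈ S) {L : IntermediateField ℚ QBar}
    [FiniteDimensional ℚ L] [Normal ℚ L] (hL : L.IsUnramifiedOutside S)
    {R : AddSubgroup (Lat G₀ ι)} (hR : ∀ x, p • x ∈ R) {κ : Type*} [Finite κ]
    (β : κ → (R →+ Additive Lˣ))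
    (hβ : ∀ k x, diag L (β k (mulP hR x)) ∈ divOrd L p (S : Set Nat.Primes)) :
    ∃ (L' : IntermediateField ℚ QBar) (_ : FiniteDimensional ℚ L') (_ : Normal ℚ L') (h : L ≤ L'),
      L'.IsUnramifiedOutside S ∧
        ∃ y : κ → (Lat G₀ ι →+ Additive L'ˣ), ∀ k (s : R), y k s = unitsIncl h (β k s) := by
  classical
  obtain ⟨L', a, b, h, hur, hy⟩ := exists_roots hpS hL
    (fun i : κ × ι × G₀ => β i.1 (mulP hR (Lat.e i.2.1 i.2.2))) fun i => hβ _ _
  letI := a; letI := b
  choose y₀ hy₀ using hy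
  choose y hy using fun k => exists_extend_div hR
    ((unitsIncl h).comp (β k)) (Lat.ofBasis fun i g => y₀ (k, i, g)) (by
      have e : (p • Lat.ofBasis (fun i g => y₀ (k, i, g))) =
          ((unitsIncl h).comp (β k)).comp (mulP hR) := Lat.hom_ext fun i g => by
        show p • (Lat.ofBasis (fun i g => y₀ (k, i, g)) (Lat.e i g)) = _
        rw [Lat.ofBasis_e, hy₀]
        rfl
      exact fun x => DFunLike.congr_fun e x)
  exact ⟨L', a, b, h, hur, y, hy⟩

end Fermat.Agent.CFT.PT
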