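import Mathlib

/-!
# Functionals on groups killed by `p`
-/

set_option autoImplicit false
set_option linter.unusedSectionVars false
set_option linter.style.haveILetI false

noncomputable section

namespace Fermat.Agent.CFT.PT

variable {p : ℕ} [hp : Fact p.Prime] {V : Type*} [AddCommGroup V]

/-- A functional separating an element from a subgroup containing `pV`. -/
theorem exists_hom_ne_zero_of_notMem {B : AddSubgroup V} (hB : ∀ v, p • v ∈ B) {b : V}
    (hb : b ∉ B) : ∃ μ : V →+ ZMod p, (∀ v ∈ B, μ v = 0) ∧ μ b ≠ 0 := by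
  let Q := V ⧸ B
  letI : Module (ZMod p) Q := AddCommGroup.zmodModule (n := p) fun x => by
    obtain ⟨x, rfl⟩ := QuotientAddGroup.mk_surjective x
    rw [← QuotientAddGroup.mk_nsmul, QuotientAddGroup.eq_zero_iff]
    exact hB x
  have hne : QuotientAddGroup.mk' B b ≠ 0 := fun h => hb (by
    rwa [QuotientAddGroup.mk'_apply, QuotientAddGroup.eq_zero_iff] at h)
  obtain ⟨L, hL⟩ : ∃ L : Q →+ ZMod p, L (QuotientAddGroup.mk' B b) ≠ 0 := by
    by_contra hcon
    push Not at hcon
    exact hne ((Module.forall_dual_apply_eq_zero_iff (ZMod p) _).1 fun φ => hcon φ.toAddMonoidHom)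
  refine ⟨L.comp (QuotientAddGroup.mk' B), fun v hv => ?_, hL⟩
  show L (QuotientAddGroup.mk' B v) = 0
  rw [QuotientAddGroup.mk'_apply, (QuotientAddGroup.eq_zero_iff v).2 hv, map_zero]

theorem mem_of_annihilates_zmod [Module (ZMod p) V] [Finite V] (R : AddSubgroup (V →+ ZMod p))
    (μ : V →+ ZMod p) (h : ∀ v, (∀ r ∈ R, r v = 0) → μ v = 0) : μ ∈ R := by
  haveI : FiniteDimensional (ZMod p) V := Module.Finite.of_finite
  let R' : AddSubgroup (Module.Dual (ZMod p) V) :=
    { carrier := {φ | ∃ r ∈ R, ∀ v, φ v = r v}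
      add_mem' := by
        rintro φ φ' ⟨r, hr, e⟩ ⟨r', hr', e'⟩
        exact ⟨r + r', add_mem hr hr', fun v => by
          rw [LinearMap.add_apply, AddMonoidHom.add_apply, e, e']⟩
      zero_mem' := ⟨0, zero_mem R, fun v => rfl⟩
      neg_mem' := by
        rintro φ ⟨r, hr, e⟩
        exact ⟨-r, neg_mem hr, fun v => by
          rw [LinearMap.neg_apply, AddMonoidHom.neg_apply, e]⟩ }
  suffices hψ : AddMonoidHom.toZModLinearMap p μ ∈ AddSubgroup.toZModSubmodule p R' by
    obtain ⟨r, hr, e⟩ := hψ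
    rwa [show μ = r from AddMonoidHom.ext e]
  rw [← Subspace.dualCoannihilator_dualAnnihilator_eq (W := AddSubgroup.toZModSubmodule p R'),
    Submodule.mem_dualAnnihilator]
  intro v hv
  rw [Submodule.mem_dualCoannihilator] at hv
  exact h v fun r hr => hv (AddMonoidHom.toZModLinearMap p r) ⟨r, hr, fun _ => rfl⟩

/-- On a finite group killed by `p`, a functional killing what a group of functionals kills
belongs to it. -/
theorem mem_of_annihilates [Finite V] (hV : ∀ v : V, p • v = 0) (R : AddSubgroup (V →+ ZMod p))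
    (μ : V →+ ZMod p) (h : ∀ v, (∀ r ∈ R, r v = 0) → μ v = 0) : μ ∈ R :=
  letI : Module (ZMod p) V := AddCommGroup.zmodModule hV
  mem_of_annihilates_zmod R μ h

end Fermat.Agent.CFT.PT
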