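import Fermat.Agent.CFT.PT.Extend
import Fermat.Agent.CFT.PT.LinkedZero
import Fermat.Agent.CFT.Coh.H2

/-!
# Every equivariant map into classes is linked to a cocycle
-/

set_option autoImplicit false
set_option synthInstance.maxHeartbeats 200000
set_option maxHeartbeats 800000
set_option linter.unusedSectionVars false
set_option linter.style.haveILetI false

noncomputable section

namespace Fermat.Agent.CFT.PT

open ExtCitation Fermat.Agent.Arith IntermediateField Fermat.Agent.CFT.Local Fermat.Agent.CFT.Idele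
open Fermat.Agent.CFT.Duality groupCohomology

variable {p : ℕ} [hp : Fact p.Prime] {S : Finset Nat.Primes}

/-- Finitely many ideles are principal modulo `divOrd` in one field unramified outside `S`. -/
theorem exists_capit_family (hpS : pPrime p ∈ S) {K : IntermediateField ℚ QBar}
    [FiniteDimensional ℚ K] [Normal ℚ K] (hK : K.IsUnramifiedOutside S) {κ : Type*} [Finite κ]
    (x : κ → J K) :
    ∃ (L : IntermediateField ℚ QBar) (_ : FiniteDimensional ℚ L) (_ : Normal ℚ L) (h : K ≤ L),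
      L.IsUnramifiedOutside S ∧
        ∀ i, ∃ a : Additive Lˣ, inclJ h (x i) - diag L a ∈ divOrd L p (S : Set Nat.Primes) := by
  classical
  cases nonempty_fintype κ
  suffices ∀ t : Finset κ,
      ∃ (L : IntermediateField ℚ QBar) (_ : FiniteDimensional ℚ L) (_ : Normal ℚ L) (h : K ≤ L),
        L.IsUnramifiedOutside S ∧
          ∀ i ∈ t, ∃ a : Additive Lˣ, inclJ h (x i) - diag L a ∈ divOrd L p (S : Set Nat.Primes) by
    obtain ⟨L, a, b, h, hur, hy⟩ := this Finset.univ
    exact ⟨L, a, b, h, hur, fun i => hy i (Finset.mem_univ i)⟩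
  intro t
  induction t using Finset.induction_on with
  | empty => exact ⟨K, inferInstance, inferInstance, le_rfl, hK, fun i hi => by simp at hi⟩
  | insert i t _ ih =>
    obtain ⟨L₁, hf₁, hn₁, h₁, hur₁, hy₁⟩ := ih
    obtain ⟨L₂, hf₂, hn₂, h₂, α, hur₂, hα⟩ := exists_capitulation hpS hK (x i).toMul
    letI := hf₁; letI := hn₁; letI := hf₂; letI := hn₂
    haveI : Normal ℚ (L₁ ⊔ L₂ : IntermediateField ℚ QBar) :=
      @IntermediateField.normal_sup ℚ QBar _ _ _ L₁ L₂ hn₁ hn₂
    haveI := (hur₁.sup hur₂).1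
    refine ⟨L₁ ⊔ L₂, inferInstance, inferInstance, h₁.trans le_sup_left, hur₁.sup hur₂,
      fun j hj => ?_⟩
    rcases Finset.mem_insert.1 hj with rfl | hj
    · refine ⟨unitsIncl (le_sup_right : L₂ ≤ L₁ ⊔ L₂) (Additive.ofMul α), ?_⟩
      rw [show inclJ (h₁.trans le_sup_left) (x j) =
        inclJ (le_sup_right : L₂ ≤ L₁ ⊔ L₂) (inclJ h₂ (x j)) from rfl, diag_unitsIncl, ← map_sub,
        inclJ_mem_divOrd_iff]
      intro q hq g
      obtain ⟨n, hn⟩ := hα q (by simpa using hq) (res L₂ g)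
      refine ⟨n, ?_⟩
      rw [sub_eq_add_neg, normAt_add, normAt_neg, ← div_eq_mul_inv, ← hn, ← norm_val_eq,
        ← norm_val_eq]
      congr 1
      exact norm_val_prinL α q (res L₂ g)
    · obtain ⟨z, hz⟩ := hy₁ j hj
      refine ⟨unitsIncl (le_sup_left : L₁ ≤ L₁ ⊔ L₂) z, ?_⟩
      rw [show inclJ (h₁.trans le_sup_left) (x j) =
        inclJ (le_sup_left : L₁ ≤ L₁ ⊔ L₂) (inclJ h₁ (x j)) from rfl, diag_unitsIncl, ← map_sub,
        inclJ_mem_divOrd_iff]
      exact hz

/-- A map undoing multiplication by `p` modulo a subgroup containing `pP`. -/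
theorem exists_undo {P : Type*} [AddCommGroup P] [IsAddTorsionFree P] (R : AddSubgroup P)
    [Module.Free ℤ R] (hR : ∀ x, p • x ∈ R) :
    ∃ ρ : R →+ P, ∀ x, ρ (mulP hR x) - x ∈ R := by
  classical
  let Q := R ⧸ (nsmulAddMonoidHom p : R →+ R).range
  letI : Module (ZMod p) Q := AddCommGroup.zmodModule (n := p) fun x => by
    obtain ⟨x, rfl⟩ := QuotientAddGroup.mk_surjective x
    rw [← QuotientAddGroup.mk_nsmul, QuotientAddGroup.eq_zero_iff]
    exact ⟨x, rfl⟩
  let V := P ⧸ R
  letI : Module (ZMod p) V := AddCommGroup.zmodModule (n := p) fun x => by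
    obtain ⟨x, rfl⟩ := QuotientAddGroup.mk_surjective x
    rw [← QuotientAddGroup.mk_nsmul, QuotientAddGroup.eq_zero_iff]
    exact hR x
  let i : P →+ Q := (QuotientAddGroup.mk' _).comp (mulP hR)
  have hker : ∀ x, i x = 0 → x ∈ R := fun x hx => by
    obtain ⟨r, hr⟩ := (QuotientAddGroup.eq_zero_iff _).1 hx
    have h1 : p • (r : P) = p • x := congrArg Subtype.val hr
    rw [← nsmul_right_injective hp.out.ne_zero h1]
    exact r.2
  let f : i.range →+ V := AddMonoidHom.liftOfSurjective i.rangeRestrict i.rangeRestrict_surjective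
    ⟨QuotientAddGroup.mk' R, fun x hx => AddMonoidHom.mem_ker.2 ((QuotientAddGroup.eq_zero_iff x).2
      (hker x (by have := congrArg Subtype.val (AddMonoidHom.mem_ker.1 hx); simpa using this)))⟩
  obtain ⟨F, hF⟩ := exists_extend_killed (p := p) i.range f
  have hFi : ∀ x, F (i x) = (x : V) := fun x => (hF ⟨i x, x, rfl⟩).trans
    (AddMonoidHom.liftOfRightInverse_comp_apply i.rangeRestrict _ _ ⟨QuotientAddGroup.mk' R, _⟩ x)
  let B := Module.Free.chooseBasis ℤ R
  choose w hw using fun j => QuotientAddGroup.mk_surjective (F (B j : Q))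
  let ρ : R →+ P := (B.constr ℤ w).toAddMonoidHom
  have hρ : ∀ r : R, (ρ r : V) = F (r : Q) := fun r => by
    have e : ((QuotientAddGroup.mk' R).comp ρ).toIntLinearMap =
        (F.comp (QuotientAddGroup.mk' (nsmulAddMonoidHom p : R →+ R).range)).toIntLinearMap :=
      B.ext fun j => by
        show ((B.constr ℤ w (B j) : P) : V) = F (B j : Q)
        rw [Module.Basis.constr_basis, hw]
    exact LinearMap.congr_fun e r
  refine ⟨ρ, fun x => ?_⟩
  rw [← QuotientAddGroup.eq_zero_iff, QuotientAddGroup.mk_sub, hρ, sub_eq_zero]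
  exact hFi x

variable {K : IntermediateField ℚ QBar} [FiniteDimensional ℚ K] [Normal ℚ K]
  {A ι : Type*} [AddCommGroup A] [DistribMulAction (K ≃ₐ[ℚ] K) A] [Fintype ι]
  {ε : Lat (K ≃ₐ[ℚ] K) ι →+ A} (hε : Presentation p ε)

instance latTorsionFree : IsAddTorsionFree (Lat (K ≃ₐ[ℚ] K) ι) :=
  inferInstanceAs (IsAddTorsionFree (ι × (K ≃ₐ[ℚ] K) → ℤ))

/-- Every equivariant map into classes is linked to a cocycle of a level unramified outside `S`. -/
theorem exists_linked_any (hpS : pPrime p ∈ S) (hKur : K.IsUnramifiedOutside S)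
    (f : equivHom (C := C K) hε.isStable_ker) :
    ∃ c : GQ × GQ → DualMod K A, IsCocycle₂ c ∧ Linked hε S c f.1 ∧
      ∃ (L : IntermediateField ℚ QBar) (_ : FiniteDimensional ℚ L) (_ : Normal ℚ L),
        L.IsUnramifiedOutside S ∧ ∀ g g' h h' : GQ, res L g = res L g' → res L h = res L h' →
          c (g, h) = c (g', h') := by
  classical
  haveI := free_subgroup ε.ker
  let B := Module.Free.chooseBasis ℤ ε.ker
  choose v hv using fun i => proj_surjective K (f.1 (B i))
  let b₀ : ε.ker →+ J K := (B.constr ℤ v).toAddMonoidHom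
  have hb₀ : ∀ s, proj K (b₀ s) = f.1 s := fun s => by
    have e : ((proj K).comp b₀).toIntLinearMap = f.1.toIntLinearMap := B.ext fun i => by
      show proj K (B.constr ℤ v (B i)) = _
      rw [Module.Basis.constr_basis, hv]
      rfl
    exact LinearMap.congr_fun e s
  obtain ⟨ρ, hρ⟩ := exists_undo ε.ker hε.smul_mem
  obtain ⟨L, hfd, hn, le, hur, ha⟩ := exists_capit_family hpS hKur
    fun iσ : ι × (K ≃ₐ[ℚ] K) => b₀ (mulP hε.smul_mem (Lat.e iσ.1 iσ.2))
  letI := hfd; letI := hn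
  choose a ha using ha
  let a' : Lat (K ≃ₐ[ℚ] K) ι →+ Additive Lˣ := Lat.ofBasis fun i σ => a (i, σ)
  let d : Lat (K ≃ₐ[ℚ] K) ι →+ J L :=
    ((inclJ le).comp b₀).comp (mulP hε.smul_mem) - (diag L).comp a'
  have hd : ∀ x, d x ∈ divOrd L p (S : Set Nat.Primes) := fun x => by
    rw [Lat.eq_sum x, map_sum]
    refine sum_mem fun r _ => ?_
    rw [map_zsmul]
    refine zsmul_mem ?_ _
    show inclJ le (b₀ (mulP hε.smul_mem (Lat.e r.1 r.2))) - diag L (a' (Lat.e r.1 r.2)) ∈ _
    rw [show a' (Lat.e r.1 r.2) = a (r.1, r.2) from Lat.ofBasis_e _ _ _]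
    exact ha _
  let b : ε.ker →+ J L := (inclJ le).comp b₀ - ((diag L).comp a').comp ρ
  have hbgood : ∀ x, b (mulP hε.smul_mem x) ∈ divOrd L p (S : Set Nat.Primes) := fun x => by
    have e1 : ∀ r : ε.ker, diag L (a' r) ∈ divOrd L p (S : Set Nat.Primes) := fun r => by
      have h1 : diag L (a' r) = p • inclJ le (b₀ r) - d r := by
        simp only [d, AddMonoidHom.sub_apply, AddMonoidHom.comp_apply, mulP_coe, map_nsmul,
          sub_sub_cancel]
      rw [h1]
      exact sub_mem (nsmul_mem_divOrd hur p _) (hd _)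
    have e2 : b (mulP hε.smul_mem x) = d x - diag L (a' (ρ (mulP hε.smul_mem x) - x)) := by
      simp only [b, d, AddMonoidHom.sub_apply, AddMonoidHom.comp_apply, map_sub]
      abel
    rw [e2]
    exact sub_mem (hd x) (e1 ⟨_, hρ x⟩)
  have hproj : ∀ s, proj L (b s) = Duality.inclC le (f.1 s) := fun s => by
    simp only [b, AddMonoidHom.sub_apply, AddMonoidHom.comp_apply, map_sub, proj_diag_zero,
      sub_zero, ← inclC_proj, hb₀]
  have hco : ∀ (σ : L ≃ₐ[ℚ] L) (s : ε.ker), ∃ z : Additive Lˣ, diag L z =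
      σ • b (smulS hε.isStable_ker (levelRes le σ⁻¹) s) - b s := fun σ s => by
    obtain ⟨z, hz⟩ := (proj_eq_zero_iff L).1
      (show proj L (σ • b (smulS hε.isStable_ker (levelRes le σ⁻¹) s) - b s) = 0 by
        rw [map_sub, proj_smul, hproj, hproj, smul_inclC, f.2, ← mul_smul, ← map_mul,
          mul_inv_cancel, map_one, one_smul, sub_self])
    exact ⟨Additive.ofMul z, congrArg Additive.ofMul hz⟩
  choose β hβ using hco
  let β' : (L ≃ₐ[ℚ] L) → ε.ker →+ Additive Lˣ := fun σ => AddMonoidHom.mk' (β σ) fun s t =>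
    diag_injective L (by
      rw [map_add (diag L), hβ, hβ, hβ, smulS_add, map_add b, map_add b, smul_add]
      abel)
  obtain ⟨L', hfd', hn', h', hur', y, hy⟩ := exists_units_extend hpS hur hε.smul_mem β' fun σ x => by
    show diag L (β σ _) ∈ _
    rw [hβ, smulS_mulP hε.isStable_ker]
    exact sub_mem (smul_mem_divOrd σ (hbgood _)) (hbgood x)
  letI := hfd'; letI := hn'
  let e : (L' ≃ₐ[ℚ] L') → TwHom (levelRes (le.trans h')) (Lat (K ≃ₐ[ℚ] K) ι) (Additive L'ˣ) :=
    fun σ => TwHom.of (y (levelRes h' σ))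
  have hcob : ∀ (σ : L' ≃ₐ[ℚ] L') (s : ε.ker),
      σ • inclJ h' (b (smulS hε.isStable_ker (levelRes (le.trans h') σ⁻¹) s)) - inclJ h' (b s) =
        diag L' (e σ s) := fun σ s => by
    show _ = diag L' (y _ s)
    rw [hy, diag_unitsIncl]
    show _ = inclJ h' (diag L (β _ s))
    rw [hβ, smul_inclJ, map_sub, ← map_inv (levelRes h'), levelRes_levelRes]
  have hdd : ∀ σ τ (s : ε.ker), dd e σ τ s = 0 := fun σ τ s => diag_injective L' (by
    have e1 := hcob τ (smulS hε.isStable_ker (levelRes (le.trans h') σ⁻¹) s)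
    rw [smulS_smulS, ← map_mul, ← mul_inv_rev] at e1
    simp only [coe_smulS] at e1
    simp only [dd, TwHom.add_apply, TwHom.sub_apply, TwHom.smul_apply, map_add, map_sub,
      diag_smul, map_zero, ← e1, ← hcob, smul_sub, mul_smul]
    abel)
  let c₀ : (L' ≃ₐ[ℚ] L') → (L' ≃ₐ[ℚ] L') → TwHom (levelRes (le.trans h')) A (Additive L'ˣ) :=
    fun σ τ => TwHom.of (AddMonoidHom.liftOfSurjective ε hε.surjective
      ⟨(dd e σ τ).toHom, fun s hs => AddMonoidHom.mem_ker.2 (hdd σ τ ⟨s, hs⟩)⟩)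
  have hc₀ : ∀ σ τ z, c₀ σ τ (ε z) = dd e σ τ z := fun σ τ z =>
    AddMonoidHom.liftOfRightInverse_comp_apply ε _ _ ⟨(dd e σ τ).toHom, _⟩ z
  refine ⟨fun gh => toQHom (c₀ (res L' gh.1) (res L' gh.2)), fun g h j => ?_,
    ⟨L', hfd', hn', le.trans h', hur', (inclJ h').comp b, e, fun s => ?_, hcob,
      fun x => (inclJ_mem_divOrd_iff h').2 (hbgood x), fun g h => ?_⟩,
    ⟨L', hfd', hn', hur', fun g g' h h'' hg hh => by simp only [hg, hh]⟩⟩
  · refine TwHom.ext fun a => ?_
    obtain ⟨z, rfl⟩ := hε.surjective a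
    simp only [smul_toQHom, TwHom.add_apply, toQHom_apply, ← map_add, TwHom.smul_apply, map_mul]
    congr 1
    rw [← hε.map_smul, hc₀, hc₀, hc₀, hc₀]
    simp only [dd, TwHom.add_apply, TwHom.sub_apply, TwHom.smul_apply, smul_add, smul_sub,
      mul_smul, map_mul, mul_inv_rev, mul_assoc]
    abel
  · rw [AddMonoidHom.comp_apply, ← inclC_proj, hproj, inclC_trans]
  · refine TwHom.ext fun z => ?_
    rw [TwHom.pre_apply, toQHom_apply, toQHom_apply, hc₀]

end Fermat.Agent.CFT.PT
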