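import Fermat.Agent.CFT.PT.Glue
import Fermat.Agent.CFT.PT.SemiH2
import Fermat.Agent.CFT.PT.CyclicCochain
import Fermat.Agent.CFT.PT.Arith.Frobenius

/-!
# Local triviality: at unramified primes always, at the others from a local cochain
-/

set_option autoImplicit false
set_option synthInstance.maxHeartbeats 200000
set_option maxHeartbeats 800000
set_option linter.unusedSectionVars false
set_option linter.style.haveILetI false

noncomputable section

namespace Fermat.Agent.CFT.PT

open ExtCitation Fermat.Agent.Arith IntermediateField Fermat.Agent.CFT.Local Fermat.Agent.CFT.Idele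
open Fermat.Agent.CFT.Duality groupCohomology

local instance factPrimeLocTriv (q : Nat.Primes) : Fact (q : ℕ).Prime := ⟨q.2⟩

variable {K L : IntermediateField ℚ QBar} [FiniteDimensional ℚ K] [Normal ℚ K]
  [FiniteDimensional ℚ L] [Normal ℚ L]
  {A : Type*} [AddCommGroup A] [DistribMulAction (K ≃ₐ[ℚ] K) A]

theorem locPart_idem (q : Nat.Primes) (x : J L) : locPart L q (locPart L q x) = locPart L q x := by
  refine congrArg (fun y => Additive.ofMul (locIdl q y)) ?_
  show val (locPart L q x).toMul q 1 = _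
  rw [locPart_apply, ← map_one (toGlobal (q : ℕ) L)]
  exact (val_locIdl_self q _ 1).trans (one_smul _ _)

theorem locPart_off (q : Nat.Primes) {σ : L ≃ₐ[ℚ] L} (hσ : σ ∉ decomp L q) (x : J L) :
    locPart L q (σ • locPart L q x) = 0 := by
  rw [locPart_apply, val_smul_J, one_mul, locPart_apply,
    show val (loc' L q (Additive.ofMul (val x.toMul q 1))).toMul q σ = 1 from
      val_locIdl_of_notMem q _ hσ, ofMul_one, map_zero]

theorem locPart_partAt (q : Nat.Primes) (x : J L) :
    locPart L q (partAt {q} x) = locPart L q x := by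
  classical
  rw [locPart_apply, locPart_apply, val_partAt, if_pos (Set.mem_singleton q)]

theorem locPart_eq_zero (q : Nat.Primes) {x : J L} (h : locPart L q x = 0) :
    val x.toMul q 1 = 1 := by
  have e := congrArg (fun z : J L => val z.toMul q (toGlobal (q : ℕ) L 1)) h
  rw [locPart_apply] at e
  exact (((val_locIdl_self q _ 1).trans (one_smul _ _)).symm.trans e).trans (val_one q _)

variable (A) in
/-- Homomorphisms into the ideles supported at `q`. -/
def suppTw (le : K ≤ L) (q : Nat.Primes) : AddSubgroup (TwHom (levelRes le) A (J L)) where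
  carrier := {φ | ∀ a, φ a ∈ supportedIn L {q}}
  add_mem' hφ hψ a := add_mem (hφ a) (hψ a)
  zero_mem' a := zero_mem _
  neg_mem' hφ a := neg_mem (hφ a)

theorem semiProj_locPart (le : K ≤ L) (q : Nat.Primes) :
    SemiProj (decomp L q) (TwHom.map (locPart L q)) (suppTw A le q) where
  mem φ a := fun q' hq' σ => by
    rw [TwHom.map_apply, locPart_apply]
    exact val_locIdl_of_ne q _ (fun e => hq' e) σ
  smul_mem g φ hφ a := by
    rw [TwHom.smul_apply]; exact smul_mem_supportedIn g (hφ _)
  comm d hd φ := TwHom.ext fun a => by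
    simp only [TwHom.map_apply, TwHom.smul_apply, locPart_smul q hd]
  idem φ := TwHom.ext fun a => by simp only [TwHom.map_apply, locPart_idem]
  off g hg φ := TwHom.ext fun a => by
    simp only [TwHom.map_apply, TwHom.smul_apply, TwHom.zero_apply, locPart_off q hg]
  ext φ hφ h := TwHom.ext fun a => J_ext fun q' σ => by
    rcases eq_or_ne q' q with rfl | hne
    · have e := congrArg (fun ψ : TwHom (levelRes le) A (J L) => ψ (levelRes le σ • a)) (h σ)
      simp only [TwHom.map_apply, TwHom.smul_apply, TwHom.zero_apply, map_inv, inv_smul_smul] at e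
      have e1 := locPart_eq_zero q' e
      rw [val_smul_J, one_mul] at e1
      rw [e1]
      exact (val_one q' σ).symm
    · rw [hφ a q' hne σ]
      exact (val_one q' σ).symm

/-- An inflated cochain with values in homomorphisms into units, read at `q` in a bigger level. -/
def semiInfl {le : K ≤ L} {L' : IntermediateField ℚ QBar} [FiniteDimensional ℚ L'] [Normal ℚ L']
    (h' : L ≤ L') (q : Nat.Primes)
    (c : (L ≃ₐ[ℚ] L) × (L ≃ₐ[ℚ] L) → TwHom (levelRes le) A (Additive Lˣ))
    (x : (L' ≃ₐ[ℚ] L') × (L' ≃ₐ[ℚ] L')) : TwHom (levelRes (le.trans h')) A (J L') :=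
  TwHom.of (((partAt {q}).comp ((inclJ h').comp (diag L))).comp
    (c (levelRes h' x.1, levelRes h' x.2)).toHom)

theorem semiInfl_apply {le : K ≤ L} {L' : IntermediateField ℚ QBar} [FiniteDimensional ℚ L']
    [Normal ℚ L'] (h' : L ≤ L') (q : Nat.Primes)
    (c : (L ≃ₐ[ℚ] L) × (L ≃ₐ[ℚ] L) → TwHom (levelRes le) A (Additive Lˣ))
    (g h : L' ≃ₐ[ℚ] L') (a : A) :
    semiInfl h' q c (g, h) a =
      partAt {q} (inclJ h' (diag L (c (levelRes h' g, levelRes h' h) a))) := rfl

theorem isCocycle₂_semiInfl {le : K ≤ L} {L' : IntermediateField ℚ QBar} [FiniteDimensional ℚ L']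
    [Normal ℚ L'] (h' : L ≤ L') (q : Nat.Primes)
    (c : (L ≃ₐ[ℚ] L) × (L ≃ₐ[ℚ] L) → TwHom (levelRes le) A (Additive Lˣ)) (hc : IsCocycle₂ c) :
    IsCocycle₂ (semiInfl h' q c) := fun g h j => TwHom.ext fun a => by
  have e := congr_arg (fun φ : TwHom (levelRes le) A (Additive Lˣ) =>
    partAt {q} (inclJ h' (diag L (φ a)))) (hc (levelRes h' g) (levelRes h' h) (levelRes h' j))
  simp only [TwHom.add_apply, TwHom.smul_apply, map_add, diag_smul] at e
  simp only [TwHom.add_apply, TwHom.smul_apply, semiInfl_apply, map_mul, ← partAt_smul, smul_inclJ]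
  rw [← map_inv (levelRes h'), levelRes_levelRes] at e
  exact e

/-- A local trivialisation at the decomposition group gives semilocal triviality. -/
theorem exists_semi_cochain {le : K ≤ L} {L' : IntermediateField ℚ QBar} [FiniteDimensional ℚ L']
    [Normal ℚ L'] (h' : L ≤ L') (q : Nat.Primes)
    (c : (L ≃ₐ[ℚ] L) × (L ≃ₐ[ℚ] L) → TwHom (levelRes le) A (Additive Lˣ)) (hc : IsCocycle₂ c)
    (m : decomp L' q → TwHom (levelRes (le.trans h')) A (J L'))
    (hm : ∀ d, TwHom.map (locPart L' q) (m d) = m d)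
    (hmc : ∀ a b : decomp L' q, (a : L' ≃ₐ[ℚ] L') • m b - m (a * b) + m a =
      TwHom.map (locPart L' q) (semiInfl h' q c ((a : L' ≃ₐ[ℚ] L'), (b : L' ≃ₐ[ℚ] L')))) :
    ∃ t : (L' ≃ₐ[ℚ] L') → TwHom (levelRes (le.trans h')) A (J L'),
      (∀ g a, t g a ∈ supportedIn L' {q}) ∧
      ∀ g h a, dd t g h a =
        partAt {q} (inclJ h' (diag L (c (levelRes h' g, levelRes h' h) a))) := by
  letI : Fintype ((L' ≃ₐ[ℚ] L') ⧸ decomp L' q) := Fintype.ofFinite _
  obtain ⟨t, hts, ht⟩ := (semiProj_locPart (le.trans h') q).exists_h2 (semiInfl h' q c)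
    (isCocycle₂_semiInfl h' q c hc) (fun x a => partAt_mem_supportedIn {q} _) m hm hmc
  exact ⟨t, hts, fun g h a => congrArg
    (fun φ : TwHom (levelRes (le.trans h')) A (J L') => φ a) (ht g h)⟩

/-- A prime where `L` is unramified never obstructs a class killed by `p`. -/
theorem locTriv_of_unramified {p : ℕ} [Fact p.Prime] {S : Finset Nat.Primes} (le : K ≤ L)
    (hA : ∀ a : A, p • a = 0) {q : Nat.Primes} (hq : inertia (E L q) = ⊥)
    (c : (L ≃ₐ[ℚ] L) × (L ≃ₐ[ℚ] L) → TwHom (levelRes le) A (Additive Lˣ)) (hc : IsCocycle₂ c) :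
    LocTriv S c q := by
  obtain ⟨L', hfd, hn, h', δ, hin, hrange, hd⟩ :=
    exists_frobenius_enlargement (p := p) (q : ℕ) hq
  letI := hfd; letI := hn
  refine ⟨L', hfd, hn, h', fun _ => ⟨hin, fun g x => ?_⟩, ?_⟩
  · obtain ⟨k, hk⟩ := exists_norm_eq_zpow L' hin (val x.toMul q (res L' g))
    exact ⟨k, (norm_val_eq L' x q g).symm.trans hk⟩
  set n := orderOf (resTo h' δ)
  have hn1 : levelRes h' (δ ^ n) = 1 := by
    have e : levelRes h' (δ ^ n) = resTo h' δ ^ n := by
      rw [map_pow]; rfl
    rw [e, pow_orderOf_eq_one]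
  have hcoc := isCocycle₂_semiInfl h' q c hc
  let w : (L' ≃ₐ[ℚ] L') → (L' ≃ₐ[ℚ] L') → TwHom (levelRes (le.trans h')) A (J L') :=
    fun a b => TwHom.map (locPart L' q) (semiInfl h' q c (a, b))
  obtain ⟨m, hmP, hm⟩ := exists_cochain_cyclic (δ := δ) (isOfFinOrder_of_finite δ) hd
    (TwHom.map (locPart L' q)) w (fun a b => (semiProj_locPart (le.trans h') q).idem _)
    (fun a ha b _ d _ => by
      have e := congrArg (TwHom.map (locPart L' q)) (hcoc a b d)
      rw [map_add, map_add, (semiProj_locPart (le.trans h') q).comm a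
        (show a ∈ (toGlobal (q : ℕ) L').range by rw [hrange]; exact ha)] at e
      exact e)
    (fun a b => TwHom.ext fun x => by
      simp only [w, TwHom.nsmul_apply, TwHom.map_apply, TwHom.zero_apply]
      rw [← map_nsmul (locPart L' q), ← map_nsmul (semiInfl h' q c (a, b)), hA, map_zero,
        map_zero])
    (fun a b => TwHom.ext fun x => by
      simp only [w, TwHom.map_apply, semiInfl_apply, map_mul, hn1, mul_one])
  exact exists_semi_cochain h' q c hc (fun d => m ⟨d, hrange ▸ d.2⟩) (fun d => hmP _)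
    fun a b => hm ⟨a, hrange ▸ a.2⟩ ⟨b, hrange ▸ b.2⟩

/-- A local cochain with values in the roots of unity of a level gives semilocal triviality. -/
theorem locTriv_of_local {S : Finset Nat.Primes} (le : K ≤ L) {q : Nat.Primes} (hqS : q ∈ S)
    (c : (L ≃ₐ[ℚ] L) × (L ≃ₐ[ℚ] L) → TwHom (levelRes le) A (Additive Lˣ)) (hc : IsCocycle₂ c)
    (F : IntermediateField ℚ QBar) [FiniteDimensional ℚ F]
    (t : (Ω q ≃ₐ[ℚ_[(q : ℕ)]] Ω q) → DualMod K A)
    (htF : ∀ τ τ', (loc q τ)⁻¹ * loc q τ' ∈ F.fixingSubgroup → t τ = t τ')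
    (hval : ∀ τ a, ∃ y : Additive Lˣ, unitsToQ L y = t τ a)
    (htc : ∀ τ τ', toQHom (c (res L (loc q τ), res L (loc q τ'))) =
      loc q τ • t τ' - t (τ * τ') + t τ) :
    LocTriv S c q := by
  classical
  set L' := IntermediateField.normalClosure ℚ (F ⊔ L : IntermediateField ℚ QBar) QBar
  haveI : FiniteDimensional ℚ (F ⊔ L : IntermediateField ℚ QBar) :=
    IntermediateField.finiteDimensional_sup _ _
  haveI : Normal ℚ L' := normal_normalClosure _
  have hFL : F ≤ L' := le_sup_left.trans (IntermediateField.le_normalClosure _)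
  have h' : L ≤ L' := le_sup_right.trans (IntermediateField.le_normalClosure _)
  refine ⟨L', inferInstance, inferInstance, h', fun h => absurd hqS h, ?_⟩
  choose y hy using hval
  let y' : (Ω q ≃ₐ[ℚ_[(q : ℕ)]] Ω q) → (A →+ Additive L'ˣ) := fun τ =>
    (unitsIncl h').comp (AddMonoidHom.mk' (y τ) fun a b => unitsToQ_injective L (by
      rw [map_add (unitsToQ L), hy, hy, hy, map_add]))
  have hy' : ∀ τ a, unitsToQ L' (y' τ a) = t τ a := fun τ a =>
    (unitsToQ_unitsIncl h' _).trans (hy τ a)
  have hτ : ∀ d : decomp L' q, ∃ τ, res L' (loc q τ) = d := fun d => by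
    obtain ⟨s, hs⟩ := MonoidHom.mem_range.1 d.2
    obtain ⟨τ, rfl⟩ := AlgEquiv.restrictNormalHom_surjective (K₁ := E L' q) (Ω q) s
    exact ⟨τ, by rw [← hs, toGlobal_restrict]⟩
  choose τd hτd using hτ
  let m : decomp L' q → TwHom (levelRes (le.trans h')) A (J L') := fun d =>
    TwHom.of (((locPart L' q).comp (diag L')).comp (y' (τd d)))
  refine exists_semi_cochain h' q c hc m
    (fun d => TwHom.ext fun a => by
      simp only [m, TwHom.map_apply, TwHom.of_apply, AddMonoidHom.comp_apply, locPart_idem])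
    fun a b => TwHom.ext fun x => ?_
  simp only [m, TwHom.map_apply, TwHom.add_apply, TwHom.sub_apply, TwHom.smul_apply,
    TwHom.of_apply, AddMonoidHom.comp_apply, semiInfl_apply, locPart_partAt]
  rw [← locPart_smul q a.2, ← map_sub, ← map_add, ← diag_smul, ← map_sub, ← map_add,
    ← diag_unitsIncl]
  congr 2
  refine unitsToQ_injective L' ?_
  have hab : t (τd (a * b)) = t (τd a * τd b) := htF _ _ (by
    refine IntermediateField.fixingSubgroup_antitone hFL ((res_eq_iff L').1 ?_)
    rw [map_mul (loc q), map_mul, hτd, hτd, hτd, Subgroup.coe_mul])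
  have hab' := congrArg (fun φ : DualMod K A => φ x) (htc (τd a) (τd b))
  simp only [toQHom_apply, TwHom.add_apply, TwHom.sub_apply, TwHom.smul_apply] at hab'
  rw [unitsToQ_unitsIncl, map_add (unitsToQ L'), map_sub (unitsToQ L'), ← hτd a, ← hτd b,
    ← smul_unitsToQ, hy', hy', hy', hab, ← map_inv (res L'), levelRes_res, levelRes_res,
    levelRes_res, hab']

end Fermat.Agent.CFT.PT
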