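import Fermat.Agent.CFT.PT.Extend
import Fermat.Agent.CFT.PT.Arith.LocalRoot

/-!
# Linked cocycles are locally coboundaries of continuous cochains
-/

set_option autoImplicit false
set_option synthInstance.maxHeartbeats 200000
set_option maxHeartbeats 800000
set_option linter.unusedSectionVars false
set_option linter.style.haveILetI false

noncomputable section

namespace Fermat.Agent.CFT.PT

open ExtCitation Fermat.Agent.Arith IntermediateField Fermat.Agent.CFT.Local Fermat.Agent.CFT.Idele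
open Fermat.Agent.CFT.Duality groupCohomology

local instance factPrimeLocalLinked (q : Nat.Primes) : Fact (q : ℕ).Prime := ⟨q.2⟩

/-- The embedding of units of `ℚ̄` into those of `ℚ̄_q`. -/
def embU (q : Nat.Primes) : Additive QBarˣ →+ Additive (Ω q)ˣ :=
  MonoidHom.toAdditive (Units.map (emb q : QBar →* Ω q))

theorem embU_injective (q : Nat.Primes) : Function.Injective (embU q) := fun x y h =>
  Additive.toMul.injective (Units.ext ((emb q).toRingHom.injective
    (congrArg (fun z : Additive (Ω q)ˣ => ((z.toMul : (Ω q)ˣ) : Ω q)) h)))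

theorem smul_embU (q : Nat.Primes) (τ : Ω q ≃ₐ[ℚ_[(q : ℕ)]] Ω q) (x : Additive QBarˣ) :
    τ • embU q x = embU q (loc q τ • x) :=
  Additive.toMul.injective (Units.ext (emb_loc q τ ((x.toMul : QBarˣ) : QBar)).symm)

theorem exists_embU_eq {p : ℕ} [hp : Fact p.Prime] (q : Nat.Primes) (z : Additive (Ω q)ˣ)
    (hz : p • z = 0) : ∃ w, embU q w = z := by
  haveI : NeZero p := ⟨hp.out.ne_zero⟩
  haveI : NeZero (p : QBar) := ⟨Nat.cast_ne_zero.mpr hp.out.ne_zero⟩
  obtain ⟨ζ, hζ⟩ := HasEnoughRootsOfUnity.exists_primitiveRoot QBar p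
  obtain ⟨i, -, hi⟩ := (hζ.map_of_injective (emb q).toRingHom.injective).eq_pow_of_pow_eq_one
    (congrArg (fun z : Additive (Ω q)ˣ => ((z.toMul : (Ω q)ˣ) : Ω q)) hz)
  refine ⟨i • Additive.ofMul (Units.mk0 ζ (hζ.ne_zero hp.out.ne_zero)), ?_⟩
  rw [map_nsmul]
  exact Additive.toMul.injective (Units.ext hi)

/-- The inclusion of the units of a completion. -/
def unitsToΩ (L : IntermediateField ℚ QBar) (q : Nat.Primes) :
    Additive (E L q)ˣ →+ Additive (Ω q)ˣ :=
  MonoidHom.toAdditive (Units.map (E L q).val.toRingHom.toMonoidHom)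

theorem unitsToΩ_injective (L : IntermediateField ℚ QBar) (q : Nat.Primes) :
    Function.Injective (unitsToΩ L q) := fun x y h =>
  Additive.toMul.injective (Units.ext (Subtype.ext
    (congrArg (fun z : Additive (Ω q)ˣ => ((z.toMul : (Ω q)ˣ) : Ω q)) h)))

theorem smul_unitsToΩ_eq (L : IntermediateField ℚ QBar) (q : Nat.Primes)
    {τ τ' : Ω q ≃ₐ[ℚ_[(q : ℕ)]] Ω q} (h : (loc q τ)⁻¹ * loc q τ' ∈ L.fixingSubgroup)
    (x : Additive (E L q)ˣ) : τ • unitsToΩ L q x = τ' • unitsToΩ L q x := by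
  refine Additive.toMul.injective (Units.ext ?_)
  show τ (((x.toMul : (E L q)ˣ) : E L q) : Ω q) = τ' (((x.toMul : (E L q)ˣ) : E L q) : Ω q)
  have hfix : (τ⁻¹ * τ') (((x.toMul : (E L q)ˣ) : E L q) : Ω q) =
      (((x.toMul : (E L q)ˣ) : E L q) : Ω q) := by
    refine fixes_localField (q : ℕ) L (fun y => ?_) ((x.toMul : (E L q)ˣ) : E L q).2
    rw [← emb_loc, map_mul, map_inv]
    exact congrArg (emb q) ((IntermediateField.mem_fixingSubgroup_iff _ _).1 h (y : QBar) y.2)
  conv_lhs => rw [← hfix, AlgEquiv.mul_apply]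
  exact τ.apply_symm_apply _

variable {L : IntermediateField ℚ QBar} [FiniteDimensional ℚ L] [Normal ℚ L]

variable (L) in
/-- The value of an idele at the distinguished place over `q`. -/
def valΩ (q : Nat.Primes) : J L →+ Additive (Ω q)ˣ :=
  AddMonoidHom.mk' (fun x => Additive.ofMul ((x.toMul : PreIdele) q 1)) fun _ _ => rfl

theorem valΩ_smul (q : Nat.Primes) (τ : Ω q ≃ₐ[ℚ_[(q : ℕ)]] Ω q) (x : J L) :
    valΩ L q (res L (loc q τ) • x) = τ • valΩ L q x := by
  refine Additive.toMul.injective (Units.ext ?_)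
  show (((res L (loc q τ) • x.toMul : idl L) : PreIdele) q 1 : Ω q) = τ _
  rw [coe_smul_idl L (res L (loc q τ)) x.toMul rfl, transl_apply, one_mul]
  conv_lhs => rw [← mul_one (loc q τ)]
  exact (mem_idl.1 x.toMul.2).1 q τ 1

theorem valΩ_diag (q : Nat.Primes) (a : Additive Lˣ) :
    valΩ L q (diag L a) = embU q (unitsToQ L a) := rfl

theorem exists_unitsToΩ_valΩ (q : Nat.Primes) {L' : IntermediateField ℚ QBar} (h : L ≤ L')
    (x : J L) : ∃ y, unitsToΩ L' q y = valΩ L q x :=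
  ⟨Additive.ofMul (Units.mk0
    ⟨((x.toMul : PreIdele) q 1 : Ω q), localField_mono (q : ℕ) h (value_mem_E L x.toMul.2 q 1)⟩
    fun h0 => ((x.toMul : PreIdele) q 1).ne_zero (congrArg Subtype.val h0)),
    Additive.toMul.injective (Units.ext rfl)⟩

/-- Finitely many local `p`-th roots lie in the completion of one number field. -/
theorem exists_level_roots {p : ℕ} [hp : Fact p.Prime] (hp2 : p ≠ 2) (q : Nat.Primes) {κ : Type*}
    [Finite κ] (y : κ → Ω q) (hy0 : ∀ i, y i ≠ 0) (hy : ∀ i, y i ^ p ∈ E L q) :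
    ∃ L' : IntermediateField ℚ QBar, FiniteDimensional ℚ L' ∧ Normal ℚ L' ∧ L ≤ L' ∧
      ∀ i, y i ∈ E L' q := by
  choose Li hf hn hle hmem using fun i =>
    exists_mem_localField_of_pow_mem hp2 L (hy0 i) (hy i)
  haveI : ∀ i, FiniteDimensional ℚ (Li i) := hf
  haveI : FiniteDimensional ℚ (L ⊔ ⨆ i, Li i : IntermediateField ℚ QBar) :=
    IntermediateField.finiteDimensional_sup _ _
  set L' := IntermediateField.normalClosure ℚ (L ⊔ ⨆ i, Li i : IntermediateField ℚ QBar) QBar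
  haveI : Normal ℚ L' := normal_normalClosure _
  exact ⟨L', inferInstance, inferInstance, le_sup_left.trans (IntermediateField.le_normalClosure _),
    fun i => localField_mono (q : ℕ)
      (((le_iSup Li i).trans le_sup_right).trans (IntermediateField.le_normalClosure _)) (hmem i)⟩

variable {K : IntermediateField ℚ QBar} [FiniteDimensional ℚ K] [Normal ℚ K]
  {A ι : Type*} [AddCommGroup A] [DistribMulAction (K ≃ₐ[ℚ] K) A] [Fintype ι] {p : ℕ}
  [hp : Fact p.Prime] {ε : Lat (K ≃ₐ[ℚ] K) ι →+ A} (hε : Presentation p ε) {S : Finset Nat.Primes}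

/-- A linked cocycle is trivial at every prime. -/
theorem exists_local_cochain_of_linked (hp2 : p ≠ 2) {c : GQ × GQ → DualMod K A}
    {f : ε.ker →+ C K} (hl : Linked hε S c f) (q : Nat.Primes) :
    ∃ F : IntermediateField ℚ QBar, FiniteDimensional ℚ F ∧
      ∃ t : (Ω q ≃ₐ[ℚ_[(q : ℕ)]] Ω q) → DualMod K A,
        (∀ τ τ', (loc q τ)⁻¹ * loc q τ' ∈ F.fixingSubgroup → t τ = t τ') ∧
        ∀ τ τ', c (loc q τ, loc q τ') = loc q τ • t τ' - t (τ * τ') + t τ := by
  classical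
  obtain ⟨L, hfd, hn, le, hur, b, e, hl⟩ := hl
  letI := hfd; letI := hn
  choose r hr using fun i : ι × (K ≃ₐ[ℚ] K) => IsAlgClosed.exists_pow_nat_eq
    ((((valΩ L q (b (mulP hε.smul_mem (Lat.e i.1 i.2)))).toMul : (Ω q)ˣ) : Ω q)) hp.out.pos
  have hr0 : ∀ i, r i ≠ 0 := fun i h0 => by
    have e1 := hr i
    rw [h0, zero_pow hp.out.ne_zero] at e1
    exact Units.ne_zero _ e1.symm
  obtain ⟨L', hfd', hn', h', hrL⟩ := exists_level_roots (L := L) hp2 q r hr0 fun i => by
    rw [hr]; exact value_mem_E L (b _).toMul.2 q 1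
  choose β hβ using fun s : ε.ker => exists_unitsToΩ_valΩ q h' (b s)
  let β' : ε.ker →+ Additive (E L' q)ˣ := AddMonoidHom.mk' β fun s s' => unitsToΩ_injective L' q (by
    rw [map_add (unitsToΩ L' q), hβ, hβ, hβ, map_add b, map_add (valΩ L q)])
  obtain ⟨y, hy⟩ := exists_extend_div hε.smul_mem β'
    (Lat.ofBasis fun i x => Additive.ofMul (Units.mk0 (⟨r (i, x), hrL (i, x)⟩ : E L' q)
      fun h0 => hr0 (i, x) (congrArg Subtype.val h0))) (by
    intro z
    have h1 : (nsmulAddMonoidHom p).comp (Lat.ofBasis fun i x => Additive.ofMul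
        (Units.mk0 (⟨r (i, x), hrL (i, x)⟩ : E L' q)
          fun h0 => hr0 (i, x) (congrArg Subtype.val h0))) = β'.comp (mulP hε.smul_mem) :=
      Lat.hom_ext fun i x => unitsToΩ_injective L' q (by
        rw [AddMonoidHom.comp_apply, AddMonoidHom.comp_apply, Lat.ofBasis_e]
        show _ = unitsToΩ L' q (β _)
        rw [hβ]
        exact Additive.toMul.injective (Units.ext (hr (i, x))))
    exact DFunLike.congr_fun h1 z)
  let πl : (Ω q ≃ₐ[ℚ_[(q : ℕ)]] Ω q) →* (K ≃ₐ[ℚ] K) := (res K).comp (loc q)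
  let Y : TwHom πl (Lat (K ≃ₐ[ℚ] K) ι) (Additive (Ω q)ˣ) := TwHom.of ((unitsToΩ L' q).comp y)
  let e' : (Ω q ≃ₐ[ℚ_[(q : ℕ)]] Ω q) → TwHom πl (Lat (K ≃ₐ[ℚ] K) ι) (Additive (Ω q)ˣ) := fun τ =>
    TwHom.of ((embU q).comp (toQHom (e (res L (loc q τ)))).toHom)
  let Φ := fun τ => e' τ - (τ • Y - Y)
  have hYs : ∀ s : ε.ker, Y (s : Lat (K ≃ₐ[ℚ] K) ι) = valΩ L q (b s) := fun s => by
    show unitsToΩ L' q (y s) = _
    rw [hy]
    exact hβ s
  have hΦ : ∀ τ (s : ε.ker), Φ τ s = 0 := fun τ s => by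
    have h1 := congrArg (valΩ L q) (hl.coboundary (res L (loc q τ)) s)
    rw [map_sub, valΩ_smul, valΩ_diag] at h1
    have h2 : (τ • Y : TwHom πl (Lat (K ≃ₐ[ℚ] K) ι) (Additive (Ω q)ˣ)) s =
        τ • valΩ L q (b (smulS hε.isStable_ker (levelRes le (res L (loc q τ))⁻¹) s)) := by
      rw [TwHom.smul_apply]
      refine congrArg (τ • ·) ?_
      rw [← hYs, coe_smulS]
      refine congrArg (fun σ : K ≃ₐ[ℚ] K => Y (σ • (s : Lat (K ≃ₐ[ℚ] K) ι))) ?_
      rw [← map_inv (res L), levelRes_res]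
      simp only [πl, MonoidHom.comp_apply, map_inv]
    simp only [Φ, TwHom.sub_apply, h2, hYs, h1]
    simp only [e', TwHom.of_apply, AddMonoidHom.comp_apply, TwHom.toHom_apply, toQHom_apply,
      sub_self]
  let φ : (Ω q ≃ₐ[ℚ_[(q : ℕ)]] Ω q) → TwHom πl A (Additive (Ω q)ˣ) := fun τ =>
    TwHom.of (AddMonoidHom.liftOfSurjective ε hε.surjective
      ⟨(Φ τ).toHom, fun s hs => AddMonoidHom.mem_ker.2 (hΦ τ ⟨s, hs⟩)⟩)
  have hφ : ∀ τ z, φ τ (ε z) = Φ τ z := fun τ z =>
    AddMonoidHom.liftOfRightInverse_comp_apply ε _ _ ⟨(Φ τ).toHom, _⟩ z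
  choose t ht using fun τ a => exists_embU_eq (p := p) q (φ τ a)
    (by rw [← map_nsmul (φ τ), hε.killed, map_zero])
  let t' : (Ω q ≃ₐ[ℚ_[(q : ℕ)]] Ω q) → DualMod K A := fun τ =>
    TwHom.of (AddMonoidHom.mk' (t τ) fun a a' => embU_injective q (by
      rw [map_add (embU q), ht, ht, ht, map_add (φ τ)]))
  have ht' : ∀ τ a, embU q (t' τ a) = φ τ a := ht
  refine ⟨L', hfd', t', fun τ τ' hτ => TwHom.ext fun a => embU_injective q ?_,
    fun τ τ' => TwHom.ext fun a => embU_injective q ?_⟩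
  · obtain ⟨z, rfl⟩ := hε.surjective a
    have hres : res L (loc q τ) = res L (loc q τ') :=
      (res_eq_iff L).2 (IntermediateField.fixingSubgroup_antitone h' hτ)
    have hπ : πl τ⁻¹ = πl τ'⁻¹ := by
      have h1 : res K (loc q τ) = res K (loc q τ') :=
        (res_eq_iff K).2 (IntermediateField.fixingSubgroup_antitone (le.trans h') hτ)
      simp only [πl, map_inv, MonoidHom.comp_apply, h1]
    rw [ht', ht', hφ, hφ]
    simp only [Φ, e', Y, TwHom.sub_apply, TwHom.smul_apply, TwHom.of_apply, AddMonoidHom.comp_apply,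
      TwHom.toHom_apply, hres, hπ, smul_unitsToΩ_eq L' q hτ]
  · obtain ⟨z, rfl⟩ := hε.surjective a
    have h1 := congrArg (fun ψ : TwHom (res K) (Lat (K ≃ₐ[ℚ] K) ι) (Additive QBarˣ) =>
      embU q (ψ z)) (hl.spec (loc q τ) (loc q τ'))
    simp only [TwHom.pre_apply] at h1
    have h2 : embU q (toQHom (dd e (res L (loc q τ)) (res L (loc q τ'))) z) = dd e' τ τ' z := by
      simp only [dd, map_add, map_sub, ← smul_toQHom, ← map_mul, TwHom.add_apply, TwHom.sub_apply,
        TwHom.smul_apply, e', TwHom.of_apply, AddMonoidHom.comp_apply, TwHom.toHom_apply,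
        ← smul_embU, πl, MonoidHom.comp_apply, map_inv, toQHom_apply]
    have h3 : dd e' τ τ' z = dd Φ τ τ' z := by
      refine congrArg (fun ψ : TwHom πl (Lat (K ≃ₐ[ℚ] K) ι) (Additive (Ω q)ˣ) => ψ z) ?_
      simp only [dd, Φ, smul_sub, mul_smul]
      abel
    rw [h1, h2, h3]
    simp only [dd, TwHom.add_apply, TwHom.sub_apply, TwHom.smul_apply, map_add, map_sub,
      ← smul_embU, ht', ← hε.map_smul, ← hφ, πl, MonoidHom.comp_apply, map_inv]

end Fermat.Agent.CFT.PT
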