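import Fermat.Agent.CFT.Duality.Main
import Fermat.Agent.CFT.PT.SupportedH1

/-!
# Equivariant maps into ideles supported at one prime: extension from the kernel and descent
-/

set_option autoImplicit false
set_option synthInstance.maxHeartbeats 200000
set_option maxHeartbeats 800000
set_option linter.unusedSectionVars false
set_option linter.style.haveILetI false

noncomputable section

namespace Fermat.Agent.CFT.PT

open ExtCitation Fermat.Agent.Arith IntermediateField Fermat.Agent.CFT.Local Fermat.Agent.CFT.Idele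
open Fermat.Agent.CFT.Duality groupCohomology

local instance factPrimeSuppDesc (q : Nat.Primes) : Fact (q : ℕ).Prime := ⟨q.2⟩

variable {K L : IntermediateField ℚ QBar} [FiniteDimensional ℚ K] [Normal ℚ K]
  [FiniteDimensional ℚ L] [Normal ℚ L] {le : K ≤ L}
  {A ι : Type*} [AddCommGroup A] [DistribMulAction (K ≃ₐ[ℚ] K) A] [Fintype ι] {p : ℕ}
  {ε : Lat (K ≃ₐ[ℚ] K) ι →+ A} (hε : Presentation p ε)

/-- An equivariant map supported at `q` can be corrected by one defined on the whole lattice so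
as to vanish on the kernel of the change of level. -/
theorem exists_extend_supported (q : Nat.Primes) (g' : relUp (levelRes le) ε →+ J L)
    (hg : IsEquivariantOn hε.isStable_up g') (hgs : ∀ s, g' s ∈ supportedIn L {q}) :
    ∃ Φ : Lat (L ≃ₐ[ℚ] L) ι →+ J L, (∀ (g : L ≃ₐ[ℚ] L) x, Φ (g • x) = g • Φ x) ∧
      (∀ x, Φ x ∈ supportedIn L {q}) ∧
      ∀ k : (Lat.pr (levelRes le) (ι := ι)).ker,
        Φ k = g' (AddSubgroup.inclusion ker_pr_le k) := by
  classical
  set T : Subgroup (L ≃ₐ[ℚ] L) := ⊤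
  set X := supportedIn L ({q} : Set Nat.Primes)
  letI act : DistribMulAction T X :=
    { smul := fun h x => ⟨(h : L ≃ₐ[ℚ] L) • x.1, smul_mem_supportedIn _ x.2⟩
      one_smul := fun x => Subtype.ext (one_smul _ x.1)
      mul_smul := fun a b x => Subtype.ext (mul_smul _ _ x.1)
      smul_zero := fun a => Subtype.ext (smul_zero (a : L ≃ₐ[ℚ] L))
      smul_add := fun a x y => Subtype.ext (smul_add (a : L ≃ₐ[ℚ] L) x.1 y.1) }
  have h1 : H1Zero ((levelRes le).ker.subgroupOf T) X := by
    intro c hc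
    obtain ⟨y, hy, hyc⟩ := exists_of_cocycle_supported q (levelRes le).ker
      (fun n => ((c ⟨⟨n, trivial⟩, n.2⟩ : X) : J L))
      (fun a b => congrArg Subtype.val (hc ⟨⟨a, trivial⟩, a.2⟩ ⟨⟨b, trivial⟩, b.2⟩))
      fun n => (c _).2
    exact ⟨⟨y, hy⟩, fun n => Subtype.ext (hyc ⟨(n : T), n.2⟩)⟩
  let ψ : (Lat.pr (levelRes le) (ι := ι)).ker →+ X :=
    (g'.comp (AddSubgroup.inclusion ker_pr_le)).codRestrict X fun k => hgs _
  obtain ⟨Φ, hΦ, hΦψ⟩ := Lat.exists_extend_ker (levelRes le) (levelRes_surjective le) T h1 ψ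
    fun h k => Subtype.ext (hg (h : L ≃ₐ[ℚ] L) (AddSubgroup.inclusion ker_pr_le k))
  exact ⟨X.subtype.comp Φ, fun g x => congrArg Subtype.val (hΦ ⟨g, trivial⟩ x), fun x => (Φ x).2,
    fun k => congrArg Subtype.val (hΦψ k)⟩

/-- An equivariant supported map vanishing on the kernel of the change of level comes from below. -/
theorem exists_descend_supported (q : Nat.Primes) (v : relUp (levelRes le) ε →+ J L)
    (hv : IsEquivariantOn hε.isStable_up v) (hvs : ∀ s, v s ∈ supportedIn L {q})
    (hvK : ∀ k : (Lat.pr (levelRes le) (ι := ι)).ker, v (AddSubgroup.inclusion ker_pr_le k) = 0) :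
    ∃ w : equivHom (C := J K) hε.isStable_ker,
      (∀ s, w.1 s ∈ supportedIn K {q}) ∧ upJ le w.1 = v := by
  have hπ := levelRes_surjective le
  have heq := apply_eq_of_vanish hπ v hvK
  have hfix : ∀ t : ε.ker, ∀ n ∈ (levelRes le).ker,
      n • v (secS (levelRes le) ε hπ t) = v (secS (levelRes le) ε hπ t) := by
    intro t n hn
    rw [← hv n, heq]
    congr 2
    refine Subtype.ext ?_
    rw [coe_prS, coe_smulS, Lat.pr_smul, MonoidHom.mem_ker.mp hn, one_smul]
    exact congr_arg Subtype.val (prS_secS hπ t)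
  choose w₀ hw₀ using fun t : ε.ker => exists_inclJ_eq le (hfix t)
  let w : ε.ker →+ J K := AddMonoidHom.mk' w₀ fun a b => inclJ_injective le (by
    rw [map_add (inclJ le), hw₀, hw₀, hw₀, map_add, map_add])
  have hup : upJ le w = v := AddMonoidHom.ext fun s => (hw₀ _).trans (heq s).symm
  refine ⟨⟨w, fun g t => inclJ_injective le ?_⟩, fun t q' hq' σ => ?_, hup⟩
  · obtain ⟨g, rfl⟩ := hπ g
    show inclJ le (w₀ _) = inclJ le (levelRes le g • w₀ t)
    rw [← smul_inclJ, hw₀, hw₀, ← hv g, heq (smulS hε.isStable_up g _)]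
    congr 2
    rw [prS_smul hε, prS_secS]
  · obtain ⟨σ, rfl⟩ := hπ σ
    have e := hvs (secS (levelRes le) ε hπ t) q' hq' σ
    rw [← hw₀ t, toMul_inclJ] at e
    refine Units.ext (Subtype.ext ?_)
    show (((val (w₀ t).toMul q' (levelRes le σ) : (E K q')ˣ) : E K q') : Ω q') = _
    rw [← coe_val_inclIdl le, e]
    simp only [Units.val_one, OneMemClass.coe_one]

end Fermat.Agent.CFT.PT
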