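import Fermat.Agent.CFT.Form.Statement
import Fermat.Agent.CFT.PT.Comap
import Fermat.Agent.CFT.PT.SuppDescend

/-!
# Local surjectivity: classes orthogonal to the semilocal maps at `q` are trivial at `q`
-/

set_option autoImplicit false
set_option synthInstance.maxHeartbeats 200000
set_option maxHeartbeats 1000000
set_option linter.unusedSectionVars false
set_option linter.style.haveILetI false

noncomputable section

namespace Fermat.Agent.CFT.PT

open ExtCitation Fermat.Agent.Arith IntermediateField Fermat.Agent.CFT.Local Fermat.Agent.CFT.Idele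
open Fermat.Agent.CFT.Duality Fermat.Agent.CFT.Form groupCohomology

local instance factPrimeLocalSurj (q : Nat.Primes) : Fact (q : ℕ).Prime := ⟨q.2⟩

variable {p : ℕ} [hp : Fact p.Prime] {L : IntermediateField ℚ QBar} [FiniteDimensional ℚ L]
  [Normal ℚ L]

theorem loc'_mem_supportedIn (q : Nat.Primes) (y : Additive (E L q)ˣ) :
    loc' L q y ∈ supportedIn L {q} := fun q' hq' σ =>
  val_locIdl_of_ne q _ (fun e => hq' e) σ

/-- The image of the local fundamental class is a multiple prime to `p` of the global one. -/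
theorem exists_splitHom {u : NormCocycle (L ≃ₐ[ℚ] L) (C L)} (hu : IsClassFormation p u)
    (q : Nat.Primes) {ul : NormCocycle (E L q ≃ₐ[ℚ_[(q : ℕ)]] E L q) (Additive (E L q)ˣ)}
    (hul : IsClassFormation p ul) (hLG : LocalGlobalProperty p L q)
    (P : Subgroup (E L q ≃ₐ[ℚ_[(q : ℕ)]] E L q)) (hP : IsPGroup p P) :
    let H := P.map (toGlobal (q : ℕ) L)
    let φ : H →* (E L q ≃ₐ[ℚ_[(q : ℕ)]] E L q) :=
      P.subtype.comp (P.equivMapOfInjective _ (toGlobal_injective (q : ℕ) L)).symm.toMonoidHom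
    letI : DistribMulAction H (Additive (E L q)ˣ) :=
      DistribMulAction.compHom (Additive (E L q)ˣ) φ
    letI : Fintype H := Fintype.ofFinite H
    ∃ σ : SplitHom H (comapCocycle φ (fun _ _ => rfl) ul) u,
      σ.j = (proj L).comp (loc' L q) ∧ (Nontrivial H → ¬ (p : ℤ) ∣ σ.s) := by
  classical
  intro H φ
  letI : DistribMulAction H (Additive (E L q)ˣ) := DistribMulAction.compHom (Additive (E L q)ˣ) φ
  letI : Fintype H := Fintype.ofFinite H
  set uv : NormCocycle H (Additive (E L q)ˣ) := comapCocycle φ (fun _ _ => rfl) ul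
  set ε := P.equivMapOfInjective _ (toGlobal_injective (q : ℕ) L)
  have hφt : ∀ h : H, toGlobal (q : ℕ) L (φ h) = h := fun h => by
    show toGlobal (q : ℕ) L ((ε.symm h : P) : E L q ≃ₐ[ℚ_[(q : ℕ)]] E L q) = _
    rw [← Subgroup.coe_equivMapOfInjective_apply P _ (toGlobal_injective (q : ℕ) L)]
    exact congrArg Subtype.val (ε.apply_symm_apply h)
  set j : Additive (E L q)ˣ →+ C L := (proj L).comp (loc' L q)
  have hj : ∀ (h : H) (c : Additive (E L q)ˣ), j (h • c) = (h : L ≃ₐ[ℚ] L) • j c := fun h c => by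
    show proj L (loc' L q (φ h • c)) = _
    rw [loc'_smul, hφt, proj_smul]
    rfl
  have hH : IsPGroup p H := hP.map _
  have hcoc : IsCocycle₂ fun gh : H × H => j (uv.toFun gh) := fun a b d => by
    show j _ + j _ = (a : L ≃ₐ[ℚ] L) • j _ + j _
    rw [← map_add, ← hj, ← map_add, uv.isCocycle a b d]
  obtain ⟨k, x, hx⟩ := hu.generates H hH _ hcoc
  refine ⟨⟨j, k, x, hj, fun g h => ?_⟩, rfl, fun hnt => ?_⟩
  · rw [show (g : L ≃ₐ[ℚ] L) • x h - x (g * h) + x g =
      j (uv.toFun (g, h)) - k • u.toFun ((g : L ≃ₐ[ℚ] L), (h : L ≃ₐ[ℚ] L)) from hx g h]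
    abel
  rintro ⟨k', hk'⟩
  replace hk' : k = (p : ℤ) * k' := hk'
  obtain ⟨n, hn⟩ := IsPGroup.iff_card.mp hH
  have hn0 : n ≠ 0 := by
    rintro rfl
    rw [pow_zero] at hn
    exact (Finite.one_lt_card (α := H)).ne' hn
  obtain ⟨n, rfl⟩ := Nat.exists_eq_succ_of_ne_zero hn0
  set m := p ^ n
  have hcard : Nat.card H = m * p := by rw [hn, pow_succ]
  obtain ⟨b₀, hb₀⟩ := index_nsmul_isCoboundary₂ (⊥ : Subgroup H)
    (fun gh : H × H => u.toFun ((gh.1 : L ≃ₐ[ℚ] L), (gh.2 : L ≃ₐ[ℚ] L)))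
    (fun a b d => u.isCocycle (a : L ≃ₐ[ℚ] L) (b : L ≃ₐ[ℚ] L) (d : L ≃ₐ[ℚ] L))
    ⟨0, fun a b => by
      simp only [Subsingleton.elim a 1, Subsingleton.elim b 1, OneMemClass.coe_one, u.one_left]
      simp⟩
  rw [Subgroup.index_bot] at hb₀
  let b : H → C L := fun h => (m : ℤ) • x h + k' • b₀ h
  have hm : ∀ g h : H, (g : L ≃ₐ[ℚ] L) • b h - b (g * h) + b g =
      proj L (loc' L q ((m : ℤ) • uv.toFun (g, h))) := fun g h => by
    have e1 : (g : L ≃ₐ[ℚ] L) • x h - x (g * h) + x g =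
      j (uv.toFun (g, h)) - k • u.toFun ((g : L ≃ₐ[ℚ] L), (h : L ≃ₐ[ℚ] L)) := hx g h
    have e2 : (g : L ≃ₐ[ℚ] L) • b₀ h - b₀ (g * h) + b₀ g =
      Nat.card H • u.toFun ((g : L ≃ₐ[ℚ] L), (h : L ≃ₐ[ℚ] L)) := hb₀ g h
    rw [map_zsmul, map_zsmul]
    show _ = (m : ℤ) • j (uv.toFun (g, h))
    calc (g : L ≃ₐ[ℚ] L) • b h - b (g * h) + b g
        = (m : ℤ) • ((g : L ≃ₐ[ℚ] L) • x h - x (g * h) + x g) +
          k' • ((g : L ≃ₐ[ℚ] L) • b₀ h - b₀ (g * h) + b₀ g) := by
          simp only [b, smul_add, smul_sub, smul_comm (g : L ≃ₐ[ℚ] L) (_ : ℤ)]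
          abel
      _ = _ := by
          rw [e1, e2, hcard, ← natCast_zsmul, smul_smul, smul_sub, smul_smul, hk', Nat.cast_mul,
            show k' * ((m : ℤ) * (p : ℤ)) = (m : ℤ) * ((p : ℤ) * k') by ring]
          exact sub_add_cancel _ _
  have hdvd : (Nat.card P : ℤ) ∣ (m : ℤ) := by
    refine hul.order P hP m (hLG P hP (fun gh : P × P => (m : ℤ) • ul.toFun ((gh.1 : E L q ≃ₐ[ℚ_[(q : ℕ)]] E L q), (gh.2 : E L q ≃ₐ[ℚ_[(q : ℕ)]] E L q))) ?_ ⟨fun g => b (ε g), fun g h => ?_⟩)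
    · intro a b d
      exact (zsmul_add _ _ (m : ℤ)).symm.trans ((congrArg (fun z => (m : ℤ) • z)
        (ul.isCocycle (a : E L q ≃ₐ[ℚ_[(q : ℕ)]] E L q) (b : E L q ≃ₐ[ℚ_[(q : ℕ)]] E L q)
          (d : E L q ≃ₐ[ℚ_[(q : ℕ)]] E L q))).trans ((zsmul_add _ _ (m : ℤ)).trans
          (congrArg (fun z => z + _) (map_zsmul (DistribSMul.toAddMonoidHom (Additive (E L q)ˣ)
            (a : E L q ≃ₐ[ℚ_[(q : ℕ)]] E L q)) (m : ℤ) _).symm)))
    · have e := hm (ε g) (ε h)
      rw [show uv.toFun (ε g, ε h) = ul.toFun ((g : E L q ≃ₐ[ℚ_[(q : ℕ)]] E L q), h) by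
        show ul.toFun (((ε.symm (ε g) : P) : E L q ≃ₐ[ℚ_[(q : ℕ)]] E L q), _) = _
        rw [ε.symm_apply_apply]
        show ul.toFun (_, ((ε.symm (ε h) : P) : E L q ≃ₐ[ℚ_[(q : ℕ)]] E L q)) = _
        rw [ε.symm_apply_apply], ← map_mul] at e
      refine Eq.trans ?_ e
      rfl
  rw [Nat.card_congr ε.toEquiv, hcard] at hdvd
  have h1 : m * p ∣ m := Int.natCast_dvd_natCast.1 hdvd
  have h2 := Nat.le_of_dvd (pow_pos hp.out.pos n) h1
  have h3 : m * 1 < m * p := Nat.mul_lt_mul_of_pos_left hp.out.one_lt (pow_pos hp.out.pos n)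
  omega

theorem proj_comp_sub_trHom {P X : Type*} [AddCommGroup P] [DistribMulAction (L ≃ₐ[ℚ] L) P]
    [AddCommGroup X] {S : AddSubgroup P} (hS : IsStable (L ≃ₐ[ℚ] L) S)
    {H : Subgroup (L ≃ₐ[ℚ] L)} [Fintype ((L ≃ₐ[ℚ] L) ⧸ H)] (lc : X →+ J L) (g : S →+ X)
    (f : S →+ J L) :
    (proj L).comp (trHom hS H (lc.comp g) - f) =
      trHom hS H (((proj L).comp lc).comp g) - (proj L).comp f := by
  ext s
  simp only [trHom_apply, AddMonoidHom.comp_apply, AddMonoidHom.sub_apply,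
    AddMonoidHom.finsetSum_apply, map_sub, map_sum, conjOn_apply, proj_smul]

variable {K : IntermediateField ℚ QBar} [FiniteDimensional ℚ K] [Normal ℚ K]
  {A ι : Type*} [AddCommGroup A] [DistribMulAction (K ≃ₐ[ℚ] K) A] [Fintype ι]
  {ε : Lat (K ≃ₐ[ℚ] K) ι →+ A} (hε : Presentation p ε) (le : K ≤ L)
  {u : NormCocycle (L ≃ₐ[ℚ] L) (C L)} (hu : IsClassFormation p u)
  (hk : IsPGroup p (levelRes le).ker) (q : Nat.Primes)

section Core

variable {H : Subgroup (L ≃ₐ[ℚ] L)} [Fintype H] {Cv : Type} [AddCommGroup Cv]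
  [DistribMulAction H Cv] {lc : Cv →+ J L}
  (hlc : ∀ (h : H) (c : Cv), lc (h • c) = (h : L ≃ₐ[ℚ] L) • lc c)
  (hsupp : ∀ c, lc c ∈ supportedIn L {q}) {uv : NormCocycle H Cv} (huv : IsClassFormation p uv)
  (σ : SplitHom H uv u) (hσj : σ.j = (proj L).comp lc)

include hlc hsupp hσj in
set_option maxHeartbeats 6000000 in
/-- A local equivariant map gives a semilocal map with the same pairings. -/
theorem exists_semilocal_pairing
    (g : equivHom (C := Cv) (IsStable.restrict (hε.isStable_up (π := levelRes le)) H)) :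
    ∃ w : equivHom (C := J K) hε.isStable_ker, (∀ s, w.1 s ∈ supportedIn K {q}) ∧
      ∀ a : levelCocycles (levelRes le) A, dual hε le hu hk (projHom hε w) a =
        (σ.s : ZMod p) * pair (IsStable.restrict hε.isStable_up H) hε.smul_mem_up huv
          (Lat.isInduced.subgroup H) g
          (resMod H ⟨_, liftC_mem (levelSystem le hu hk) hε a⟩) := by
  classical
  letI : Fintype ((L ≃ₐ[ℚ] L) ⧸ H) := Fintype.ofFinite _
  have hS := hε.isStable_up (π := levelRes le)
  let g' : relUp (levelRes le) ε →+ J L := trHom hS H (lc.comp g.1)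
  have hg'e : IsEquivariantOn hS g' := isEquivariantOn_trHom hS H _ fun h s => by
    show lc (g.1 (smulS (IsStable.restrict hS H) h s)) = (h : L ≃ₐ[ℚ] L) • lc (g.1 s)
    rw [g.2 h s, hlc]
  have hg's : ∀ s, g' s ∈ supportedIn L {q} := fun s => by
    simp only [g', trHom_apply, AddMonoidHom.finsetSum_apply]
    exact sum_mem fun r _ => smul_mem_supportedIn _ (hsupp _)
  obtain ⟨Φ, hΦ, hΦs, hΦK⟩ := exists_extend_supported hε q g' hg'e hg's
  obtain ⟨w, hw, hwv⟩ := exists_descend_supported hε q (g' - Φ.comp (relUp (levelRes le) ε).subtype)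
    (fun h s => by
      simp only [AddMonoidHom.sub_apply, AddMonoidHom.comp_apply, AddSubgroup.coe_subtype,
        coe_smulS, hg'e h s, hΦ, smul_sub])
    (fun s => sub_mem (hg's s) (hΦs _))
    fun k => by
      simp only [AddMonoidHom.sub_apply, AddMonoidHom.comp_apply, AddSubgroup.coe_subtype,
        AddSubgroup.coe_inclusion, hΦK, sub_self]
  obtain ⟨T, hT⟩ := (Lat.isInduced : IsInduced (L ≃ₐ[ℚ] L) (Lat (L ≃ₐ[ℚ] L) ι))
  have e1 : pullHom (levelRes le) ε (inclC le) (projHom hε w).1 =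
      trHom hS H (σ.j.comp g.1) -
        normOn hS ((((proj L).comp Φ).comp T).comp (relUp (levelRes le) ε).subtype) := by
    rw [projHom_coe, pullHom_proj, hwv, hσj, proj_comp_sub_trHom hS,
      normOn_comp_of_equivariant hS hT ((proj L).comp Φ)
        (fun h x => (congrArg (proj L) (hΦ h x)).trans (proj_smul L h (Φ x)))]
    rfl
  have he : pullEquiv (levelSystem le hu hk) hε (projHom hε w) = trEquiv hS σ g -
      ⟨normOn hS ((((proj L).comp Φ).comp T).comp (relUp (levelRes le) ε).subtype),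
        isEquivariantOn_normOn _ _⟩ := Subtype.ext e1
  refine ⟨w, hw, fun a => ?_⟩
  rw [show dual hε le hu hk (projHom hε w) a = _ from theta_apply (levelSystem le hu hk) hε _ a,
    he, map_sub, AddMonoidHom.sub_apply, pair_normOn, sub_zero,
    pair_trEquiv hS hε.smul_mem_up hu Lat.isInduced huv σ g]

include hlc hsupp huv hσj in
/-- Orthogonality to the semilocal maps gives triviality on `H`. -/
theorem exists_subgroup_coboundary (hσs : Nontrivial H → ¬ (p : ℤ) ∣ σ.s)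
    (a : levelCocycles (levelRes le) A)
    (ha : ∀ w : equivHom (C := J K) hε.isStable_ker, (∀ s, w.1 s ∈ supportedIn K {q}) →
      dual hε le hu hk (projHom hε w) a = 0) :
    ∃ x : A, ∀ h : H, levelRes le h • x - x = (a : (L ≃ₐ[ℚ] L) → A) h := by
  classical
  have hmem := liftC_mem (levelSystem le hu hk) hε a
  let b : cocycleMod (G := H) (S := relUp (levelRes le) ε) := resMod H ⟨_, hmem⟩
  have hb : (b : H → Lat (L ≃ₐ[ℚ] L) ι) ∈ coboundaryMod (S := relUp (levelRes le) ε) := by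
    by_contra hb
    obtain ⟨μ, hμ, hμb⟩ := exists_functional_ne_zero hε.smul_mem_up b hb
    have hnt : Nontrivial H := by
      by_contra hcon
      haveI := not_nontrivial_iff_subsingleton.1 hcon
      refine hb ⟨0, fun g => ?_⟩
      rw [Subsingleton.elim g 1, smul_zero, sub_zero, sub_zero]
      exact one_mem_of_cocycleMod b.2
    obtain ⟨g, hg⟩ := exists_pair_eq (IsStable.restrict hε.isStable_up H) hε.smul_mem_up huv
      (Lat.isInduced.subgroup H) μ hμ
    obtain ⟨w, hw, hwp⟩ := exists_semilocal_pairing hε le hu hk q hlc hsupp huv σ hσj g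
    have h0 := ha w hw
    rw [hwp a, hg] at h0
    refine hμb ((mul_eq_zero.1 h0).resolve_left fun hs => hσs hnt ?_)
    exact (ZMod.intCast_zmod_eq_zero_iff_dvd _ _).1 hs
  obtain ⟨y, hy⟩ := hb
  refine ⟨ε (Lat.pr (levelRes le) y), fun h => ?_⟩
  have e := hy h
  rw [mem_relUp] at e
  simp only [b, resMod_apply, map_sub, Subgroup.smul_def, Lat.pr_smul, hε.map_smul,
    eps_liftC (levelSystem le hu hk) hε, sub_eq_zero] at e
  exact e.symm

end Core

omit [Fintype ι] in
include hε in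
/-- Triviality on a subgroup of index prime to `p` spreads. -/
theorem exists_coboundary_of_index {H D : Subgroup (L ≃ₐ[ℚ] L)} (hidx : ¬ p ∣ H.relIndex D)
    (a : levelCocycles (levelRes le) A) (x₀ : A)
    (hx₀ : ∀ h : H, levelRes le h • x₀ - x₀ = (a : (L ≃ₐ[ℚ] L) → A) h) :
    ∃ x : A, ∀ g ∈ D, (a : (L ≃ₐ[ℚ] L) → A) g = levelRes le g • x - x := by
  classical
  letI : DistribMulAction D A := DistribMulAction.compHom A ((levelRes le).comp D.subtype)
  letI : Fintype D := Fintype.ofFinite D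
  obtain ⟨z, hz⟩ := index_nsmul_isCoboundary₁ (H.subgroupOf D)
    (fun d : D => (a : (L ≃ₐ[ℚ] L) → A) d) (fun c d => a.2 (c : L ≃ₐ[ℚ] L) d)
    ⟨x₀, fun h => hx₀ ⟨((h : D) : L ≃ₐ[ℚ] L), h.2⟩⟩
  obtain ⟨s, t, hst⟩ : IsCoprime ((H.relIndex D : ℕ) : ℤ) (p : ℤ) :=
    Int.isCoprime_iff_nat_coprime.mpr
      (by simpa using (hp.out.coprime_iff_not_dvd.mpr hidx).symm)
  refine ⟨s • z, fun g hg => ?_⟩
  have e : levelRes le g • z - z = (H.relIndex D : ℤ) • (a : (L ≃ₐ[ℚ] L) → A) g := by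
    rw [natCast_zsmul]; exact hz ⟨g, hg⟩
  rw [smul_comm, ← smul_sub, e, smul_smul]
  conv_lhs => rw [← one_smul ℤ ((a : (L ≃ₐ[ℚ] L) → A) g), ← hst, add_smul, mul_smul t,
    natCast_zsmul, hε.killed, smul_zero, add_zero]

/-- A class which pairs to zero with every semilocal map at `q` is trivial at `q`. -/
theorem exists_decomp_coboundary (hLF : LocalFormationProperty p L q)
    (hLG : LocalGlobalProperty p L q) (a : levelCocycles (levelRes le) A)
    (ha : ∀ w : equivHom (C := J K) hε.isStable_ker, (∀ s, w.1 s ∈ supportedIn K {q}) →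
      dual hε le hu hk (projHom hε w) a = 0) :
    ∃ x : A, ∀ g ∈ decomp L q, (a : (L ≃ₐ[ℚ] L) → A) g = levelRes le g • x - x := by
  classical
  obtain ⟨ul, hul⟩ := hLF
  obtain ⟨P₀⟩ := (inferInstance : Nonempty (Sylow p (E L q ≃ₐ[ℚ_[(q : ℕ)]] E L q)))
  let φ : P₀.toSubgroup.map (toGlobal (q : ℕ) L) →* (E L q ≃ₐ[ℚ_[(q : ℕ)]] E L q) :=
    P₀.toSubgroup.subtype.comp
      (P₀.toSubgroup.equivMapOfInjective _ (toGlobal_injective (q : ℕ) L)).symm.toMonoidHom
  letI : DistribMulAction (P₀.toSubgroup.map (toGlobal (q : ℕ) L)) (Additive (E L q)ˣ) :=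
    DistribMulAction.compHom (Additive (E L q)ˣ) φ
  letI : Fintype (P₀.toSubgroup.map (toGlobal (q : ℕ) L)) := Fintype.ofFinite _
  obtain ⟨σ, hσj, hσs⟩ := exists_splitHom hu q hul hLG P₀.toSubgroup P₀.isPGroup'
  have huv : IsClassFormation p (comapCocycle φ (fun _ _ => rfl) ul) :=
    isClassFormation_comap (Subtype.val_injective.comp (MulEquiv.injective _)) (fun _ _ => rfl) hul
  obtain ⟨x₀, hx₀⟩ := exists_subgroup_coboundary hε le hu hk q (lc := loc' L q)
    (fun h c => by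
      show loc' L q (φ h • c) = _
      rw [loc'_smul]
      congr 1
      exact (Subgroup.coe_equivMapOfInjective_apply P₀.toSubgroup _
        (toGlobal_injective (q : ℕ) L) _).symm.trans
          (congrArg Subtype.val (MulEquiv.apply_symm_apply _ h)))
    (loc'_mem_supportedIn q) huv σ hσj hσs a ha
  refine exists_coboundary_of_index hε le ?_ a x₀ hx₀
  rw [show decomp L q = (⊤ : Subgroup _).map (toGlobal (q : ℕ) L) from MonoidHom.range_eq_map _,
    Subgroup.relIndex_map_map_of_injective P₀.toSubgroup ⊤ (toGlobal_injective (q : ℕ) L),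
    Subgroup.relIndex_top_right]
  exact P₀.not_dvd_index

end Fermat.Agent.CFT.PT
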