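import Fermat.Agent.CFT.Idele.KummerStep
import Fermat.Agent.CFT.PT.BigLevel

/-!
# Norms from the big level are `p`-th powers up to unit families off `S`
-/

set_option autoImplicit false
set_option synthInstance.maxHeartbeats 200000
set_option maxHeartbeats 800000
set_option linter.unusedSectionVars false
set_option linter.style.haveILetI false

noncomputable section

namespace Fermat.Agent.CFT.PT

open ExtCitation Fermat.Agent.Arith IntermediateField Fermat.Agent.CFT.Local Fermat.Agent.CFT.Idele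
open Fermat.Agent.CFT.Duality

local instance factPrimeNorms (q : Nat.Primes) : Fact (q : ℕ).Prime := ⟨q.2⟩

variable {p : ℕ} [hp : Fact p.Prime] {S : Finset Nat.Primes} {K : IntermediateField ℚ QBar}
  [FiniteDimensional ℚ K] [Normal ℚ K]

omit [FiniteDimensional ℚ K] in
theorem ker_levelRes_eq {L : IntermediateField ℚ QBar} [FiniteDimensional ℚ L] [Normal ℚ L]
    [FiniteDimensional ℚ K] (le : K ≤ L) :
    (levelRes le).ker = K.fixingSubgroup.map (res L) := by
  ext σ
  obtain ⟨g, rfl⟩ := AlgEquiv.restrictNormalHom_surjective (K₁ := L) QBar σ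
  rw [MonoidHom.mem_ker, levelRes_res, res_eq_one_iff]
  refine ⟨fun h => ⟨g, h, rfl⟩, fun ⟨t, ht, e⟩ => ?_⟩
  have h1 := IntermediateField.fixingSubgroup_antitone le ((res_eq_iff L).1 e)
  simpa using mul_mem ht h1

/-- `p`-th powers at a set containing `S` are `p`-th powers up to unit families off `S`. -/
theorem exists_of_mem_powAt {S' : Finset Nat.Primes} (hSS' : S ⊆ S') {e : PreIdele}
    (he : e ∈ powAt p S' K) :
    ∃ (z : J K) (w : J K), w ∈ unitsOff K (S : Set Nat.Primes) ∧
      e = ((p • z + w).toMul : idl K) := by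
  classical
  have hy : ∀ q g, ∃ y : (Ω q)ˣ, (y : Ω q) ∈ fieldAt q K g ∧
      (q ∈ S' → placeRep q K g = g → y ^ p = e q g) ∧ (q ∉ S' → y = 1) := fun q g => by
    by_cases h : q ∈ S' ∧ placeRep q K g = g
    · obtain ⟨y, hy, hye⟩ := he.2 q h.1 g h.2
      have hy0 : y ≠ 0 := fun h0 => (e q g).ne_zero (by rw [← hye, h0, zero_pow hp.out.ne_zero])
      exact ⟨Units.mk0 y hy0, hy, fun _ _ => Units.ext (by simpa using hye),
        fun h' => absurd h.1 h'⟩
    · exact ⟨1, one_mem _, fun h1 h2 => absurd ⟨h1, h2⟩ h, fun _ => rfl⟩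
  choose y hyF hyp hy1 using hy
  set z₀ := glue K (fun q => placeRep q K) y
  have hz₀ : z₀ ∈ idl K := glue_placeRep_mem_idl hyF S' fun q hq g => by
    rw [hy1 q g hq, Units.val_one, norm_one]
  set zi : idl K := ⟨z₀, hz₀⟩
  set ei : idl K := ⟨e, he.1.1⟩
  refine ⟨Additive.ofMul zi, Additive.ofMul ((zi ^ p)⁻¹ * ei), fun q σ => ?_, ?_⟩
  swap
  · show e = ((zi ^ p * ((zi ^ p)⁻¹ * ei) : idl K) : PreIdele)
    rw [mul_inv_cancel_left]
  set v : PreIdele := (z₀ ^ p)⁻¹ * e
  have hv : v ∈ idl K := mul_mem (inv_mem (pow_mem hz₀ p)) he.1.1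
  have hnorm : ∀ (q : Nat.Primes) g, ‖((v q g : (Ω q)ˣ) : Ω q)‖ = 1 ∧ (q ∈ S → v q g = 1) := by
    intro q g
    have key : ∀ g, placeRep q K g = g → q ∈ S' → v q g = 1 := fun g hg hq => by
      show ((z₀ q g) ^ p)⁻¹ * e q g = 1
      rw [show z₀ q g = y q g from glue_placeRep hyF hg, hyp q g hq hg, inv_mul_cancel]
    by_cases hq : q ∈ S'
    · obtain ⟨τ, s, hs, eq⟩ := placeRep_spec (q := q) (K := K) g
      have h1 : v q g = 1 := by
        refine Units.ext ?_
        rw [eq, apply_eq_of_rep hv q τ _ hs, key _ (placeRep_idem g) hq, Units.val_one, map_one]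
      exact ⟨by rw [h1, Units.val_one, norm_one], fun _ => h1⟩
    · refine ⟨?_, fun h => absurd (hSS' h) hq⟩
      rw [norm_value_eq hv q g]
      show ‖((((z₀ q _) ^ p)⁻¹ * e q _ : (Ω q)ˣ) : Ω q)‖ = 1
      rw [show z₀ q (placeRep q K g) = y q (placeRep q K g) from
        glue_placeRep hyF (placeRep_idem g), hy1 q _ hq, one_pow, inv_one, one_mul]
      exact he.1.2 q hq _
  refine ⟨?_, fun hq => ?_⟩
  · rw [mem_unitGroup, ← res_lift K σ, norm_val _ q rfl]
    exact (hnorm q _).1
  · refine Units.ext (Subtype.ext ?_)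
    rw [← res_lift K σ, coe_val _ q rfl]
    exact congrArg Units.val ((hnorm q _).2 hq)

/-- Norms from the big level are `p`-th powers up to unit families off `S`. -/
theorem exists_of_norm (hp2 : p ≠ 2) (hpS : pPrime p ∈ S) (hK : K.IsUnramifiedOutside S)
    {ζ : QBar} (hζ : IsPrimitiveRoot ζ p) (hζK : ζ ∈ K) {L : IntermediateField ℚ QBar}
    [FiniteDimensional ℚ L] [Normal ℚ L] (le : K ≤ L) (hbig : bigLevel p S K ≤ L)
    [Fintype (levelRes le).ker] (x : C L) :
    ∃ c : C K, ∃ w ∈ unitsOff K (S : Set Nat.Primes),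
      normSum (levelRes le).ker (C L) x = Duality.inclC le (p • c + proj K w) := by
  classical
  obtain ⟨X, rfl⟩ := proj_surjective L x
  obtain ⟨F, hF⟩ := exists_inclJ_eq le (x := normSum (levelRes le).ker (J L) X)
    fun n hn => smul_normSum (⟨n, hn⟩ : (levelRes le).ker) X
  have hsum : normSum (levelRes le).ker (C L) (proj L X) = proj L (inclJ le F) := by
    rw [hF, normSum, normSum, map_sum]
    exact Finset.sum_congr rfl fun n _ => (proj_smul L (n : L ≃ₐ[ℚ] L) X).symm
  rw [hsum, ← inclC_proj]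
  obtain ⟨S', hSS', hS'⟩ := exists_goodSet hp2 hζ hζK S
  set f : PreIdele := ((F.toMul : idl K) : PreIdele)
  have hmem : f ∈ (prinSub K ⊔ powAt p S' K) ⊔ unitsOffP (S : Set Nat.Primes) K := by
    by_contra hfE
    obtain ⟨b, hbK, hb0, hr, hpow, g₀, hg₀, hkum, hfN⟩ := exists_notMem_normSub hp2 hζ hζK hS'
      (by exact_mod_cast hpS) (Finset.coe_subset.2 hSS') F.toMul.2 hfE
    have hroot : rootP p b ∈ rootSet p S K := by
      refine ⟨rootP_ne_zero hb0, by rw [rootP_pow]; exact hbK, fun q hq g => ?_⟩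
      set r := placeRep q K g
      have hnb : ‖emb q (g b)‖ = ‖emb q (r b)‖ :=
        norm_value_eq (f := prin (Units.mk0 b hb0))
          (prin_mem_idl_iff.mpr (show Units.mk0 b hb0 ∈ unitsOf K from hbK)) q g
      obtain ⟨d, hd, hde⟩ := hpow q (by simpa using hq) r (placeRep_idem g)
      have hd0 : d ≠ 0 := fun h0 => by
        rw [h0, norm_zero, zero_pow hp.out.ne_zero, norm_eq_zero, map_eq_zero, map_eq_zero] at hde
        exact hb0 hde
      obtain ⟨x, hxK, hx0, hxd⟩ := exists_emb_norm_eq r hd hd0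
      obtain ⟨n, hn⟩ := exists_norm_eq_zpow_of_ur K hK hq
        (Units.map (localEmb (q : ℕ) K).toMonoidHom (res K r •
          (Units.mk0 ⟨x, hxK⟩ fun h => hx0 (congrArg Subtype.val h) : Kˣ)))
      have hn' : ‖emb q (r x)‖ = (q : ℝ) ^ n :=
        (norm_localEmb_res (q : ℕ) r (⟨x, hxK⟩ : K)).symm.trans hn
      refine ⟨n, (pow_left_inj₀ (norm_nonneg _) (zpow_nonneg (Nat.cast_nonneg _) _)
        hp.out.ne_zero).mp ?_⟩
      rw [← norm_pow, ← map_pow, ← map_pow, rootP_pow, hnb, hde, ← hxd, hn']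
    set M := kumField K (rootP p b)
    have hM : M ≤ L := sup_le le (IntermediateField.adjoin_le_iff.mpr fun y hy => by
      rw [Set.mem_singleton_iff] at hy
      subst hy
      exact hbig (mem_bigLevel hroot))
    have st := step_kumField hζ hζK hbK hb0 hg₀ hkum L hM
    letI : Fintype (K.fixingSubgroup.map (res L)) := Fintype.ofFinite _
    letI : Fintype (M.fixingSubgroup.map (res L)) := Fintype.ofFinite _
    set y : idl L := ∏ k : M.fixingSubgroup.map (res L), (k : L ≃ₐ[ℚ] L) • X.toMul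
    have hyM : (y : PreIdele) ∈ idl M :=
      (mem_fixedBy_idl_iff L y).1 (prod_smul_mem_fixedBy _ _)
    refine hfN (Subgroup.mem_sup_right ⟨(y : PreIdele), hyM, ?_⟩)
    show normStep p g₀ (y : PreIdele) = f
    rw [← coe_prod_smul]
    have e1 : (normSum (levelRes le).ker (J L) X).toMul =
        ∏ h : K.fixingSubgroup.map (res L), (h : L ≃ₐ[ℚ] L) • X.toMul := by
      rw [normSum, toMul_sum]
      exact Fintype.prod_equiv (MulEquiv.subgroupCongr (ker_levelRes_eq le)).toEquiv _ _ fun _ => rfl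
    have e2 : f = (((inclJ le F).toMul : idl L) : PreIdele) := rfl
    rw [e2, hF, e1, st.prod_eq fun h => h • X.toMul]
    refine congrArg Subtype.val (Finset.prod_congr rfl fun i _ => ?_)
    rw [Finset.smul_prod']
    exact Finset.prod_congr rfl fun k _ => (mul_smul _ _ _).symm
  obtain ⟨a, ha, u, hu, e1⟩ := Subgroup.mem_sup.mp hmem
  obtain ⟨_, ⟨c, hc, rfl⟩, e, he, e2⟩ := Subgroup.mem_sup.mp ha
  obtain ⟨z, w, hw, hzw⟩ := exists_of_mem_powAt hSS' he
  let uK : J K := Additive.ofMul (⟨u, hu.1⟩ : idl K)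
  have hu' : uK ∈ unitsOff K (S : Set Nat.Primes) := fun q σ => by
    refine ⟨?_, fun hq => Units.ext (Subtype.ext ?_)⟩
    · rw [mem_unitGroup, ← res_lift K σ, norm_val _ q rfl]
      exact (hu.2 q _).1
    · rw [← res_lift K σ, coe_val _ q rfl]
      exact congrArg Units.val ((hu.2 q _).2 hq)
  have hwu : w + uK ∈ unitsOff K (S : Set Nat.Primes) := add_mem hw hu'
  refine ⟨proj K z, w + uK, hwu, congrArg (Duality.inclC le) ?_⟩
  set cK : Kˣ := Units.mk0 ⟨(c : QBar), hc⟩ fun h => c.ne_zero (congrArg Subtype.val h)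
  have e3 : F = diag K (Additive.ofMul cK) + (p • z + w) + uK := by
    refine Additive.toMul.injective (Subtype.ext ?_)
    show f = prin (Units.map K.val.toRingHom.toMonoidHom cK) * ((p • z + w).toMul : idl K) * u
    rw [show Units.map K.val.toRingHom.toMonoidHom cK = c from Units.ext rfl, ← hzw, e2, e1]
  rw [e3]
  simp only [map_add, map_nsmul, proj_diag_zero, zero_add, add_assoc]

end Fermat.Agent.CFT.PT
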