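import Fermat.Agent.CFT.Duality.Main
import Fermat.Agent.CFT.PT.LinkedZero
import Fermat.Agent.CFT.PT.Coboundary

/-!
# Split maps are linked to zero, and pairings of linked maps
-/

set_option autoImplicit false
set_option synthInstance.maxHeartbeats 200000
set_option maxHeartbeats 800000
set_option linter.unusedSectionVars false
set_option linter.style.haveILetI false

noncomputable section

namespace Fermat.Agent.CFT.PT

open ExtCitation Fermat.Agent.Arith IntermediateField Fermat.Agent.CFT.Local Fermat.Agent.CFT.Idele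
open Fermat.Agent.CFT.Duality groupCohomology

local instance factPrimeSplitLink (q : Nat.Primes) : Fact (q : ℕ).Prime := ⟨q.2⟩

theorem eq_sub_sub_add_add {G : Type*} [AddCommGroup G] (f w v : G) : f = f - w - v + w + v := by
  abel

variable {K : IntermediateField ℚ QBar} [FiniteDimensional ℚ K] [Normal ℚ K]
  {A ι : Type*} [AddCommGroup A] [DistribMulAction (K ≃ₐ[ℚ] K) A] [Fintype ι] {p : ℕ}
  [hp : Fact p.Prime] {ε : Lat (K ≃ₐ[ℚ] K) ι →+ A} (hε : Presentation p ε) {S : Finset Nat.Primes}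

theorem mem_divOrd_of_supported {x : J K} (hx : x ∈ supportedIn K (S : Set Nat.Primes)) :
    x ∈ divOrd K p (S : Set Nat.Primes) := fun q hq g => ⟨0, by
  rw [normAt_of_supported hx hq, mul_zero, zpow_zero]⟩

theorem mem_divOrd_of_unitsOff {T : Set Nat.Primes} {x : J K} (hx : x ∈ unitsOff K T) :
    x ∈ divOrd K p (S : Set Nat.Primes) := fun q _ g => ⟨0, by
  rw [← norm_val_eq, mul_zero, zpow_zero]; exact (mem_unitGroup _).1 (hx q _).1⟩

/-- A split map is linked to zero. -/
theorem linked_zero_of_split (hKur : K.IsUnramifiedOutside S)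
    (f : equivHom (C := C K) hε.isStable_ker) (Y : Lat (K ≃ₐ[ℚ] K) ι →+ C K)
    (hY : ∀ (g : K ≃ₐ[ℚ] K) x, Y (g • x) = g • Y x) (w u : equivHom (C := J K) hε.isStable_ker)
    (hw : ∀ s, w.1 s ∈ supportedIn K (S : Set Nat.Primes))
    (hu : ∀ s, u.1 s ∈ unitsOff K (S : Set Nat.Primes))
    (hf : ∀ s : ε.ker, f.1 s = Y s + proj K (w.1 s) + proj K (u.1 s)) :
    Linked hε S 0 f.1 := by
  classical
  choose v hv using fun i : ι => proj_surjective K (Y (Lat.e i 1))
  let Y' : Lat (K ≃ₐ[ℚ] K) ι →+ J K := Lat.ofBasis fun i g => g • v i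
  have hY' : ∀ (g : K ≃ₐ[ℚ] K) x, Y' (g • x) = g • Y' x := fun g x =>
    Lat.map_smul_of_basis Y' g (fun i h => by simp only [Y', Lat.ofBasis_e, mul_smul]) x
  have hproj : (proj K).comp Y' = Y := Lat.hom_ext fun i g => by
    simp only [Y', AddMonoidHom.comp_apply, Lat.ofBasis_e, proj_smul, hv, ← hY, Lat.smul_e, mul_one]
  let b : ε.ker →+ J K := Y'.comp ε.ker.subtype + w.1 + u.1
  have hres : ∀ σ : K ≃ₐ[ℚ] K, levelRes (le_rfl : K ≤ K) σ = σ := fun σ => by
    obtain ⟨g, rfl⟩ := AlgEquiv.restrictNormalHom_surjective (K₁ := K) QBar σ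
    exact levelRes_res _ g
  refine ⟨K, inferInstance, inferInstance, le_rfl, hKur, b, 0, fun s => ?_, fun g s => ?_,
    fun x => ?_, fun g h => ?_⟩
  · have h1 : Duality.inclC (le_rfl : K ≤ K) (f.1 s) = f.1 s := by
      obtain ⟨y, hy⟩ := proj_surjective K (f.1 s)
      rw [← hy, inclC_proj]
      rfl
    rw [h1, hf s, ← hproj]
    simp only [b, AddMonoidHom.add_apply, AddMonoidHom.comp_apply, AddSubgroup.coe_subtype, map_add]
  · simp only [Pi.zero_apply, TwHom.zero_apply, map_zero, sub_eq_zero, hres]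
    have hb : b (smulS hε.isStable_ker g⁻¹ s) = g⁻¹ • b s := by
      simp only [b, AddMonoidHom.add_apply, AddMonoidHom.comp_apply, AddSubgroup.coe_subtype,
        coe_smulS, hY', w.2 g⁻¹ s, u.2 g⁻¹ s, smul_add]
    rw [hb, smul_inv_smul]
  · simp only [b, AddMonoidHom.add_apply, AddMonoidHom.comp_apply, AddSubgroup.coe_subtype]
    refine add_mem (add_mem ?_ (mem_divOrd_of_supported (hw _))) (mem_divOrd_of_unitsOff (hu _))
    rw [coe_mulP, map_nsmul]
    exact nsmul_mem_divOrd hKur p _
  · simp [dd]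

variable {L : IntermediateField ℚ QBar} [FiniteDimensional ℚ L] [Normal ℚ L] (le : K ≤ L)
  {u : NormCocycle (L ≃ₐ[ℚ] L) (C L)} (hu : IsClassFormation p u)
  (hk : IsPGroup p (levelRes le).ker)

set_option maxHeartbeats 4000000 in
/-- Maps linked to zero pair to zero with the classes trivial on `S`. -/
theorem dual_eq_zero_of_linked_zero (hL : L.IsUnramifiedOutside S)
    {f : equivHom (C := C K) hε.isStable_ker} (hl : Linked hε S 0 f.1)
    (a : levelCocycles (levelRes le) A)
    (ha : ∀ q ∈ S, ∃ x : A, ∀ g ∈ decomp L q, (a : (L ≃ₐ[ℚ] L) → A) g = levelRes le g • x - x) :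
    dual hε le hu hk f a = 0 := by
  obtain ⟨Y, w, v, hY, hw, hv, hf⟩ := exists_split_of_linked_zero hε hl
  obtain ⟨g, rfl⟩ : ∃ g : equivHom (C := C K) hε.isStable_ker,
      f = g + projHom hε w + projHom hε v :=
    ⟨f - projHom hε w - projHom hε v, eq_sub_sub_add_add _ _ _⟩
  rw [AddSubgroup.coe_add, AddSubgroup.coe_add, projHom_coe, projHom_coe] at hf
  have hg : g.1 = Y.comp ε.ker.subtype := add_right_cancel (add_right_cancel hf)
  have h0 : dual hε le hu hk g = 0 := theta_eq_zero_of_ext (levelSystem le hu hk) hε g Y hY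
    fun s => DFunLike.congr_fun hg s
  rw [map_add, map_add, h0, zero_add, AddMonoidHom.add_apply,
    dual_unitsOff hε le hu hk (fun q hq => (isUnramifiedOutside_iff L S).mp hL q (by simpa using hq))
      v hv,
    AddMonoidHom.zero_apply, add_zero, dual_local hε le hu hk S w hw a ha]

/-- Two maps linked to cohomologous cocycles pair equally with the classes trivial on `S`. -/
theorem dual_eq_of_linked (hL : L.IsUnramifiedOutside S)
    {c c' : GQ × GQ → DualMod K A} {f f' : equivHom (C := C K) hε.isStable_ker}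
    (hl : Linked hε S c f.1) (hl' : Linked hε S c' f'.1) (hd : Linked hε S (c - c') 0)
    (a : levelCocycles (levelRes le) A)
    (ha : ∀ q ∈ S, ∃ x : A, ∀ g ∈ decomp L q, (a : (L ≃ₐ[ℚ] L) → A) g = levelRes le g • x - x) :
    dual hε le hu hk f a = dual hε le hu hk f' a := by
  have h1 := (hl.add hl'.neg).add hd.neg
  rw [show c + -c' + -(c - c') = 0 by abel, neg_zero, add_zero, ← AddSubgroup.coe_neg,
    ← AddSubgroup.coe_add] at h1
  have h2 := dual_eq_zero_of_linked_zero hε le hu hk hL h1 a ha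
  rw [map_add, map_neg, AddMonoidHom.add_apply, AddMonoidHom.neg_apply, ← sub_eq_add_neg,
    sub_eq_zero] at h2
  exact h2

end Fermat.Agent.CFT.PT
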