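import Fermat.Agent.CFT.PT.Functionals
import Fermat.Agent.CFT.PT.SplitLink
import Fermat.Agent.CFT.PT.LocalSurj
import Fermat.Agent.CFT.PT.Norms

/-!
# Nondegeneracy: separation, and maps orthogonal to the locally trivial classes
-/

set_option autoImplicit false
set_option synthInstance.maxHeartbeats 200000
set_option maxHeartbeats 4000000
set_option linter.unusedSectionVars false
set_option linter.style.haveILetI false

noncomputable section

namespace Fermat.Agent.CFT.PT

open ExtCitation Fermat.Agent.Arith IntermediateField Fermat.Agent.CFT.Local Fermat.Agent.CFT.Idele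
open Fermat.Agent.CFT.Duality Fermat.Agent.CFT.Form groupCohomology

local instance factPrimeOrthogonal (q : Nat.Primes) : Fact (q : ℕ).Prime := ⟨q.2⟩

variable {K L : IntermediateField ℚ QBar} [FiniteDimensional ℚ K] [Normal ℚ K]
  [FiniteDimensional ℚ L] [Normal ℚ L]
  {A ι : Type*} [AddCommGroup A] [DistribMulAction (K ≃ₐ[ℚ] K) A] [Fintype ι] {p : ℕ}
  [hp : Fact p.Prime] {ε : Lat (K ≃ₐ[ℚ] K) ι →+ A} (hε : Presentation p ε) {S : Finset Nat.Primes}
  (le : K ≤ L) {u : NormCocycle (L ≃ₐ[ℚ] L) (C L)} (hu : IsClassFormation p u)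
  (hk : IsPGroup p (levelRes le).ker)

omit [Fintype ι] in
include hε in
theorem nsmul_levelCocycles (a : levelCocycles (levelRes le) A) : p • a = 0 :=
  Subtype.ext (funext fun g => by
    rw [AddSubmonoidClass.coe_nsmul, Pi.smul_apply, hε.killed]; rfl)

include hε hu hk in
/-- A cocycle which is not a coboundary pairs nontrivially with some equivariant map. -/
theorem exists_dual_ne_zero (a : levelCocycles (levelRes le) A)
    (ha : ∀ x : A, ∃ g, (a : (L ≃ₐ[ℚ] L) → A) g ≠ levelRes le g • x - x) :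
    ∃ f : equivHom (C := C K) hε.isStable_ker, dual hε le hu hk f a ≠ 0 := by
  let B : AddSubgroup (levelCocycles (levelRes le) A) :=
    { carrier := {b | ∃ x : A, ∀ g, (b : (L ≃ₐ[ℚ] L) → A) g = levelRes le g • x - x}
      add_mem' := by
        rintro b b' ⟨x, hx⟩ ⟨y, hy⟩
        exact ⟨x + y, fun g => by
          simp only [AddSubgroup.coe_add, Pi.add_apply, hx g, hy g, smul_add]; abel⟩
      zero_mem' := ⟨0, fun g => by simp⟩
      neg_mem' := by
        rintro b ⟨x, hx⟩
        exact ⟨-x, fun g => by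
          simp only [AddSubgroup.coe_neg, Pi.neg_apply, hx g, smul_neg]; abel⟩ }
  obtain ⟨μ, hμ, hμa⟩ := exists_hom_ne_zero_of_notMem (p := p) (B := B)
    (fun v => by rw [nsmul_levelCocycles hε le v]; exact B.zero_mem) (b := a)
    (by rintro ⟨x, hx⟩
        obtain ⟨g, hg⟩ := ha x
        exact hg (hx g))
  obtain ⟨f, hf⟩ := exists_dual_eq hε le hu hk μ fun b x hb => hμ b ⟨x, hb⟩
  exact ⟨f, by rw [hf]; exact hμa⟩

/-- The semilocal maps at `S`. -/
def semiLocalMaps (S : Finset Nat.Primes) :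
    AddSubgroup (equivHom (C := J K) hε.isStable_ker) where
  carrier := {w | ∀ s, w.1 s ∈ supportedIn K (S : Set Nat.Primes)}
  add_mem' {w w'} hw hw' s := by
    rw [AddSubgroup.coe_add, AddMonoidHom.add_apply]; exact add_mem (hw s) (hw' s)
  zero_mem' s := by rw [AddSubgroup.coe_zero, AddMonoidHom.zero_apply]; exact zero_mem _
  neg_mem' {w} hw s := by rw [AddSubgroup.coe_neg, AddMonoidHom.neg_apply]; exact neg_mem (hw s)

include hu hk in
/-- A map orthogonal to the classes trivial on `S` agrees with a semilocal map at `S`. -/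
theorem exists_semilocal_of_orthogonal [Finite A]
    (hLF : ∀ q ∈ S, LocalFormationProperty p L q) (hLG : ∀ q ∈ S, LocalGlobalProperty p L q)
    (f : equivHom (C := C K) hε.isStable_ker)
    (hf : ∀ a : levelCocycles (levelRes le) A,
      (∀ q ∈ S, ∃ x : A, ∀ g ∈ decomp L q, (a : (L ≃ₐ[ℚ] L) → A) g = levelRes le g • x - x) →
        dual hε le hu hk f a = 0) :
    ∃ w : equivHom (C := J K) hε.isStable_ker, (∀ s, w.1 s ∈ supportedIn K (S : Set Nat.Primes)) ∧
      dual hε le hu hk (f - projHom hε w) = 0 := by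
  let Λ := ((dual hε le hu hk).comp (projHom hε)).comp (semiLocalMaps hε S).subtype
  obtain ⟨⟨w, hw⟩, e⟩ : dual hε le hu hk f ∈ Λ.range :=
    mem_of_annihilates (nsmul_levelCocycles hε le) Λ.range _ fun a hr => hf a fun q hq =>
      exists_decomp_coboundary hε le hu hk q (hLF q hq) (hLG q hq) a fun w hw =>
        hr _ ⟨⟨w, fun s q' hq' σ => hw s q'
          (fun h => hq' (by rw [Set.mem_singleton_iff] at h; rw [h]; exact Finset.mem_coe.2 hq)) σ⟩,
          rfl⟩
  refine ⟨w, hw, ?_⟩
  rw [map_sub, sub_eq_zero]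
  exact e.symm

include hu hk in
/-- A map orthogonal to the classes trivial on `S` is linked to zero. -/
theorem linked_zero_of_orthogonal [Finite A] (hp2 : p ≠ 2) (hpS : pPrime p ∈ S)
    (hKur : K.IsUnramifiedOutside S) {ζ : QBar} (hζ : IsPrimitiveRoot ζ p) (hζK : ζ ∈ K)
    (hbig : bigLevel p S K ≤ L)
    (hLF : ∀ q ∈ S, LocalFormationProperty p L q) (hLG : ∀ q ∈ S, LocalGlobalProperty p L q)
    (f : equivHom (C := C K) hε.isStable_ker)
    (hf : ∀ a : levelCocycles (levelRes le) A,
      (∀ q ∈ S, ∃ x : A, ∀ g ∈ decomp L q, (a : (L ≃ₐ[ℚ] L) → A) g = levelRes le g • x - x) →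
        dual hε le hu hk f a = 0) :
    Linked hε S 0 f.1 := by
  letI : Fintype (levelRes le).ker := Fintype.ofFinite _
  obtain ⟨w, hw, h0⟩ := exists_semilocal_of_orthogonal hε le hu hk hLF hLG f hf
  obtain ⟨Y, v, hY, hv, e⟩ := exists_of_dual_eq_zero hε le hu hk
    (exists_of_norm hp2 hpS hKur hζ hζK le hbig) (f - projHom hε w) h0
  refine linked_zero_of_split hε hKur f Y hY w v hw hv fun s => ?_
  have e1 := DFunLike.congr_fun e s
  rw [AddSubgroup.coe_sub, AddMonoidHom.sub_apply, projHom_coe, sub_eq_iff_eq_add,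
    AddMonoidHom.add_apply, AddMonoidHom.comp_apply, AddMonoidHom.comp_apply,
    AddMonoidHom.comp_apply, AddSubgroup.coe_subtype] at e1
  rw [e1, add_right_comm]

end Fermat.Agent.CFT.PT
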