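import Fermat.Prelude.Def_GroupCohomology_ContinuousUnramified
import Fermat.Agent.CFT.Idele.SecondIneq
import Fermat.Agent.CFT.PT.Dict
import Fermat.Agent.CFT.PT.LocTriv
import Fermat.Agent.CFT.PT.LinkC
import Fermat.Agent.CFT.PT.LinkAny
import Fermat.Agent.CFT.PT.LocalLinked
import Fermat.Agent.CFT.PT.Archimedean
import Fermat.Agent.CFT.PT.Coboundary

/-!
# Classes in `Sha^2` and linked equivariant maps
-/

set_option autoImplicit false
set_option synthInstance.maxHeartbeats 200000
set_option maxHeartbeats 1000000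
set_option linter.unusedSectionVars false
set_option linter.style.haveILetI false

noncomputable section

namespace Fermat.Agent.CFT.PT

open CategoryTheory ExtCitation Fermat.Agent.Arith IntermediateField Fermat.Agent.CFT.Local
open Fermat.Agent.CFT.Idele Fermat.Agent.CFT.Duality groupCohomology Module

local instance factPrimeSha2 (q : Nat.Primes) : Fact (q : ℕ).Prime := ⟨q.2⟩

variable {p : ℕ} [hp : Fact p.Prime] {S : Finset Nat.Primes} {M : Rep (ZMod p) GQ}
  [FiniteDimensional (ZMod p) M] {K : IntermediateField ℚ QBar} [FiniteDimensional ℚ K]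
  [Normal ℚ K] (hK : GoodLevel S M K)

/-- Cochains of `M` read in the twisted dual of the module of the level. -/
def dualCochain {X : Type*} : (X → M) →+ (X → DualMod K (CarMod hK)) :=
  AddMonoidHom.mk' (fun c x => dualMap hK (c x)) fun c c' => funext fun x => map_add (dualMap hK) _ _

theorem dualCochain_apply {X : Type*} (c : X → M) (x : X) :
    dualCochain hK c x = dualMap hK (c x) := rfl

theorem dualCochain_d₁₂ (y : GQ → M) (g h : GQ) :
    dualCochain hK ((d₁₂ M).hom y) (g, h) = dd (dualCochain hK y) g h := by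
  simp only [dualCochain_apply, d₁₂_hom_apply, dd, map_add, map_sub, smul_dualMap]

theorem isCocycle₂_dualCochain {c : GQ × GQ → M} (hc : c ∈ cocycles₂ M) :
    IsCocycle₂ (dualCochain hK c) := fun g h j => by
  simp only [dualCochain_apply, smul_dualMap, ← map_add, (mem_cocycles₂_iff c).1 hc g h j]

theorem mem_cocycles₂_of_dualCochain {c : GQ × GQ → M} (hc : IsCocycle₂ (dualCochain hK c)) :
    c ∈ cocycles₂ M := (mem_cocycles₂_iff c).2 fun g h j => dualMap_injective hK (by
  have e := hc g h j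
  simp only [dualCochain_apply, smul_dualMap, ← map_add] at e
  exact e)

theorem res_eq_of_level {L : IntermediateField ℚ QBar} [Normal ℚ L] {X : Type*} {c : GQ → X}
    (h : ∀ g s, s ∈ L.fixingSubgroup → c (g * s) = c g) {g g' : GQ} (e : res L g = res L g') :
    c g = c g' := by
  rw [show g' = g * (g⁻¹ * g') by group, h g _ ((res_eq_iff L).1 e)]

/-- Cohomologous cocycles differ by a cocycle linked to zero. -/
theorem linked_sub_zero {ι : Type*} [Fintype ι] {ε : Lat (K ≃ₐ[ℚ] K) ι →+ CarMod hK}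
    (hε : Presentation p ε) {c c' : GQ × GQ → M} (h : c - c' ∈ levelCoboundariesS₂ S M) :
    Linked hε S (dualCochain hK c - dualCochain hK c') 0 := by
  obtain ⟨y, ⟨F, hF, hy⟩, e⟩ := (mem_levelCoboundariesS₂_iff S M _).1 h
  haveI := hF.1
  obtain ⟨L, hfd, hn, hur, hle⟩ := exists_normal_ur_ge (hF.sup hK.ur)
  letI := hfd; letI := hn
  refine linked_coboundary hε (le_sup_right.trans hle) hur (dualCochain hK y)
    (fun g g' hg => congrArg (dualMap hK) (res_eq_of_level (L := L) (fun g s hs =>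
      hy g s (IntermediateField.fixingSubgroup_antitone (le_sup_left.trans hle) hs)) hg))
    (fun z hz => exists_unitsToQ_eq hK (le_sup_right.trans hle) z hz) _ fun g h => ?_
  rw [← dualCochain_d₁₂, e, map_sub]

theorem locRes₂S_eq_zero_iff {H : Type} [Group H] (f : H →* GQ) (c : levelCocyclesS₂ S M) :
    locRes₂S S M f (continuousH2Sπ S M c) = 0 ↔
      ∃ y : H → M, IsLevelConstant₁ f y ∧
        ∀ g h, M.ρ (f g) (y h) - y (g * h) + y g = (c : GQ × GQ → M) (f g, f h) := by
  refine (continuousH2π_eq_zero_iff _ _ _).trans ((mem_levelCoboundaries₂_iff _ _ _).trans ?_)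
  refine exists_congr fun y => and_congr_right fun _ => ⟨fun e g h => ?_, fun e => ?_⟩
  · have e1 := congrFun e (g, h)
    rw [d₁₂_hom_apply] at e1
    exact e1
  · refine funext fun ⟨g, h⟩ => ?_
    rw [d₁₂_hom_apply]
    exact e g h

theorem exists_local_of_mem_sha₂ (c : levelCocyclesS₂ S M)
    (hc : continuousH2Sπ S M c ∈ sha₂ S M) {q : Nat.Primes} (hq : q ∈ S) :
    ∃ F : IntermediateField ℚ QBar, FiniteDimensional ℚ F ∧
      ∃ t : (Ω q ≃ₐ[ℚ_[(q : ℕ)]] Ω q) → DualMod K (CarMod hK),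
        (∀ τ τ', (loc q τ)⁻¹ * loc q τ' ∈ F.fixingSubgroup → t τ = t τ') ∧
        ∀ τ τ', dualCochain hK (c : GQ × GQ → M) (loc q τ, loc q τ') =
          loc q τ • t τ' - t (τ * τ') + t τ := by
  have e : locRes₂S S M (loc q) (continuousH2Sπ S M c) = 0 :=
    congrFun (LinearMap.mem_ker.1 hc) (Sum.inr ⟨q, hq⟩)
  obtain ⟨y, ⟨F, hF, hy⟩, e⟩ := (locRes₂S_eq_zero_iff (loc q) c).1 e
  refine ⟨F, hF, fun τ => dualMap hK (y τ), fun τ τ' hτ => congrArg (dualMap hK) ?_,
    fun τ τ' => ?_⟩
  · exact ((hy τ (τ⁻¹ * τ') (by rw [map_mul, map_inv]; exact hτ)).symm.trans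
      (congrArg y (mul_inv_cancel_left τ τ'))).trans rfl
  · rw [dualCochain_apply, smul_dualMap, ← map_sub, ← map_add]
    exact congrArg (dualMap hK) (e τ τ').symm

/-- A class of `Sha^2` is linked to an equivariant map. -/
theorem exists_linked_of_mem_sha₂ (hp2 : p ≠ 2) {ι : Type*} [Fintype ι]
    {ε : Lat (K ≃ₐ[ℚ] K) ι →+ CarMod hK} (hε : Presentation p ε) (c : levelCocyclesS₂ S M)
    (hc : continuousH2Sπ S M c ∈ sha₂ S M) :
    ∃ f : equivHom (C := C K) hε.isStable_ker,
      Linked hε S (dualCochain hK (c : GQ × GQ → M)) f.1 := by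
  classical
  obtain ⟨hcoc, F, hF, hconst⟩ := c.2
  haveI := hF.1
  obtain ⟨L, hfd, hn, hur, hle⟩ := exists_normal_ur_ge (hF.sup hK.ur)
  letI := hfd; letI := hn
  have le : K ≤ L := le_sup_right.trans hle
  obtain ⟨ζ, hζK, hζ⟩ := hK.zeta
  have hres : ∀ g g' h h' : GQ, res L g = res L g' → res L h = res L h' →
      (c : GQ × GQ → M) (g, h) = (c : GQ × GQ → M) (g', h') := fun g g' h h' eg eh => by
    have hm : ∀ {x y : GQ}, res L x = res L y → x⁻¹ * y ∈ F.fixingSubgroup := fun e =>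
      IntermediateField.fixingSubgroup_antitone (le_sup_left.trans hle) ((res_eq_iff L).1 e)
    rw [show g' = g * (g⁻¹ * g') by group, show h' = h * (h⁻¹ * h') by group,
      hconst g h _ _ (hm eg) (hm eh)]
  choose z hz using fun (σ τ : L ≃ₐ[ℚ] L) (a : CarMod hK) => exists_unitsToQ_eq hK le
    (dualMap hK ((c : GQ × GQ → M) (lift L σ, lift L τ)) a)
    (by rw [← map_nsmul, CarMod.killed, map_zero])
  let c₀ : (L ≃ₐ[ℚ] L) × (L ≃ₐ[ℚ] L) → TwHom (levelRes le) (CarMod hK) (Additive Lˣ) := fun x =>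
    TwHom.of (AddMonoidHom.mk' (z x.1 x.2) fun a b => unitsToQ_injective L (by
      rw [map_add (unitsToQ L), hz, hz, hz, map_add]))
  have hc₀ : ∀ g h, toQHom (c₀ (res L g, res L h)) = dualCochain hK (c : GQ × GQ → M) (g, h) :=
    fun g h => TwHom.ext fun a => by
      rw [toQHom_apply]
      show unitsToQ L (z _ _ a) = _
      rw [hz, hres _ g _ h (res_lift L _) (res_lift L _)]
      rfl
  have hc₀c : IsCocycle₂ c₀ := fun σ τ υ => by
    obtain ⟨g, rfl⟩ := AlgEquiv.restrictNormalHom_surjective (K₁ := L) QBar σ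
    obtain ⟨h, rfl⟩ := AlgEquiv.restrictNormalHom_surjective (K₁ := L) QBar τ
    obtain ⟨j, rfl⟩ := AlgEquiv.restrictNormalHom_surjective (K₁ := L) QBar υ
    apply toQHom_injective (K := K) (L := L) (h := le)
    rw [map_add, map_add, ← smul_toQHom, ← map_mul, ← map_mul, hc₀, hc₀, hc₀, hc₀]
    exact isCocycle₂_dualCochain hK hcoc g h j
  have hloc : ∀ q, LocTriv S c₀ q := fun q => by
    by_cases hq : q ∈ S
    · obtain ⟨F', hF', t, ht, htc⟩ := exists_local_of_mem_sha₂ hK c hc hq
      haveI := hF'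
      exact locTriv_of_local le hq c₀ hc₀c F' t ht
        (fun τ a => exists_unitsToQ_eq hK le _ (by rw [← map_nsmul, CarMod.killed, map_zero]))
        fun τ τ' => by rw [hc₀]; exact htc τ τ'
    · exact locTriv_of_unramified le (CarMod.killed hK) ((isUnramifiedOutside_iff L S).mp hur q hq)
        c₀ hc₀c
  obtain ⟨f, b, e, hl⟩ := exists_linked hε
    (fun P hP => (stepAxioms L hp2 (ζ := ⟨ζ, le hζK⟩)
      (IsPrimitiveRoot.of_map_of_injective (f := L.val) hζ L.val.injective)).h1Zero P hP)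
    c₀ hc₀c hloc (dualCochain hK (c : GQ × GQ → M)) fun g h => (hc₀ g h).symm
  exact ⟨f, L, hfd, hn, le, hur, b, e, hl⟩

theorem eq_of_dd {g : GQ} {a b c : DualMod K (CarMod hK)} {x : M}
    (e : dualMap hK x = g • a - b + c) :
    M.ρ g ((dualEquiv hK).symm a) - (dualEquiv hK).symm b + (dualEquiv hK).symm c = x := by
  refine dualMap_injective hK ?_
  rw [map_add, map_sub, ← smul_dualMap, e, ← dualEquiv_apply hK, ← dualEquiv_apply hK,
    ← dualEquiv_apply hK, AddEquiv.apply_symm_apply, AddEquiv.apply_symm_apply,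
    AddEquiv.apply_symm_apply]

/-- A cocycle linked to an equivariant map gives a class of `Sha^2`. -/
theorem mem_sha₂_of_linked (hp2 : p ≠ 2) {ι : Type*} [Fintype ι]
    {ε : Lat (K ≃ₐ[ℚ] K) ι →+ CarMod hK} (hε : Presentation p ε) (c : levelCocyclesS₂ S M)
    {f : ε.ker →+ C K} (hl : Linked hε S (dualCochain hK (c : GQ × GQ → M)) f) :
    continuousH2Sπ S M c ∈ sha₂ S M := by
  refine LinearMap.mem_ker.2 (funext fun v => ?_)
  rcases v with u | ⟨q, hq⟩
  · show locRes₂S S M archimedeanLoc (continuousH2Sπ S M c) = 0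
    obtain ⟨F, hF, t, ht, htc⟩ :=
      exists_arch_cochain hp2 (CarMod.killed hK) (isCocycle₂_dualCochain hK c.2.1)
    exact (locRes₂S_eq_zero_iff _ c).2 ⟨fun d => (dualEquiv hK).symm (t d),
      ⟨F, hF, fun d s hs => congrArg (dualEquiv hK).symm (ht d s hs)⟩,
      fun d d' => eq_of_dd hK (htc d d')⟩
  · show locRes₂S S M (loc q) (continuousH2Sπ S M c) = 0
    obtain ⟨F, hF, t, ht, htc⟩ := exists_local_cochain_of_linked hε hp2 hl q
    refine (locRes₂S_eq_zero_iff _ c).2 ⟨fun τ => (dualEquiv hK).symm (t τ),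
      ⟨F, hF, fun τ s hs => congrArg (dualEquiv hK).symm (ht τ (τ * s) ?_).symm⟩,
      fun τ τ' => eq_of_dd hK (htc τ τ')⟩
    rw [← map_inv, ← map_mul, inv_mul_cancel_left]
    exact hs

/-- Every equivariant map is linked to a cocycle of `M`. -/
theorem exists_cocycle_linked (hpS : pPrime p ∈ S) {ι : Type*} [Fintype ι]
    {ε : Lat (K ≃ₐ[ℚ] K) ι →+ CarMod hK} (hε : Presentation p ε)
    (f : equivHom (C := C K) hε.isStable_ker) :
    ∃ c : levelCocyclesS₂ S M, Linked hε S (dualCochain hK (c : GQ × GQ → M)) f.1 := by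
  obtain ⟨c, hc, hl, L, hfd, hn, hur, hconst⟩ := exists_linked_any hε hpS hK.ur f
  let c' : GQ × GQ → M := fun x => (dualEquiv hK).symm (c x)
  have e : dualCochain hK c' = c := funext fun x => by
    rw [dualCochain_apply, ← dualEquiv_apply hK, AddEquiv.apply_symm_apply]
  refine ⟨⟨c', mem_cocycles₂_of_dualCochain hK (e ▸ hc), L, hur, fun g h s t hs ht => ?_⟩,
    e.symm ▸ hl⟩
  refine congrArg (dualEquiv hK).symm (hconst _ _ _ _ ?_ ?_) <;>
    simp [map_mul, (res_eq_one_iff L).2 hs, (res_eq_one_iff L).2 ht]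

/-- A cocycle linked to zero is a coboundary. -/
theorem continuousH2Sπ_eq_zero_of_linked_zero (hpS : pPrime p ∈ S) {ι : Type*} [Fintype ι]
    {ε : Lat (K ≃ₐ[ℚ] K) ι →+ CarMod hK} (hε : Presentation p ε) (c : levelCocyclesS₂ S M)
    (hl : Linked hε S (dualCochain hK (c : GQ × GQ → M)) 0) : continuousH2Sπ S M c = 0 := by
  obtain ⟨L, hfd, hn, hur, x, hx, hcx⟩ := exists_coboundary_of_linked_zero hε hpS hl
  refine (continuousH2Sπ_eq_zero_iff S M c).2 ((mem_levelCoboundariesS₂_iff S M _).2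
    ⟨fun g => (dualEquiv hK).symm (x g), ⟨L, hur, fun g s hs => ?_⟩, funext fun ⟨g, h⟩ => ?_⟩)
  · exact congrArg (dualEquiv hK).symm (hx _ _ (by simp [map_mul, (res_eq_one_iff L).2 hs]))
  · refine dualMap_injective hK ?_
    have e := dualCochain_d₁₂ hK (fun g => (dualEquiv hK).symm (x g)) g h
    rw [dualCochain_apply] at e
    rw [e, ← dualCochain_apply hK (c : GQ × GQ → M), hcx g h]
    simp only [dd, dualCochain_apply, ← dualEquiv_apply hK, AddEquiv.apply_symm_apply]

end Fermat.Agent.CFT.PT
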