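import Fermat.Agent.CFT.PT.Classes
import Fermat.Agent.CFT.PT.Sha2
import Fermat.Agent.CFT.PT.Orthogonal

/-!
# The pairing between `Sha^1` of the twisted dual and `Sha^2`
-/

set_option autoImplicit false
set_option synthInstance.maxHeartbeats 200000
set_option maxHeartbeats 4000000
set_option linter.unusedSectionVars false
set_option linter.style.haveILetI false

noncomputable section

namespace Fermat.Agent.CFT.PT

open CategoryTheory ExtCitation Fermat.Agent.Arith IntermediateField Fermat.Agent.CFT.Local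
open Fermat.Agent.CFT.Idele Fermat.Agent.CFT.Duality Fermat.Agent.CFT.Form groupCohomology Module

variable {p : ℕ} [hp : Fact p.Prime] {S : Finset Nat.Primes} {M : Rep (ZMod p) GQ}
  [FiniteDimensional (ZMod p) M] {K : IntermediateField ℚ QBar} [FiniteDimensional ℚ K]
  [Normal ℚ K] (hK : GoodLevel S M K) {L : IntermediateField ℚ QBar} [FiniteDimensional ℚ L]
  [Normal ℚ L] (le : K ≤ L) (hur : L.IsUnramifiedOutside S)
  {u : NormCocycle (L ≃ₐ[ℚ] L) (C L)} (hu : IsClassFormation p u)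
  (hk : IsPGroup p (levelRes le).ker)

/-- The duality map on the locally trivial classes. -/
def dualRestr : equivHom (C := C K) (presentation_epsC hK).isStable_ker →+
    (locTrivSub S hK le →+ ZMod p) :=
  AddMonoidHom.mk'
    (fun f => (dual (presentation_epsC hK) le hu hk f).comp (locTrivSub S hK le).subtype)
    fun f f' => by rw [map_add, AddMonoidHom.add_comp]

theorem dualRestr_apply (f : equivHom (C := C K) (presentation_epsC hK).isStable_ker)
    (a : locTrivSub S hK le) :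
    dualRestr hK le hu hk f a = dual (presentation_epsC hK) le hu hk f a := rfl

/-- A functional on the locally trivial classes attached to a cocycle through a linked map. -/
def IsPairVal (c : levelCocyclesS₂ S M) (μ : locTrivSub S hK le →+ ZMod p) : Prop :=
  ∃ f : equivHom (C := C K) (presentation_epsC hK).isStable_ker,
    Linked (presentation_epsC hK) S (dualCochain hK (c : GQ × GQ → M)) f.1 ∧
      dualRestr hK le hu hk f = μ

include hur in
theorem isPairVal_unique {c c' : levelCocyclesS₂ S M} {μ μ' : locTrivSub S hK le →+ ZMod p}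
    (hc : continuousH2Sπ S M c = continuousH2Sπ S M c') (h : IsPairVal hK le hu hk c μ)
    (h' : IsPairVal hK le hu hk c' μ') : μ = μ' := by
  obtain ⟨f, hl, rfl⟩ := h
  obtain ⟨f', hl', rfl⟩ := h'
  have hd : (c : GQ × GQ → M) - (c' : GQ × GQ → M) ∈ levelCoboundariesS₂ S M := by
    rw [← Submodule.coe_sub, ← continuousH2Sπ_eq_zero_iff, map_sub, hc, sub_self]
  refine AddMonoidHom.ext fun a => ?_
  exact dual_eq_of_linked (presentation_epsC hK) le hu hk hur hl hl'
    (linked_sub_zero hK (presentation_epsC hK) hd) (a : levelCocycles (levelRes le) (CarMod hK))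
    a.2

theorem exists_isPairVal (hp2 : p ≠ 2) (x : sha₂ S M) :
    ∃ (c : levelCocyclesS₂ S M) (μ : locTrivSub S hK le →+ ZMod p),
      continuousH2Sπ S M c = x.1 ∧ IsPairVal hK le hu hk c μ := by
  obtain ⟨c, hc⟩ := Submodule.mkQ_surjective _ x.1
  obtain ⟨f, hf⟩ := exists_linked_of_mem_sha₂ hK hp2 (presentation_epsC hK) c
    (show continuousH2Sπ S M c ∈ sha₂ S M by rw [show continuousH2Sπ S M c = x.1 from hc]; exact x.2)
  exact ⟨c, _, hc, f, hf, rfl⟩

/-- The pairing, as a map on `Sha^2`. -/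
def pairVal (hp2 : p ≠ 2) : sha₂ S M →+ (locTrivSub S hK le →+ ZMod p) :=
  AddMonoidHom.mk' (fun x => (exists_isPairVal hK le hu hk hp2 x).choose_spec.choose) fun x y => by
    obtain ⟨hx, fx, hlx, ex⟩ := (exists_isPairVal hK le hu hk hp2 x).choose_spec.choose_spec
    obtain ⟨hy, fy, hly, ey⟩ := (exists_isPairVal hK le hu hk hp2 y).choose_spec.choose_spec
    obtain ⟨hz, hvz⟩ := (exists_isPairVal hK le hu hk hp2 (x + y)).choose_spec.choose_spec
    refine isPairVal_unique hK le hur hu hk (c' :=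
      (exists_isPairVal hK le hu hk hp2 x).choose + (exists_isPairVal hK le hu hk hp2 y).choose)
      (hz.trans (by rw [map_add, hx, hy]; rfl)) hvz ⟨fx + fy, ?_, ?_⟩
    · rw [AddSubgroup.coe_add, Submodule.coe_add, map_add]
      exact hlx.add hly
    · rw [map_add, ex, ey]

theorem pairVal_eq (hp2 : p ≠ 2) (x : sha₂ S M) {c : levelCocyclesS₂ S M}
    (hc : continuousH2Sπ S M c = x.1)
    {f : equivHom (C := C K) (presentation_epsC hK).isStable_ker}
    (hl : Linked (presentation_epsC hK) S (dualCochain hK (c : GQ × GQ → M)) f.1) :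
    pairVal hK le hur hu hk hp2 x = dualRestr hK le hu hk f := by
  obtain ⟨hx, hv⟩ := (exists_isPairVal hK le hu hk hp2 x).choose_spec.choose_spec
  exact isPairVal_unique hK le hur hu hk (hx.trans hc.symm) hv ⟨f, hl, rfl⟩

/-- The class of a locally trivial cocycle of the level. -/
def classHom (hp2 : p ≠ 2) :
    locTrivSub S hK le →+ sha₁ S (M.dualTwist (cycloChar p)) :=
  AddMonoidHom.mk' (fun a => ⟨(H1π (M.dualTwist (cycloChar p))).hom (fromLevel hK le a.1),
    mem_sha₁_of_locTriv hK le hp2 hur a.2⟩) fun a b => Subtype.ext (by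
      show (H1π (M.dualTwist (cycloChar p))).hom (fromLevel hK le (a.1 + b.1)) = _
      rw [map_add, map_add]
      rfl)

theorem classHom_surjective (hp2 : p ≠ 2) (hbig : bigLevel p S K ≤ L) :
    Function.Surjective (classHom hK le hur hp2) := fun y => by
  obtain ⟨a, ha, e⟩ := exists_locTriv_of_mem_sha₁ hK le hbig y.2
  exact ⟨⟨a, ha⟩, Subtype.ext e⟩

theorem classHom_eq_zero_iff (hp2 : p ≠ 2) (a : locTrivSub S hK le) :
    classHom hK le hur hp2 a = 0 ↔
      ∃ x : CarMod hK, ∀ g, (a.1 : (L ≃ₐ[ℚ] L) → CarMod hK) g = levelRes le g • x - x := by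
  rw [Subtype.ext_iff]
  show (H1π (M.dualTwist (cycloChar p))) (fromLevel hK le a.1) = 0 ↔ _
  rw [H1π_eq_zero_iff]
  constructor
  · rintro ⟨f, hf⟩
    refine ⟨CarMod.of hK f, fun σ => ?_⟩
    obtain ⟨g, rfl⟩ := AlgEquiv.restrictNormalHom_surjective (K₁ := L) QBar σ
    have e := congrArg (CarMod.of hK) (congrFun hf g)
    rw [fromLevel_apply, AddEquiv.apply_symm_apply] at e
    rw [← e, levelRes_res, CarMod.res_smul, ← map_sub]
    rfl
  · rintro ⟨x, hx⟩
    refine ⟨(CarMod.of hK).symm x, funext fun g => ?_⟩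
    refine (CarMod.of hK).injective ?_
    rw [fromLevel_apply, AddEquiv.apply_symm_apply, hx, levelRes_res,
      ← AddEquiv.apply_symm_apply (CarMod.of hK) x, CarMod.res_smul, ← map_sub,
      AddEquiv.apply_symm_apply]
    rfl

include hK in
/-- The nondegenerate pairing, from the class formations at one level. -/
theorem exists_pairing (hp2 : p ≠ 2) (hpS : pPrime p ∈ S) (hbig : bigLevel p S K ≤ L)
    (hLF : ∀ q ∈ S, LocalFormationProperty p L q) (hLG : ∀ q ∈ S, LocalGlobalProperty p L q)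
    (hur : L.IsUnramifiedOutside S) (hu : IsClassFormation p u)
    (hk : IsPGroup p (levelRes le).ker) :
    ∃ B : sha₁ S (M.dualTwist (cycloChar p)) →ₗ[ZMod p] sha₂ S M →ₗ[ZMod p] ZMod p,
      (∀ y, (∀ x, B y x = 0) → y = 0) ∧ (∀ x, (∀ y, B y x = 0) → x = 0) := by
  classical
  set hε := presentation_epsC hK
  set T := pairVal hK le hur hu hk hp2
  set ψ := classHom hK le hur hp2
  have hψ := classHom_surjective hK le hur hp2 hbig
  have hker : ∀ a, ψ a = 0 → T.flip a = 0 := fun a ha => AddMonoidHom.ext fun x => by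
    obtain ⟨y, hy⟩ := (classHom_eq_zero_iff hK le hur hp2 a).1 ha
    obtain ⟨c, μ, hc, f, hl, rfl⟩ := exists_isPairVal hK le hu hk hp2 x
    show T x a = 0
    rw [pairVal_eq hK le hur hu hk hp2 x hc hl, dualRestr_apply]
    exact theta_coboundary (levelSystem le hu hk) hε f a.1 y hy
  let B₀ : sha₁ S (M.dualTwist (cycloChar p)) →+ (sha₂ S M →+ ZMod p) :=
    AddMonoidHom.liftOfSurjective ψ hψ ⟨T.flip, fun a ha => AddMonoidHom.mem_ker.2
      (hker a (AddMonoidHom.mem_ker.1 ha))⟩
  have hB : ∀ a x, B₀ (ψ a) x = T x a := fun a x => DFunLike.congr_fun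
    (AddMonoidHom.liftOfRightInverse_comp_apply ψ _ _ ⟨T.flip, _⟩ a) x
  let B₁ : sha₁ S (M.dualTwist (cycloChar p)) →+ (sha₂ S M →ₗ[ZMod p] ZMod p) :=
    AddMonoidHom.mk' (fun y => AddMonoidHom.toZModLinearMap p (B₀ y)) fun y y' =>
      LinearMap.ext fun x => by
        show B₀ (y + y') x = B₀ y x + B₀ y' x
        rw [map_add, AddMonoidHom.add_apply]
  refine ⟨AddMonoidHom.toZModLinearMap p B₁, fun y hy => ?_, fun x hx => ?_⟩
  · obtain ⟨a, rfl⟩ := hψ y
    by_contra hne
    have ha : ∀ z : CarMod hK, ∃ g, (a.1 : (L ≃ₐ[ℚ] L) → CarMod hK) g ≠ levelRes le g • z - z := by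
      intro z
      by_contra hcon
      push Not at hcon
      exact hne ((classHom_eq_zero_iff hK le hur hp2 a).2 ⟨z, hcon⟩)
    obtain ⟨f, hf⟩ := exists_dual_ne_zero hε le hu hk a.1 ha
    obtain ⟨c, hl⟩ := exists_cocycle_linked hK hpS hε f
    have h1 : B₀ (ψ a) ⟨_, mem_sha₂_of_linked hK hp2 hε c hl⟩ = 0 := hy _
    rw [hB, pairVal_eq hK le hur hu hk hp2 _ (c := c) rfl hl, dualRestr_apply] at h1
    exact hf h1
  · obtain ⟨c, μ, hc, f, hl, rfl⟩ := exists_isPairVal hK le hu hk hp2 x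
    obtain ⟨ζ, hζK, hζ⟩ := hK.zeta
    have horth : Linked hε S 0 f.1 := linked_zero_of_orthogonal hε le hu hk hp2 hpS hK.ur hζ hζK
      hbig hLF hLG f fun a ha => by
        have h1 : B₀ (ψ ⟨a, ha⟩) x = 0 := hx _
        rw [hB, pairVal_eq hK le hur hu hk hp2 x hc hl, dualRestr_apply] at h1
        exact h1
    have h0 : Linked hε S (dualCochain hK (c : GQ × GQ → M)) 0 := by
      have h1 := hl.add horth.neg
      rwa [neg_zero, add_zero, ← sub_eq_add_neg, sub_self] at h1
    exact Subtype.ext (hc.symm.trans (continuousH2Sπ_eq_zero_of_linked_zero hK hpS hε c h0))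

/-- Nondegeneracy of the pairing between `Sha^1` and `Sha^2`, from the class formations. -/
theorem exists_sha_pairing {p : ℕ} [Fact p.Prime] (hp2 : p ≠ 2) (S : Finset Nat.Primes)
    (hpS : pPrime p ∈ S) (M : Rep (ZMod p) GQ) [FiniteDimensional (ZMod p) M]
    (hsm : ∀ m : M, ∃ F : IntermediateField ℚ QBar, FiniteDimensional ℚ F ∧
      ∀ s ∈ F.fixingSubgroup, M.ρ s m = m)
    (hMur : ∀ q : Nat.Primes, q ∉ S → ∀ A : ValuationSubring QBar,
      A.LiesOverPrime (q : ℕ) → ∀ g ∈ A.inertiaSubgroupIn ℚ, M.ρ g = 1)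
    (hGC : ∀ (L : IntermediateField ℚ QBar) [FiniteDimensional ℚ L] [Normal ℚ L],
      (∃ ζ : L, IsPrimitiveRoot ζ p) → GlobalFormationProperty p L)
    (hLF : ∀ (L : IntermediateField ℚ QBar) [FiniteDimensional ℚ L] [Normal ℚ L] (q : Nat.Primes),
      (∃ ζ : L, IsPrimitiveRoot ζ p) → LocalFormationProperty p L q)
    (hLG : ∀ (L : IntermediateField ℚ QBar) [FiniteDimensional ℚ L] [Normal ℚ L] (q : Nat.Primes),
      (∃ ζ : L, IsPrimitiveRoot ζ p) → LocalGlobalProperty p L q) :
    ∃ B : sha₁ S (M.dualTwist (cycloChar p)) →ₗ[ZMod p] sha₂ S M →ₗ[ZMod p] ZMod p,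
      (∀ y, (∀ x, B y x = 0) → y = 0) ∧ (∀ x, (∀ y, B y x = 0) → x = 0) := by
  obtain ⟨K, hKfd, hKn, hKur, hKζ, hKtriv⟩ := exists_level S hpS M hsm hMur
  letI := hKfd; letI := hKn
  have hK : GoodLevel S M K := ⟨hKur, hKζ, hKtriv⟩
  obtain ⟨ζ, hζK, hζ⟩ := hKζ
  haveI : FiniteDimensional ℚ (bigLevel p S K) := finiteDimensional_bigLevel hp2 hζ hζK
  haveI : Normal ℚ (bigLevel p S K) := normal_bigLevel
  have hζL : ∃ z : bigLevel p S K, IsPrimitiveRoot z p :=
    ⟨⟨ζ, le_bigLevel hζK⟩, IsPrimitiveRoot.of_map_of_injective (f := (bigLevel p S K).val) hζ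
      (bigLevel p S K).val.injective⟩
  obtain ⟨u, hu⟩ := hGC (bigLevel p S K) hζL
  exact exists_pairing hK le_bigLevel hp2 hpS le_rfl (fun q _ => hLF _ q hζL)
    (fun q _ => hLG _ q hζL) (isUnramifiedOutside_bigLevel hp2 hζ hζK hpS hKur) hu
    (isPGroup_bigLevel hζ hζK)

end Fermat.Agent.CFT.PT
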